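/-
S24, package MOD: the ABSTRACT ANALYTIC INTERFACE.

`AnalyticInput N` is what the analytic (C)-layer has to provide; `Fermat/Agent/S24/Mod/Tower.lean`
derives `Nonempty (ModularTower N)` from `Nonempty (AnalyticInput N)` by pure algebra.

Intended instantiation:
* `C := ℂ`, with `Algebra Kbar ℂ` coming from any embedding `Kbar →+* ℂ`;
* `M := FractionRing (Hol ℍ)` (meromorphic functions on the upper half plane);
* `act g f = f ∘ g⁻¹` (any homomorphism `SL(2,ℤ) →* (M ≃ₐ[C] M)` will do);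
* `Jd d = (τ ↦ j (d τ))`, so that `Jd 1 = j`.

No `sorry` in this file.
-/
import Fermat.Agent.S24.Defs

set_option autoImplicit false

open AlgebraicCurve IntermediateField
open scoped MatrixGroups
open ModularCurve

namespace Fermat.Agent.S24.Mod

/-- Index type of the generators of `F_N`: the divisors of `N`. -/
abbrev Dv (N : ℕ) : Type := {d : ℕ // d ∣ N}

instance instNeZeroDv (N : ℕ) [NeZero N] (d : Dv N) : NeZero d.1 :=
  ⟨fun h => NeZero.ne N (by have h2 := d.2; rw [h] at h2; exact zero_dvd_iff.mp h2)⟩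

/-- The formal series `j(q^d)` with coefficients in `Kbar`: a generator of `F_N`. -/
noncomputable def xK (N : ℕ) [NeZero N] (d : Dv N) : LaurentSeries Kbar :=
  coeffEmb Kbar (qExpand ℚ d.1 jq)

/-- The formal series `j(q^d)` with coefficients in an extension field `C` of `Kbar`. -/
noncomputable def xC (C : Type*) [Field C] [Algebra Kbar C] (N : ℕ) [NeZero N] (d : Dv N) :
    LaurentSeries C :=
  coeffMap (algebraMap Kbar C) (xK N d)

/-- An additive (`ℤ`-valued) valuation function on the nonzero elements of a subalgebra. -/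
structure IsValFunOn {C M : Type*} [Field C] [Field M] [Algebra C M] (A : Subalgebra C M)
    (ν : M → ℤ) : Prop where
  map_mul : ∀ a ∈ A, ∀ b ∈ A, a ≠ 0 → b ≠ 0 → ν (a * b) = ν a + ν b
  map_add : ∀ a ∈ A, ∀ b ∈ A, a ≠ 0 → b ≠ 0 → a + b ≠ 0 → min (ν a) (ν b) ≤ ν (a + b)
  map_const : ∀ c : C, c ≠ 0 → ν (algebraMap C M c) = 0

/-- The set of conjugates `g • j(d τ)`, `d ∣ N`, `g ∈ SL(2,ℤ)`. -/
def conjSet {C M : Type*} [Field C] [Field M] [Algebra C M] (act : SL(2, ℤ) →* (M ≃ₐ[C] M))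
    (Jd : ℕ → M) (N : ℕ) : Set M :=
  {s | ∃ d : ℕ, d ∣ N ∧ ∃ g : SL(2, ℤ), s = act g (Jd d)}

/-- The abstract analytic input of package MOD. -/
structure AnalyticInput (N : ℕ) [NeZero N] where
  /-- the big constant field (think `ℂ`) -/
  C : Type
  [instFieldC : Field C]
  [instAlgKC : Algebra Kbar C]
  /-- the ambient field (think: meromorphic functions on `ℍ`) -/
  M : Type
  [instFieldM : Field M]
  [instAlgCM : Algebra C M]
  /-- the action of the modular group -/
  act : SL(2, ℤ) →* (M ≃ₐ[C] M)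
  act_neg_one : act (-1) = 1
  /-- `Jd d` is the function `τ ↦ j (d τ)` -/
  Jd : ℕ → M
  /-- `j` is invariant under the modular group -/
  act_J : ∀ g, act g (Jd 1) = Jd 1
  /-- `j (d τ)` (`d ∣ N`) is invariant under `Γ₀(N)` -/
  act_Jd : ∀ d : ℕ, d ∣ N → ∀ g ∈ CongruenceSubgroup.Gamma0 N, act g (Jd d) = Jd d
  /-- the stabiliser of `j (N τ)` is contained in `Γ₀(N)` -/
  stab_JN : ∀ g, act g (Jd N) = Jd N → g ∈ CongruenceSubgroup.Gamma0 N
  /-- invariant elements of the ring generated by the conjugates are polynomials in `j` -/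
  inv_mem : ∀ b ∈ Algebra.adjoin C (conjSet act Jd N), (∀ g, act g b = b) →
    b ∈ Algebra.adjoin C {Jd 1}
  /-- the algebraic relations between the `j (d τ)` are those of the formal `q`-expansions -/
  rel : ∀ P : MvPolynomial (Dv N) C,
    MvPolynomial.aeval (fun d : Dv N => Jd d.1) P = 0 ↔ MvPolynomial.aeval (xC C N) P = 0
  /-- point valuations -/
  val_fin : ∀ c : Kbar, ∃ ν : M → ℤ, IsValFunOn (Algebra.adjoin C (conjSet act Jd N)) ν ∧
    0 < ν (Jd 1 - algebraMap C M (algebraMap Kbar C c)) ∧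
    ν (Jd 1 - algebraMap C M (algebraMap Kbar C c)) ≤ ellOrder c ∧
    (c = 1728 → ∀ a ∈ Algebra.adjoin C (conjSet act Jd N), a ≠ 0 →
      ν (act ModularGroup.S a) = ν a) ∧
    (c = 0 → ∀ a ∈ Algebra.adjoin C (conjSet act Jd N), a ≠ 0 →
      ν (act (ModularGroup.S * ModularGroup.T) a) = ν a)
  /-- the cusp valuation -/
  val_inf : ∃ ν : M → ℤ, IsValFunOn (Algebra.adjoin C (conjSet act Jd N)) ν ∧
    ν (Jd 1) < 0 ∧ -(N : ℤ) ≤ ν (Jd 1) ∧
    ∀ a ∈ Algebra.adjoin C (conjSet act Jd N), a ≠ 0 → ν (act ModularGroup.T a) = ν a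

attribute [instance] AnalyticInput.instFieldC AnalyticInput.instAlgKC AnalyticInput.instFieldM
  AnalyticInput.instAlgCM

end Fermat.Agent.S24.Mod
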