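/-
S24, package MOD (helper16): interface-only auxiliary lemmas for the glue
`AnalyticInput N → ModularTower N`:

* `conjSet` is stable under the action and finite;
* `T_zpow`: if `act (T^k)` fixes the conjugates then `N ∣ k`;
* valuation adapters: an `IsValFunOn (Algebra.adjoin C S) ν` gives, for every field `L` with an
  embedding into `C(S) ⊆ M`, a valuation subring of `L` with the clauses of
  `ModularTower.val_fin` / `val_inf`.

(complete proofs only)
-/
import Fermat.Agent.S24.Mod.Interface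
import Fermat.Agent.S24.ValExt

set_option autoImplicit false

open scoped MatrixGroups
open ModularCurve

namespace Fermat.Agent.S24.Mod.Aux16

section Conj

variable {C M : Type*} [Field C] [Field M] [Algebra C M]
variable (act : SL(2, ℤ) →* (M ≃ₐ[C] M)) (Jd : ℕ → M) (N : ℕ)

lemma Jd_mem_conjSet {d : ℕ} (hd : d ∣ N) : Jd d ∈ conjSet act Jd N :=
  ⟨d, hd, 1, by simp⟩

lemma act_mem_conjSet (g : SL(2, ℤ)) {s : M} (hs : s ∈ conjSet act Jd N) :
    act g s ∈ conjSet act Jd N := by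
  obtain ⟨d, hd, h, rfl⟩ := hs
  exact ⟨d, hd, g * h, by rw [map_mul]; rfl⟩

lemma act_mem_adjoin (g : SL(2, ℤ)) {a : M} (ha : a ∈ Algebra.adjoin C (conjSet act Jd N)) :
    act g a ∈ Algebra.adjoin C (conjSet act Jd N) := by
  induction ha using Algebra.adjoin_induction with
  | mem x hx => exact Algebra.subset_adjoin (act_mem_conjSet act Jd N g hx)
  | algebraMap r => rw [AlgEquiv.commutes]; exact Subalgebra.algebraMap_mem _ r
  | add x y _ _ hx hy => rw [map_add]; exact Subalgebra.add_mem _ hx hy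
  | mul x y _ _ hx hy => rw [map_mul]; exact Subalgebra.mul_mem _ hx hy

/-- The set of conjugates is finite, because `Γ₀(N)` has finite index and fixes the `Jd d`. -/
theorem conjSet_finite [NeZero N]
    (act_Jd : ∀ d : ℕ, d ∣ N → ∀ g ∈ CongruenceSubgroup.Gamma0 N, act g (Jd d) = Jd d) :
    (conjSet act Jd N).Finite := by
  classical
  have : Finite (SL(2, ℤ) ⧸ CongruenceSubgroup.Gamma0 N) :=
    Subgroup.finite_quotient_of_finiteIndex
  let f : (SL(2, ℤ) ⧸ CongruenceSubgroup.Gamma0 N) × ℕ → M :=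
    fun p => act (Quotient.out p.1) (Jd p.2)
  have hfin : (Set.univ ×ˢ (N.divisors : Set ℕ) :
      Set ((SL(2, ℤ) ⧸ CongruenceSubgroup.Gamma0 N) × ℕ)).Finite :=
    Set.finite_univ.prod (Finset.finite_toSet _)
  refine (hfin.image f).subset ?_
  rintro s ⟨d, hd, g, rfl⟩
  refine ⟨(QuotientGroup.mk g, d), ⟨Set.mem_univ _, ?_⟩, ?_⟩
  · simpa using (Nat.mem_divisors.mpr ⟨hd, NeZero.ne N⟩)
  · obtain ⟨h, hh⟩ := QuotientGroup.mk_out_eq_mul (CongruenceSubgroup.Gamma0 N) g
    show act (Quotient.out (QuotientGroup.mk g : SL(2, ℤ) ⧸ CongruenceSubgroup.Gamma0 N)) (Jd d)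
      = act g (Jd d)
    rw [hh, map_mul]
    show act g (act (h : SL(2, ℤ)) (Jd d)) = act g (Jd d)
    rw [act_Jd d hd h h.2]

/-- `S⁻¹ T^k S = [[1,0],[-k,1]]`, lower left entry. -/
lemma conj_T_zpow_entry (k : ℤ) :
    ((ModularGroup.S⁻¹ * ModularGroup.T ^ k * ModularGroup.S : SL(2, ℤ)) : Matrix (Fin 2) (Fin 2) ℤ)
      1 0 = -k := by
  rw [Matrix.SpecialLinearGroup.coe_mul, Matrix.SpecialLinearGroup.coe_mul,
    ModularGroup.coe_T_zpow, Matrix.SpecialLinearGroup.coe_inv]
  simp [ModularGroup.coe_S, Matrix.mul_apply, Fin.sum_univ_two, Matrix.adjugate_fin_two]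

/-- If `T^k` acts trivially on all conjugates then `N ∣ k`. -/
theorem dvd_of_act_T_zpow
    (stab_JN : ∀ g, act g (Jd N) = Jd N → g ∈ CongruenceSubgroup.Gamma0 N) (k : ℤ)
    (h : ∀ s ∈ conjSet act Jd N, act (ModularGroup.T ^ k) s = s) : (N : ℤ) ∣ k := by
  have hS : act ModularGroup.S (Jd N) ∈ conjSet act Jd N :=
    act_mem_conjSet act Jd N _ (Jd_mem_conjSet act Jd N dvd_rfl)
  have hfix : act (ModularGroup.S⁻¹ * ModularGroup.T ^ k * ModularGroup.S) (Jd N) = Jd N := by
    rw [map_mul, map_mul]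
    show act ModularGroup.S⁻¹ (act (ModularGroup.T ^ k) (act ModularGroup.S (Jd N))) = Jd N
    rw [h _ hS, map_inv]
    show (act ModularGroup.S)⁻¹ (act ModularGroup.S (Jd N)) = Jd N
    rw [AlgEquiv.aut_inv]
    exact AlgEquiv.symm_apply_apply _ _
  have hmem := stab_JN _ hfix
  rw [CongruenceSubgroup.Gamma0_mem, conj_T_zpow_entry] at hmem
  have h2 : ((k : ℤ) : ZMod N) = 0 := by simpa using hmem
  exact (ZMod.intCast_zmod_eq_zero_iff_dvd k N).mp h2

end Conj

section Val

open IntermediateField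
open scoped IntermediateField.algebraAdjoinAdjoin

variable {C M : Type*} [Field C] [Field M] [Algebra C M]

/-- A ring endomorphism of `M` preserving `C[S]` preserves `C(S)`. -/
lemma map_mem_adjoin_field (S : Set M) (τ : M →+* M)
    (hτ : ∀ a ∈ Algebra.adjoin C S, τ a ∈ Algebra.adjoin C S) {y : M}
    (hy : y ∈ IntermediateField.adjoin C S) : τ y ∈ IntermediateField.adjoin C S := by
  obtain ⟨r, hr, s, hs, rfl⟩ := IntermediateField.mem_adjoin_iff_div.mp hy
  rw [map_div₀]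
  exact div_mem (algebra_adjoin_le_adjoin C S (hτ r hr)) (algebra_adjoin_le_adjoin C S (hτ s hs))

/-- **Valuation adapter.** From an additive valuation function `ν` on the subalgebra `C[S] ⊆ M`
we get, for every field `L` with a ring embedding `ι : L →+* M` landing in `C(S)`, a valuation
subring `V` of `L` and an order function `νL : L → ℤ` with the clauses needed for
`ModularTower.val_fin` / `ModularTower.val_inf`. -/
theorem exists_val_of_embedding (S : Set M) (ν : M → ℤ)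
    (hν : IsValFunOn (Algebra.adjoin C S) ν)
    {L : Type*} [Field L] (ι : L →+* M) (hι : ∀ y, ι y ∈ IntermediateField.adjoin C S) :
    ∃ (V : ValuationSubring L) (νL : L → ℤ),
      (∀ y z : L, y ≠ 0 → z ≠ 0 → νL (y * z) = νL y + νL z) ∧
      (∀ y : L, y ≠ 0 → (y ∈ V ↔ 0 ≤ νL y)) ∧
      (∀ y : L, y ≠ 0 → ι y ∈ Algebra.adjoin C S → νL y = ν (ι y)) ∧
      (∀ (y : L) (c : C), ι y = algebraMap C M c → y ∈ V) ∧
      (∀ (σ : L → L) (τ : M →+* M), (∀ y, ι (σ y) = τ (ι y)) →
        (∀ a ∈ Algebra.adjoin C S, τ a ∈ Algebra.adjoin C S) →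
        (∀ a ∈ Algebra.adjoin C S, a ≠ 0 → ν (τ a) = ν a) →
          (∀ y : L, y ≠ 0 → νL (σ y) = νL y) ∧ ∀ y ∈ V, σ y ∈ V) := by
  classical
  -- the order function on the domain `C[S]`
  let A := Algebra.adjoin C S
  let E := IntermediateField.adjoin C S
  let ν0 : A → ℤ := fun a => ν a.1
  have hne : ∀ a : A, a ≠ 0 → (a : M) ≠ 0 := fun a ha h => ha (Subtype.ext h)
  have hmul : ∀ a b : A, a ≠ 0 → b ≠ 0 → ν0 (a * b) = ν0 a + ν0 b := fun a b ha hb =>
    hν.map_mul a.1 a.2 b.1 b.2 (hne a ha) (hne b hb)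
  have hadd : ∀ a b : A, a ≠ 0 → b ≠ 0 → a + b ≠ 0 → min (ν0 a) (ν0 b) ≤ ν0 (a + b) :=
    fun a b ha hb hab => hν.map_add a.1 a.2 b.1 b.2 (hne a ha) (hne b hb) (hne (a + b) hab)
  have hK : ∀ k : C, k ≠ 0 → ν0 (algebraMap C A k) = 0 := fun k hk => hν.map_const k hk
  obtain ⟨VE, νE, hconst, hmulE, hmemE, halgE, hinvE⟩ :=
    ValExt.exists_valuationSubring (K := C) (A := A) (L := E) ν0 hmul hadd hK
  -- the embedding `L → E`
  let ι' : L →+* E := ι.codRestrict E.toSubfield hι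
  have hι' : ∀ y, (ι' y : M) = ι y := fun y => rfl
  have hι'ne : ∀ y : L, y ≠ 0 → ι' y ≠ 0 := fun y hy =>
    (map_ne_zero_iff ι' ι'.injective).mpr hy
  refine ⟨VE.comap ι', fun y => νE (ι' y), ?_, ?_, ?_, ?_, ?_⟩
  · intro y z hy hz
    show νE (ι' (y * z)) = _
    rw [map_mul]
    exact hmulE _ _ (hι'ne y hy) (hι'ne z hz)
  · intro y hy
    rw [ValuationSubring.mem_comap]
    exact hmemE _ (hι'ne y hy)
  · intro y hy hyA
    have h1 : ι' y = algebraMap A E ⟨ι y, hyA⟩ := Subtype.ext rfl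
    have h2 : (⟨ι y, hyA⟩ : A) ≠ 0 := by
      intro h0
      have : ι y = 0 := congrArg Subtype.val h0
      exact hy ((map_eq_zero_iff ι ι.injective).mp this)
    show νE (ι' y) = ν (ι y)
    rw [h1, halgE _ h2]
  · intro y c hyc
    rw [ValuationSubring.mem_comap]
    have h1 : ι' y = algebraMap C E c := Subtype.ext (by rw [hι', hyc]; rfl)
    rw [h1]
    exact hconst c
  · intro σ τ hστ hτA hτν
    -- restrict `τ` to `E`
    have hτE : ∀ y : E, τ y.1 ∈ E := fun y => map_mem_adjoin_field S τ hτA y.2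
    let s : E →+* E := (τ.comp E.toSubfield.subtype).codRestrict E.toSubfield hτE
    let s0 : A → A := fun a => ⟨τ a.1, hτA a.1 a.2⟩
    have hs : ∀ a : A, s (algebraMap A E a) = algebraMap A E (s0 a) := fun a => Subtype.ext rfl
    have hnu : ∀ a : A, a ≠ 0 → ν0 (s0 a) = ν0 a := fun a ha => hτν a.1 a.2 (hne a ha)
    obtain ⟨h1, h2⟩ := hinvE s s0 hs hnu
    have hσ : ∀ y : L, ι' (σ y) = s (ι' y) := fun y => Subtype.ext (by
      rw [hι', hστ]; rfl)
    refine ⟨fun y hy => ?_, fun y hy => ?_⟩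
    · show νE (ι' (σ y)) = νE (ι' y)
      rw [hσ]
      exact h1 _ (hι'ne y hy)
    · rw [ValuationSubring.mem_comap] at hy ⊢
      rw [hσ]
      exact h2 _ hy

end Val

end Fermat.Agent.S24.Mod.Aux16
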