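/-
S24, package MOD (glue): valuation subrings of an intermediate field `L ⊆ Frac A ⊆ M` from an
additive valuation function `ν` on a subalgebra `A ⊆ M` (`Mod.IsValFunOn A ν`).

This discharges the fields `val_fin` and `val_inf` of `ModularTower` from the fields `val_fin`,
`val_inf` of `Mod.AnalyticInput`, for ANY choice of `L` inside the fraction field of `A`.

No `sorry` in this file.
-/
import Fermat.Agent.S24.Mod.Interface

set_option autoImplicit false

open IntermediateField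

namespace Fermat.Agent.S24.Mod.ValGlue14

variable {C M : Type*} [Field C] [Field M] [Algebra C M]

/-- `y` is a fraction of two elements of `A`. -/
def IsFrac (A : Subalgebra C M) (y : M) : Prop :=
  ∃ a ∈ A, ∃ b ∈ A, b ≠ 0 ∧ y = a / b

/-- The extension of `ν` to fractions (junk outside the fraction field of `A`, and at `0`). -/
noncomputable def nuExt (A : Subalgebra C M) (ν : M → ℤ) (y : M) : ℤ :=
  letI := Classical.propDecidable
  if h : ∃ p : M × M, p.1 ∈ A ∧ p.2 ∈ A ∧ p.2 ≠ 0 ∧ y = p.1 / p.2 then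
    ν h.choose.1 - ν h.choose.2 else 0

section basic

variable {A : Subalgebra C M} {ν : M → ℤ}

theorem isFrac_of_mem {a : M} (ha : a ∈ A) : IsFrac A a :=
  ⟨a, ha, 1, A.one_mem, one_ne_zero, by rw [div_one]⟩

theorem isFrac_zero : IsFrac A 0 := isFrac_of_mem A.zero_mem

theorem isFrac_one : IsFrac A 1 := isFrac_of_mem A.one_mem

theorem IsFrac.mul {y z : M} (hy : IsFrac A y) (hz : IsFrac A z) : IsFrac A (y * z) := by
  obtain ⟨a, ha, b, hb, hb0, rfl⟩ := hy
  obtain ⟨c, hc, d, hd, hd0, rfl⟩ := hz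
  exact ⟨a * c, A.mul_mem ha hc, b * d, A.mul_mem hb hd, mul_ne_zero hb0 hd0,
    by rw [div_mul_div_comm]⟩

theorem IsFrac.add {y z : M} (hy : IsFrac A y) (hz : IsFrac A z) : IsFrac A (y + z) := by
  obtain ⟨a, ha, b, hb, hb0, rfl⟩ := hy
  obtain ⟨c, hc, d, hd, hd0, rfl⟩ := hz
  exact ⟨a * d + b * c, A.add_mem (A.mul_mem ha hd) (A.mul_mem hb hc), b * d, A.mul_mem hb hd,
    mul_ne_zero hb0 hd0, by rw [div_add_div _ _ hb0 hd0]⟩

theorem IsFrac.inv {y : M} (hy : IsFrac A y) : IsFrac A y⁻¹ := by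
  obtain ⟨a, ha, b, hb, hb0, rfl⟩ := hy
  rcases eq_or_ne a 0 with rfl | ha0
  · rw [zero_div, inv_zero]; exact isFrac_zero
  · exact ⟨b, hb, a, ha, ha0, by rw [inv_div]⟩

theorem ν_one (hν : IsValFunOn A ν) : ν 1 = 0 := by
  have h := hν.map_const 1 one_ne_zero
  rwa [map_one] at h

/-- Well-definedness of `ν a - ν b`. -/
theorem sub_eq_sub_of_div_eq (hν : IsValFunOn A ν) {a b c d : M} (ha : a ∈ A) (hb : b ∈ A)
    (hc : c ∈ A) (hd : d ∈ A) (ha0 : a ≠ 0) (hb0 : b ≠ 0) (hd0 : d ≠ 0)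
    (h : a / b = c / d) : ν a - ν b = ν c - ν d := by
  have hc0 : c ≠ 0 := by
    rintro rfl
    rw [zero_div, div_eq_zero_iff] at h
    rcases h with h | h
    · exact ha0 h
    · exact hb0 h
  have hmul : a * d = c * b := by
    rw [div_eq_div_iff hb0 hd0] at h
    exact h
  have h1 := hν.map_mul a ha d hd ha0 hd0
  have h2 := hν.map_mul c hc b hb hc0 hb0
  rw [hmul] at h1
  omega

theorem nuExt_div (hν : IsValFunOn A ν) {a b : M} (ha : a ∈ A) (hb : b ∈ A) (ha0 : a ≠ 0)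
    (hb0 : b ≠ 0) : nuExt A ν (a / b) = ν a - ν b := by
  have hfr : ∃ p : M × M, p.1 ∈ A ∧ p.2 ∈ A ∧ p.2 ≠ 0 ∧ a / b = p.1 / p.2 :=
    ⟨(a, b), ha, hb, hb0, rfl⟩
  unfold nuExt
  rw [dif_pos hfr]
  obtain ⟨ha', hb', hb0', heq⟩ := hfr.choose_spec
  have ha0' : hfr.choose.1 ≠ 0 := by
    intro h0
    rw [h0, zero_div, div_eq_zero_iff] at heq
    rcases heq with h | h
    · exact ha0 h
    · exact hb0 h
  exact sub_eq_sub_of_div_eq hν ha' hb' ha hb ha0' hb0' hb0 heq.symm

theorem nuExt_of_mem (hν : IsValFunOn A ν) {a : M} (ha : a ∈ A) (ha0 : a ≠ 0) :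
    nuExt A ν a = ν a := by
  have h := nuExt_div hν ha A.one_mem ha0 one_ne_zero
  rw [div_one, ν_one hν, sub_zero] at h
  exact h

theorem nuExt_algebraMap (hν : IsValFunOn A ν) {c : C} (hc : c ≠ 0) :
    nuExt A ν (algebraMap C M c) = 0 := by
  have hne : algebraMap C M c ≠ 0 := by
    rwa [ne_eq, map_eq_zero]
  rw [nuExt_of_mem hν (A.algebraMap_mem c) hne]
  exact hν.map_const c hc

theorem nuExt_one (hν : IsValFunOn A ν) : nuExt A ν 1 = 0 := by
  rw [nuExt_of_mem hν A.one_mem one_ne_zero, ν_one hν]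

theorem nuExt_mul (hν : IsValFunOn A ν) {y z : M} (hy : IsFrac A y) (hz : IsFrac A z)
    (hy0 : y ≠ 0) (hz0 : z ≠ 0) : nuExt A ν (y * z) = nuExt A ν y + nuExt A ν z := by
  obtain ⟨a, ha, b, hb, hb0, rfl⟩ := hy
  obtain ⟨c, hc, d, hd, hd0, rfl⟩ := hz
  have ha0 : a ≠ 0 := by rintro rfl; exact hy0 (zero_div _)
  have hc0 : c ≠ 0 := by rintro rfl; exact hz0 (zero_div _)
  rw [div_mul_div_comm, nuExt_div hν (A.mul_mem ha hc) (A.mul_mem hb hd) (mul_ne_zero ha0 hc0)
    (mul_ne_zero hb0 hd0), nuExt_div hν ha hb ha0 hb0, nuExt_div hν hc hd hc0 hd0,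
    hν.map_mul a ha c hc ha0 hc0, hν.map_mul b hb d hd hb0 hd0]
  ring

theorem nuExt_inv (hν : IsValFunOn A ν) {y : M} (hy : IsFrac A y) (hy0 : y ≠ 0) :
    nuExt A ν y⁻¹ = - nuExt A ν y := by
  have h := nuExt_mul hν hy hy.inv hy0 (inv_ne_zero hy0)
  rw [mul_inv_cancel₀ hy0, nuExt_one hν] at h
  omega

theorem nuExt_neg (hν : IsValFunOn A ν) {y : M} (hy : IsFrac A y) (hy0 : y ≠ 0) :
    nuExt A ν (-y) = nuExt A ν y := by
  have hm1 : (-1 : M) = algebraMap C M (-1) := by rw [map_neg, map_one]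
  have hfr : IsFrac A (-1 : M) := by
    rw [hm1]; exact isFrac_of_mem (A.algebraMap_mem _)
  have h := nuExt_mul hν hfr hy (neg_ne_zero.mpr one_ne_zero) hy0
  rw [neg_one_mul] at h
  rw [h, hm1, nuExt_algebraMap hν (neg_ne_zero.mpr one_ne_zero), zero_add]

theorem nuExt_add (hν : IsValFunOn A ν) {y z : M} (hy : IsFrac A y) (hz : IsFrac A z)
    (hy0 : y ≠ 0) (hz0 : z ≠ 0) (hyz : y + z ≠ 0) :
    min (nuExt A ν y) (nuExt A ν z) ≤ nuExt A ν (y + z) := by
  obtain ⟨a, ha, b, hb, hb0, rfl⟩ := hy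
  obtain ⟨c, hc, d, hd, hd0, rfl⟩ := hz
  have ha0 : a ≠ 0 := by rintro rfl; exact hy0 (zero_div _)
  have hc0 : c ≠ 0 := by rintro rfl; exact hz0 (zero_div _)
  have hsum : a / b + c / d = (a * d + b * c) / (b * d) := div_add_div _ _ hb0 hd0
  have hnum : a * d + b * c ≠ 0 := by
    intro h0
    rw [hsum, h0, zero_div] at hyz
    exact hyz rfl
  rw [hsum, nuExt_div hν (A.add_mem (A.mul_mem ha hd) (A.mul_mem hb hc)) (A.mul_mem hb hd) hnum
    (mul_ne_zero hb0 hd0), nuExt_div hν ha hb ha0 hb0, nuExt_div hν hc hd hc0 hd0,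
    hν.map_mul b hb d hd hb0 hd0]
  have h1 := hν.map_add (a * d) (A.mul_mem ha hd) (b * c) (A.mul_mem hb hc)
    (mul_ne_zero ha0 hd0) (mul_ne_zero hb0 hc0) hnum
  rw [hν.map_mul a ha d hd ha0 hd0, hν.map_mul b hb c hc hb0 hc0] at h1
  rcases min_le_iff.mp (le_refl (min (ν a + ν d) (ν b + ν c))) with h | h
  · have := le_trans h h1
    exact min_le_iff.mpr (Or.inl (by omega))
  · have := le_trans h h1
    exact min_le_iff.mpr (Or.inr (by omega))

/-- Invariance of `nuExt` under an automorphism preserving `A` and `ν`. -/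
theorem nuExt_map (hν : IsValFunOn A ν) (σ : M ≃ₐ[C] M) (hσA : ∀ a ∈ A, σ a ∈ A)
    (hσν : ∀ a ∈ A, a ≠ 0 → ν (σ a) = ν a) {y : M} (hy : IsFrac A y) (hy0 : y ≠ 0) :
    nuExt A ν (σ y) = nuExt A ν y := by
  obtain ⟨a, ha, b, hb, hb0, rfl⟩ := hy
  have ha0 : a ≠ 0 := by rintro rfl; exact hy0 (zero_div _)
  have hσa0 : σ a ≠ 0 := by rwa [ne_eq, map_eq_zero_iff σ σ.injective]
  have hσb0 : σ b ≠ 0 := by rwa [ne_eq, map_eq_zero_iff σ σ.injective]
  rw [map_div₀, nuExt_div hν (hσA a ha) (hσA b hb) hσa0 hσb0, nuExt_div hν ha hb ha0 hb0,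
    hσν a ha ha0, hσν b hb hb0]

theorem IsFrac.map (σ : M ≃ₐ[C] M) (hσA : ∀ a ∈ A, σ a ∈ A) {y : M} (hy : IsFrac A y) :
    IsFrac A (σ y) := by
  obtain ⟨a, ha, b, hb, hb0, rfl⟩ := hy
  refine ⟨σ a, hσA a ha, σ b, hσA b hb, ?_, map_div₀ σ a b⟩
  rwa [ne_eq, map_eq_zero_iff σ σ.injective]

end basic

section main

variable {k : Type*} [Field k] [Algebra k C] [Algebra k M] [IsScalarTower k C M]

/-- The valuation subring of `L` attached to `ν`. -/
noncomputable def valSubring (A : Subalgebra C M) (ν : M → ℤ) (hν : IsValFunOn A ν)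
    (L : IntermediateField k M) (hL : ∀ y ∈ L, IsFrac A y) : ValuationSubring L where
  carrier := {y | (y : M) = 0 ∨ 0 ≤ nuExt A ν (y : M)}
  mul_mem' := by
    intro y z hy hz
    rcases hy with hy | hy
    · left; rw [MulMemClass.coe_mul, hy, zero_mul]
    rcases hz with hz | hz
    · left; rw [MulMemClass.coe_mul, hz, mul_zero]
    by_cases hy0 : (y : M) = 0
    · left; rw [MulMemClass.coe_mul, hy0, zero_mul]
    by_cases hz0 : (z : M) = 0
    · left; rw [MulMemClass.coe_mul, hz0, mul_zero]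
    right
    rw [MulMemClass.coe_mul, nuExt_mul hν (hL _ y.2) (hL _ z.2) hy0 hz0]
    omega
  one_mem' := by
    right
    rw [OneMemClass.coe_one, nuExt_one hν]
  add_mem' := by
    intro y z hy hz
    by_cases hy0 : (y : M) = 0
    · have : y + z = z := by
        apply Subtype.ext; rw [AddMemClass.coe_add, hy0, zero_add]
      rw [this]; exact hz
    by_cases hz0 : (z : M) = 0
    · have : y + z = y := by
        apply Subtype.ext; rw [AddMemClass.coe_add, hz0, add_zero]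
      rw [this]; exact hy
    by_cases hyz : (y : M) + (z : M) = 0
    · left; rw [AddMemClass.coe_add]; exact hyz
    right
    have hy' : 0 ≤ nuExt A ν (y : M) := hy.resolve_left hy0
    have hz' : 0 ≤ nuExt A ν (z : M) := hz.resolve_left hz0
    rw [AddMemClass.coe_add]
    exact le_trans (le_min hy' hz') (nuExt_add hν (hL _ y.2) (hL _ z.2) hy0 hz0 hyz)
  zero_mem' := Or.inl rfl
  neg_mem' := by
    intro y hy
    by_cases hy0 : (y : M) = 0
    · left; rw [NegMemClass.coe_neg, hy0, neg_zero]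
    right
    rw [NegMemClass.coe_neg, nuExt_neg hν (hL _ y.2) hy0]
    exact hy.resolve_left hy0
  mem_or_inv_mem' := by
    intro y
    by_cases hy0 : (y : M) = 0
    · left; left; exact hy0
    have hinv : ((y⁻¹ : L) : M) = (y : M)⁻¹ := rfl
    rcases le_total 0 (nuExt A ν (y : M)) with h | h
    · left; right; exact h
    · right; right
      rw [hinv, nuExt_inv hν (hL _ y.2) hy0]
      omega

omit [Algebra k C] [IsScalarTower k C M] in
theorem mem_valSubring_iff (A : Subalgebra C M) (ν : M → ℤ) (hν : IsValFunOn A ν)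
    (L : IntermediateField k M) (hL : ∀ y ∈ L, IsFrac A y) (y : L) :
    y ∈ valSubring A ν hν L hL ↔ (y : M) = 0 ∨ 0 ≤ nuExt A ν (y : M) := Iff.rfl

/-- MAIN THEOREM: from an additive valuation function on `A` to a valuation subring of `L` in the
exact shape of `ModularTower.val_fin` / `val_inf`. -/
theorem exists_valuationSubring (A : Subalgebra C M) (ν : M → ℤ) (hν : IsValFunOn A ν)
    (L : IntermediateField k M) (hL : ∀ y ∈ L, IsFrac A y) :
    ∃ (V : ValuationSubring L) (ν' : L → ℤ),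
      (∀ a : k, algebraMap k L a ∈ V) ∧
      (∀ y z : L, y ≠ 0 → z ≠ 0 → ν' (y * z) = ν' y + ν' z) ∧
      (∀ y : L, y ≠ 0 → (y ∈ V ↔ 0 ≤ ν' y)) ∧
      (∀ y : L, (y : M) ∈ A → y ≠ 0 → ν' y = ν (y : M)) ∧
      (∀ σ : M ≃ₐ[C] M, (∀ a ∈ A, σ a ∈ A) → (∀ a ∈ A, a ≠ 0 → ν (σ a) = ν a) →
        ∀ (y : L) (hy : σ (y : M) ∈ L), (y ≠ 0 → ν' ⟨σ (y : M), hy⟩ = ν' y) ∧
          (y ∈ V → (⟨σ (y : M), hy⟩ : L) ∈ V)) := by
  refine ⟨valSubring A ν hν L hL, fun y => nuExt A ν (y : M), ?_, ?_, ?_, ?_, ?_⟩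
  · intro a
    rw [mem_valSubring_iff]
    by_cases ha : a = 0
    · left; rw [ha, map_zero]; rfl
    · right
      have h1 : ((algebraMap k L a : L) : M) = algebraMap C M (algebraMap k C a) := by
        rw [← IsScalarTower.algebraMap_apply k C M]; rfl
      rw [h1, nuExt_algebraMap hν]
      rwa [ne_eq, map_eq_zero]
  · intro y z hy hz
    have hy0 : (y : M) ≠ 0 := fun h => hy (Subtype.ext h)
    have hz0 : (z : M) ≠ 0 := fun h => hz (Subtype.ext h)
    show nuExt A ν ((y * z : L) : M) = _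
    rw [MulMemClass.coe_mul, nuExt_mul hν (hL _ y.2) (hL _ z.2) hy0 hz0]
  · intro y hy
    have hy0 : (y : M) ≠ 0 := fun h => hy (Subtype.ext h)
    rw [mem_valSubring_iff]
    constructor
    · intro h; exact h.resolve_left hy0
    · intro h; exact Or.inr h
  · intro y hyA hy
    have hy0 : (y : M) ≠ 0 := fun h => hy (Subtype.ext h)
    exact nuExt_of_mem hν hyA hy0
  · intro σ hσA hσν y hy
    constructor
    · intro hy0
      have hy0' : (y : M) ≠ 0 := fun h => hy0 (Subtype.ext h)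
      exact nuExt_map hν σ hσA hσν (hL _ y.2) hy0'
    · intro hyV
      rw [mem_valSubring_iff] at hyV ⊢
      by_cases hy0 : (y : M) = 0
      · left; show σ (y : M) = 0; rw [hy0, map_zero]
      · right
        show 0 ≤ nuExt A ν (σ (y : M))
        rw [nuExt_map hν σ hσA hσν (hL _ y.2) hy0]
        exact hyV.resolve_left hy0

end main

section adjoin

variable {k : Type*} [Field k] [Algebra k C] [Algebra k M] [IsScalarTower k C M]

/-- Every element of `k(S)` is a fraction of two elements of `C[S]`. -/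
theorem isFrac_of_mem_adjoin (S : Set M) {y : M} (hy : y ∈ IntermediateField.adjoin k S) :
    IsFrac (Algebra.adjoin C S) y := by
  have hle : IntermediateField.adjoin k S ≤
      (IntermediateField.adjoin C S).restrictScalars k := by
    rw [IntermediateField.adjoin_le_iff]
    intro s hs
    exact IntermediateField.subset_adjoin C S hs
  have hy' : y ∈ IntermediateField.adjoin C S := hle hy
  obtain ⟨r, hr, s, hs, rfl⟩ := IntermediateField.mem_adjoin_iff_div.mp hy'
  rcases eq_or_ne s 0 with rfl | hs0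
  · rw [div_zero]; exact isFrac_zero
  · exact ⟨r, hr, s, hs, hs0, rfl⟩

end adjoin

end Fermat.Agent.S24.Mod.ValGlue14
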