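/-
S24 / MOD glue (helper24): `Mod.AnalyticInput N → Nonempty (ModularTower N)`,
assembled from landed files: `Br46Rel` (helper46), `FixedFieldAI` (helper89), `Mod/Aux16` (helper16),
`Mod/ValGlue14` (helper14).
-/
import Fermat.Agent.S24.Mod.Interface
import Fermat.Agent.S24.Mod.Aux16
import Fermat.Agent.S24.Mod.ValGlue14
import Fermat.Agent.S24.FixedFieldAI
import Fermat.Agent.S24.Br46Rel

set_option autoImplicit false

open AlgebraicCurve IntermediateField
open scoped MatrixGroups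
open ModularCurve

namespace Fermat.Agent.S24.Mod.Glue24

open Fermat.Agent.S24.Mod

variable {N : ℕ} [NeZero N] (AI : AnalyticInput N)

/-- the `Kbar`-algebra structure on the ambient field -/
@[reducible] noncomputable def algKM : Algebra Kbar AI.M :=
  ((algebraMap AI.C AI.M).comp (algebraMap Kbar AI.C)).toAlgebra

attribute [local instance] algKM

instance towerKCM : IsScalarTower Kbar AI.C AI.M := IsScalarTower.of_algebraMap_eq (fun _ => rfl)

/-- the set of conjugates -/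
abbrev S : Set AI.M := conjSet AI.act AI.Jd N

/-- the top field of the tower -/
noncomputable abbrev Ltop : IntermediateField Kbar AI.M := IntermediateField.adjoin Kbar (S AI)

theorem act_mem (g : SL(2, ℤ)) {y : AI.M} (hy : y ∈ Ltop AI) : AI.act g y ∈ Ltop AI := by
  have hmap : (Ltop AI).map ((AI.act g).restrictScalars Kbar : AI.M ≃ₐ[Kbar] AI.M).toAlgHom ≤
      Ltop AI := by
    rw [IntermediateField.adjoin_map, IntermediateField.adjoin_le_iff]
    rintro _ ⟨s, hs, rfl⟩
    exact IntermediateField.subset_adjoin _ _ (Aux16.act_mem_conjSet AI.act AI.Jd N g hs)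
  exact hmap ⟨y, hy, rfl⟩

/-- the action on the top field -/
noncomputable def rhoFun (g : SL(2, ℤ)) : Ltop AI ≃ₐ[Kbar] Ltop AI where
  toFun y := ⟨AI.act g y.1, act_mem AI g y.2⟩
  invFun y := ⟨AI.act g⁻¹ y.1, act_mem AI g⁻¹ y.2⟩
  left_inv y := by
    apply Subtype.ext
    show AI.act g⁻¹ (AI.act g y.1) = y.1
    rw [← AlgEquiv.mul_apply, ← map_mul, inv_mul_cancel, map_one]; rfl
  right_inv y := by
    apply Subtype.ext
    show AI.act g (AI.act g⁻¹ y.1) = y.1
    rw [← AlgEquiv.mul_apply, ← map_mul, mul_inv_cancel, map_one]; rfl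
  map_mul' x y := by
    apply Subtype.ext
    show AI.act g (x.1 * y.1) = AI.act g x.1 * AI.act g y.1
    rw [map_mul]
  map_add' x y := by
    apply Subtype.ext
    show AI.act g (x.1 + y.1) = AI.act g x.1 + AI.act g y.1
    rw [map_add]
  commutes' k := by
    apply Subtype.ext
    show AI.act g (algebraMap AI.C AI.M (algebraMap Kbar AI.C k)) =
      algebraMap AI.C AI.M (algebraMap Kbar AI.C k)
    rw [AlgEquiv.commutes]

theorem coe_rhoFun (g : SL(2, ℤ)) (y : Ltop AI) : ((rhoFun AI g y : Ltop AI) : AI.M) = AI.act g y.1 :=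
  rfl

/-- the action as a monoid hom -/
noncomputable def rho : SL(2, ℤ) →* (Ltop AI ≃ₐ[Kbar] Ltop AI) where
  toFun := rhoFun AI
  map_one' := by
    apply AlgEquiv.ext
    intro y
    apply Subtype.ext
    rw [coe_rhoFun, map_one]; rfl
  map_mul' g h := by
    apply AlgEquiv.ext
    intro y
    apply Subtype.ext
    rw [coe_rhoFun, map_mul]; rfl

theorem coe_rho (g : SL(2, ℤ)) (y : Ltop AI) : ((rho AI g y : Ltop AI) : AI.M) = AI.act g y.1 := rfl

/-! ### finiteness of the range -/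

theorem S_finite : (S AI).Finite := Aux16.conjSet_finite AI.act AI.Jd N AI.act_Jd

theorem S_sub : S AI ⊆ (Ltop AI : Set AI.M) := IntermediateField.subset_adjoin _ _

/-- an automorphism of the top field is determined by its values on the conjugates -/
theorem algEquiv_ext_of_S {σ σ' : Ltop AI ≃ₐ[Kbar] Ltop AI}
    (h : ∀ s (hs : s ∈ S AI), σ ⟨s, S_sub AI hs⟩ = σ' ⟨s, S_sub AI hs⟩) : σ = σ' := by
  have : (σ : Ltop AI →ₐ[Kbar] Ltop AI) = (σ' : Ltop AI →ₐ[Kbar] Ltop AI) :=
    IntermediateField.adjoin_algHom_ext Kbar (fun x hx => h x hx)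
  exact AlgEquiv.ext fun y => DFunLike.congr_fun this y

theorem finite_range : Finite (rho AI).range := by
  have hSfin : Finite (S AI) := (S_finite AI).to_subtype
  let Φ : (rho AI).range → (S AI → S AI) := fun σ s =>
    ⟨((σ : Ltop AI ≃ₐ[Kbar] Ltop AI) ⟨s.1, S_sub AI s.2⟩ : Ltop AI).1, by
      obtain ⟨g, hg⟩ := σ.2
      rw [← hg]
      exact Aux16.act_mem_conjSet AI.act AI.Jd N g s.2⟩
  refine Finite.of_injective Φ ?_
  intro σ σ' hσ
  apply Subtype.ext
  apply algEquiv_ext_of_S AI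
  intro s hs
  apply Subtype.ext
  have := congrArg (fun f => (f ⟨s, hs⟩ : S AI).1) hσ
  exact this

theorem rho_neg_one : rho AI (-1) = 1 := by
  apply AlgEquiv.ext
  intro y
  apply Subtype.ext
  rw [coe_rho, AI.act_neg_one]; rfl

theorem T_zpow (k : ℤ) (h : rho AI (ModularGroup.T ^ k) = 1) : (N : ℤ) ∣ k := by
  refine Aux16.dvd_of_act_T_zpow AI.act AI.Jd N AI.stab_JN k ?_
  intro s hs
  have := congrArg (fun σ : Ltop AI ≃ₐ[Kbar] Ltop AI => ((σ ⟨s, S_sub AI hs⟩ : Ltop AI) : AI.M)) h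
  exact this

/-! ### the embedding of `F_N` -/

open Fermat.Agent.S24.Br46 in
theorem exists_Phi : ∃ ψ : FN N →ₐ[Kbar] AI.M,
    (∀ d : Dv N, ψ ⟨xK N d, xK_mem N d⟩ = AI.Jd d.1) ∧ ψ (jF N) = AI.Jd 1 :=
  exists_algHom_FN_of_relC N (fun d : Dv N => AI.Jd d.1) AI.rel

/-- generators of `F_N` -/
theorem FN_top_eq : (⊤ : IntermediateField Kbar (FN N)) =
    IntermediateField.adjoin Kbar
      (Set.range fun d : Dv N => (⟨xK N d, Br46.xK_mem N d⟩ : FN N)) := by
  symm
  rw [eq_top_iff]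
  intro f _
  have hf : (f : LaurentSeries Kbar) ∈ IntermediateField.adjoin Kbar (Set.range (xK N)) := by
    rw [← Br46.modularFunctionFieldBar_eq_adjoin N]; exact f.2
  have hmap : (IntermediateField.adjoin Kbar
      (Set.range fun d : Dv N => (⟨xK N d, Br46.xK_mem N d⟩ : FN N))).map
        (modularFunctionFieldBar N).val = IntermediateField.adjoin Kbar (Set.range (xK N)) := by
    rw [IntermediateField.adjoin_map]
    congr 1
    ext z
    constructor
    · rintro ⟨_, ⟨d, rfl⟩, rfl⟩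
      exact ⟨d, rfl⟩
    · rintro ⟨d, rfl⟩
      exact ⟨_, ⟨d, rfl⟩, rfl⟩
  rw [← hmap] at hf
  obtain ⟨f', hf', hff'⟩ := hf
  have : f' = f := Subtype.ext hff'
  rwa [← this]

/-- two `Kbar`-algebra homs out of `F_N` agreeing on the generators are equal -/
theorem FN_algHom_ext {B : Type*} [Field B] [Algebra Kbar B] {φ₁ φ₂ : FN N →ₐ[Kbar] B}
    (h : ∀ d : Dv N, φ₁ ⟨xK N d, Br46.xK_mem N d⟩ = φ₂ ⟨xK N d, Br46.xK_mem N d⟩) (f : FN N) :
    φ₁ f = φ₂ f := by
  have hf : f ∈ IntermediateField.adjoin Kbar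
      (Set.range fun d : Dv N => (⟨xK N d, Br46.xK_mem N d⟩ : FN N)) := by
    rw [← FN_top_eq]; trivial
  show φ₁.toRingHom f = φ₂.toRingHom f
  induction hf using IntermediateField.adjoin_induction with
  | mem x hx => obtain ⟨d, rfl⟩ := hx; exact h d
  | algebraMap k => exact (φ₁.commutes k).trans (φ₂.commutes k).symm
  | add x y _ _ hx hy => rw [RingHom.map_add, RingHom.map_add, hx, hy]
  | inv x _ hx => rw [map_inv₀, map_inv₀, hx]
  | mul x y _ _ hx hy => rw [RingHom.map_mul, RingHom.map_mul, hx, hy]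

theorem Jd_one_mem_S : AI.Jd 1 ∈ S AI := Aux16.Jd_mem_conjSet AI.act AI.Jd N (one_dvd N)

theorem Phi_mem (ψ : FN N →ₐ[Kbar] AI.M)
    (hψd : ∀ d : Dv N, ψ ⟨xK N d, Br46.xK_mem N d⟩ = AI.Jd d.1) (f : FN N) : ψ f ∈ Ltop AI := by
  have hf : f ∈ IntermediateField.adjoin Kbar
      (Set.range fun d : Dv N => (⟨xK N d, Br46.xK_mem N d⟩ : FN N)) := by
    rw [← FN_top_eq]; trivial
  show ψ.toRingHom f ∈ Ltop AI
  induction hf using IntermediateField.adjoin_induction with
  | mem x hx =>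
    obtain ⟨d, rfl⟩ := hx
    show ψ _ ∈ Ltop AI
    rw [hψd d]
    exact S_sub AI (Aux16.Jd_mem_conjSet AI.act AI.Jd N d.2)
  | algebraMap k =>
    show ψ _ ∈ Ltop AI
    rw [AlgHom.commutes]
    exact (Ltop AI).algebraMap_mem k
  | add x y _ _ hx hy => rw [RingHom.map_add]; exact add_mem hx hy
  | inv x _ hx => rw [map_inv₀]; exact inv_mem hx
  | mul x y _ _ hx hy => rw [RingHom.map_mul]; exact mul_mem hx hy

/-- the difference `j - c` is not zero -/
theorem Jd_one_sub_ne_zero (c : AI.C) : AI.Jd 1 - algebraMap AI.C AI.M c ≠ 0 := by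
  intro h
  have h1 : AI.Jd 1 = algebraMap AI.C AI.M c := sub_eq_zero.mp h
  exact FixedFieldAI.transcendental_J AI (h1 ▸ isAlgebraic_algebraMap c)

theorem Jd_one_sub_mem (c : AI.C) :
    AI.Jd 1 - algebraMap AI.C AI.M c ∈ Algebra.adjoin AI.C (S AI) :=
  sub_mem (Algebra.subset_adjoin (Jd_one_mem_S AI)) (Subalgebra.algebraMap_mem _ c)

include AI in
/-- **The glue**: an analytic input gives a modular tower. -/
theorem nonempty_modularTower : Nonempty (ModularTower N) := by
  classical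
  obtain ⟨ψ, hψd, hψj⟩ := exists_Phi AI
  have hψmem : ∀ f : FN N, ψ f ∈ Ltop AI := Phi_mem AI ψ hψd
  let Φ : FN N →ₐ[Kbar] Ltop AI := ψ.codRestrict (Ltop AI).toSubalgebra hψmem
  have hΦ : ∀ f : FN N, ((Φ f : Ltop AI) : AI.M) = ψ f := fun f => rfl
  let instAlgF : Algebra (FN N) (Ltop AI) := Φ.toRingHom.toAlgebra
  have halg : ∀ f : FN N, ((algebraMap (FN N) (Ltop AI) f : Ltop AI) : AI.M) = ψ f := fun f => rfl
  have instTower : IsScalarTower Kbar (FN N) (Ltop AI) :=
    IsScalarTower.of_algebraMap_eq (fun k => (Φ.commutes k).symm)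
  have hj : ((algebraMap (FN N) (Ltop AI) (jF N) : Ltop AI) : AI.M) = AI.Jd 1 := by
    rw [halg, hψj]
  -- the valuation clauses
  have hval : ∀ (ν : AI.M → ℤ), IsValFunOn (Algebra.adjoin AI.C (S AI)) ν →
      ∃ (V : ValuationSubring (Ltop AI)) (ν' : Ltop AI → ℤ),
        (∀ a : Kbar, algebraMap Kbar (Ltop AI) a ∈ V) ∧
        (∀ y z : Ltop AI, y ≠ 0 → z ≠ 0 → ν' (y * z) = ν' y + ν' z) ∧
        (∀ y : Ltop AI, y ≠ 0 → (y ∈ V ↔ 0 ≤ ν' y)) ∧
        (∀ c : Kbar, ν' (algebraMap (FN N) (Ltop AI) (jF N) - algebraMap Kbar (Ltop AI) c) =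
          ν (AI.Jd 1 - algebraMap AI.C AI.M (algebraMap Kbar AI.C c))) ∧
        (ν' (algebraMap (FN N) (Ltop AI) (jF N)) = ν (AI.Jd 1)) ∧
        (∀ g : SL(2, ℤ), (∀ a ∈ Algebra.adjoin AI.C (S AI), a ≠ 0 → ν (AI.act g a) = ν a) →
          ∀ y ∈ V, rho AI g y ∈ V) := by
    intro ν hν
    obtain ⟨V, ν', hK, hmul, hmem, hA, hσ⟩ :=
      ValGlue14.exists_valuationSubring (k := Kbar) (Algebra.adjoin AI.C (S AI)) ν hν (Ltop AI)
        (fun y hy => ValGlue14.isFrac_of_mem_adjoin (S AI) hy)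
    refine ⟨V, ν', hK, hmul, hmem, ?_, ?_, ?_⟩
    · intro c
      have hcoe : ((algebraMap (FN N) (Ltop AI) (jF N) - algebraMap Kbar (Ltop AI) c : Ltop AI) :
          AI.M) = AI.Jd 1 - algebraMap AI.C AI.M (algebraMap Kbar AI.C c) := by
        have h1 : ((algebraMap (FN N) (Ltop AI) (jF N) - algebraMap Kbar (Ltop AI) c : Ltop AI) :
            AI.M) = ((algebraMap (FN N) (Ltop AI) (jF N) : Ltop AI) : AI.M) -
              ((algebraMap Kbar (Ltop AI) c : Ltop AI) : AI.M) := rfl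
        rw [h1, hj]; rfl
      have hne : (algebraMap (FN N) (Ltop AI) (jF N) - algebraMap Kbar (Ltop AI) c : Ltop AI) ≠ 0 := by
        intro h0
        have := congrArg (fun z : Ltop AI => (z : AI.M)) h0
        simp only [hcoe] at this
        exact Jd_one_sub_ne_zero AI _ this
      rw [hA _ (by rw [hcoe]; exact Jd_one_sub_mem AI _) hne, hcoe]
    · have hne : (algebraMap (FN N) (Ltop AI) (jF N) : Ltop AI) ≠ 0 := by
        intro h0
        have := congrArg (fun z : Ltop AI => (z : AI.M)) h0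
        simp only [hj] at this
        have h2 := Jd_one_sub_ne_zero AI 0
        rw [map_zero, sub_zero] at h2
        exact h2 this
      rw [hA _ (by rw [hj]; exact Algebra.subset_adjoin (Jd_one_mem_S AI)) hne, hj]
    · intro g hg y hy
      exact (hσ (AI.act g) (fun a ha => Aux16.act_mem_adjoin AI.act AI.Jd N g ha) hg y
        (act_mem AI g y.2)).2 hy
  refine ⟨{
    L := Ltop AI
    ρ := rho AI
    finite_range := finite_range AI
    ρ_neg_one := rho_neg_one AI
    fixes_j := ?_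
    fixed := ?_
    fixes_F_iff := ?_
    T_zpow := T_zpow AI
    val_fin := ?_
    val_inf := ?_ }⟩
  · intro g
    apply Subtype.ext
    rw [coe_rho, hj, AI.act_J]
  · intro y hy
    apply FixedField.mem_adjoin_of_val_mem
    rw [hj]
    refine FixedFieldAI.fixed_mem AI y.2 (fun g => ?_)
    have := congrArg (fun z : Ltop AI => (z : AI.M)) (hy g)
    exact this
  · intro g
    constructor
    · intro h
      apply AI.stab_JN
      have := congrArg (fun z : Ltop AI => (z : AI.M))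
        (h ⟨xK N ⟨N, dvd_rfl⟩, Br46.xK_mem N ⟨N, dvd_rfl⟩⟩)
      simp only [coe_rho, halg, hψd] at this
      exact this
    · intro hg f
      apply Subtype.ext
      rw [coe_rho, halg]
      have key := FN_algHom_ext
        (φ₁ := (((AI.act g).restrictScalars Kbar : AI.M ≃ₐ[Kbar] AI.M) : AI.M →ₐ[Kbar] AI.M).comp ψ)
        (φ₂ := ψ) (fun d => by
          show AI.act g (ψ _) = ψ _
          rw [hψd d, AI.act_Jd d.1 d.2 g hg]) f
      exact key
  · intro c
    obtain ⟨ν, hν, hpos, hle, hS, hST⟩ := AI.val_fin c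
    obtain ⟨V, ν', hK, hmul, hmem, hc, -, hinv⟩ := hval ν hν
    refine ⟨V, ν', hK, hmul, hmem, ?_, ?_, ?_, ?_⟩
    · rw [hc c]; exact hpos
    · rw [hc c]; exact hle
    · intro h1728
      exact hinv _ (hS h1728)
    · intro h0
      exact hinv _ (hST h0)
  · obtain ⟨ν, hν, hneg, hge, hT⟩ := AI.val_inf
    obtain ⟨V, ν', hK, hmul, hmem, -, hj', hinv⟩ := hval ν hν
    refine ⟨V, ν', hK, hmul, hmem, ?_, ?_, ?_⟩
    · rw [hj']; exact hneg
    · rw [hj']; exact hge
    · exact hinv _ hT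

end Fermat.Agent.S24.Mod.Glue24
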