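/-
S24, package MOD, pure algebra: descent of linear / algebraic (in)dependence of Laurent series
along an extension of the coefficient field.
-/
import Mathlib
import Fermat.Prelude.Def_ModularCurve_LaurentCoeff

set_option autoImplicit false

open ModularCurve

namespace Fermat.Agent.S24.Mod

/-- Base change of linear independence for families of `K`-valued functions. -/
theorem linearIndependent_algebraMap_comp {K C : Type*} [Field K] [Field C] [Algebra K C]
    {I κ : Type*} (v : I → κ → K) (h : LinearIndependent K v) :
    LinearIndependent C (fun i k => algebraMap K C (v i k)) := by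
  classical
  rw [linearIndependent_iff'] at h ⊢
  intro s g hg i hi
  set b := Module.Basis.ofVectorSpace K C with hb
  apply b.repr.injective
  rw [map_zero]
  ext j
  have key : ∑ i ∈ s, (b.repr (g i) j) • v i = 0 := by
    funext k
    have hk := congrFun hg k
    simp only [Finset.sum_apply, Pi.smul_apply, smul_eq_mul, Pi.zero_apply] at hk ⊢
    have h2 := congrArg (fun z => b.repr z j) hk
    simp only [map_sum, map_zero, Finsupp.coe_finsetSum, Finset.sum_apply,
      Finsupp.coe_zero, Pi.zero_apply] at h2
    rw [← h2]
    refine Finset.sum_congr rfl fun i _ => ?_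
    have : g i * algebraMap K C (v i k) = (v i k) • g i := by
      rw [Algebra.smul_def, mul_comm]
    rw [this, map_smul, Finsupp.smul_apply, smul_eq_mul, mul_comm]
  exact h s (fun i => b.repr (g i) j) key i hi


theorem coeff_algebraMap_mul {K : Type*} [Field K] (a : K) (y : LaurentSeries K) (k : ℤ) :
    (algebraMap K (LaurentSeries K) a * y).coeff k = a * y.coeff k := by
  rw [algebraMap_laurentSeries_eq_single, HahnSeries.coeff_single_mul, sub_zero]

/-- Monomials in a family of Laurent series. -/
noncomputable def monoFam {K : Type*} [Field K] {σ : Type*} (x : σ → LaurentSeries K)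
    (s : σ →₀ ℕ) : LaurentSeries K :=
  s.prod fun i e => x i ^ e

theorem aeval_eq_sum_monoFam {K : Type*} [Field K] {σ : Type*} (x : σ → LaurentSeries K)
    (P : MvPolynomial σ K) :
    MvPolynomial.aeval x P =
      ∑ s ∈ P.support, algebraMap K (LaurentSeries K) (P.coeff s) * monoFam x s := by
  rw [MvPolynomial.aeval_def, MvPolynomial.eval₂_eq]
  rfl

theorem coeff_aeval {K : Type*} [Field K] {σ : Type*} (x : σ → LaurentSeries K)
    (P : MvPolynomial σ K) (k : ℤ) :
    (MvPolynomial.aeval x P).coeff k = ∑ s ∈ P.support, P.coeff s * (monoFam x s).coeff k := by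
  rw [aeval_eq_sum_monoFam, HahnSeries.coeff_sum]
  exact Finset.sum_congr rfl fun s _ => coeff_algebraMap_mul _ _ _

theorem coeffMap_monoFam {K C : Type*} [Field K] [Field C] (f : K →+* C) {σ : Type*}
    (x : σ → LaurentSeries K) (s : σ →₀ ℕ) :
    coeffMap f (monoFam x s) = monoFam (fun i => coeffMap f (x i)) s := by
  simp only [monoFam, Finsupp.prod, map_prod, map_pow]

/-- Descent of algebraic independence of Laurent series along an extension of the
coefficient field. -/
theorem algebraicIndependent_coeffMap {K C : Type*} [Field K] [Field C] [Algebra K C]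
    {σ : Type*} (x : σ → LaurentSeries K) (h : AlgebraicIndependent K x) :
    AlgebraicIndependent C (fun i => coeffMap (algebraMap K C) (x i)) := by
  classical
  -- coefficient functions of the monomials are linearly independent over `K`
  have h1 : LinearIndependent K (fun (s : σ →₀ ℕ) (k : ℤ) => (monoFam x s).coeff k) := by
    rw [linearIndependent_iff']
    intro S g hg s hs
    set P : MvPolynomial σ K := ∑ t ∈ S, MvPolynomial.monomial t (g t) with hP
    have hcoeff : ∀ t, P.coeff t = if t ∈ S then g t else 0 := by
      intro t
      rw [hP, MvPolynomial.coeff_sum]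
      simp only [MvPolynomial.coeff_monomial]
      rw [Finset.sum_ite_eq' S t]
    have hP0 : MvPolynomial.aeval x P = 0 := by
      ext k
      rw [hP, map_sum, HahnSeries.coeff_sum, HahnSeries.coeff_zero]
      have hk := congrFun hg k
      simp only [Finset.sum_apply, Pi.smul_apply, smul_eq_mul, Pi.zero_apply] at hk
      rw [← hk]
      refine Finset.sum_congr rfl fun t _ => ?_
      rw [MvPolynomial.aeval_monomial, coeff_algebraMap_mul]
      rfl
    have := (algebraicIndependent_iff.mp h) P hP0
    have h3 := hcoeff s
    rw [this, if_pos hs] at h3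
    simpa using h3.symm
  have h2 := linearIndependent_algebraMap_comp (C := C) _ h1
  rw [algebraicIndependent_iff]
  intro P hP
  rw [linearIndependent_iff'] at h2
  have key : ∑ s ∈ P.support, P.coeff s •
      (fun k : ℤ => algebraMap K C ((monoFam x s).coeff k)) = 0 := by
    funext k
    have hk := congrArg (fun z => HahnSeries.coeff z k) hP
    simp only [HahnSeries.coeff_zero] at hk
    rw [coeff_aeval] at hk
    simp only [Finset.sum_apply, Pi.smul_apply, smul_eq_mul, Pi.zero_apply]
    rw [← hk]
    refine Finset.sum_congr rfl fun s _ => ?_
    rw [← coeffMap_monoFam]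
    rfl
  have h3 := h2 P.support (fun s => P.coeff s) key
  ext s
  by_cases hs : s ∈ P.support
  · simpa using h3 s hs
  · simpa using MvPolynomial.notMem_support_iff.mp hs

end Fermat.Agent.S24.Mod
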