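/-
S24, package MOD, pure algebra: if `K ⊆ C` are fields with `K` algebraically closed and `J` is
transcendental over `C`, then `K(J)` is algebraically closed in `C(J)`.
-/
import Mathlib
import Fermat.Agent.S24.Mod.LinDesc

set_option autoImplicit false

open Polynomial IntermediateField
open scoped Polynomial.Bivariate

namespace Fermat.Agent.S24.Mod

section AlgRel

variable {K M : Type*} [Field K] [Field M] [Algebra K M]

/-- `z` satisfies a nontrivial polynomial relation `F(J, z) = 0` over `K`. -/
def AlgRel (K : Type*) {M : Type*} [Field K] [Field M] [Algebra K M] (J z : M) : Prop :=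
  ∃ F : K[X][Y], F ≠ 0 ∧ F.aevalAeval J z = 0

theorem aevalAeval_eq_eval₂ (x y : M) (F : K[X][Y]) :
    F.aevalAeval x y = F.eval₂ ((aeval x : K[X] →ₐ[K] M) : K[X] →+* M) y := by
  induction F using Polynomial.induction_on' with
  | add p q hp hq => rw [map_add, eval₂_add, hp, hq]
  | monomial n a =>
    rw [← C_mul_X_pow_eq_monomial, map_mul, map_pow, aevalAeval_C, aevalAeval_Y, eval₂_mul,
      eval₂_C, eval₂_pow, eval₂_X]
    rfl

end AlgRel

theorem exists_algebraMap_eq_of_isAlgebraic {K C : Type*} [Field K] [Field C] [Algebra K C]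
    [IsAlgClosed K] {η : C} (h : IsAlgebraic K η) : ∃ e : K, algebraMap K C e = η := by
  have hint := h.isIntegral
  have hdeg := IsAlgClosed.degree_eq_one_of_irreducible K (minpoly.irreducible hint)
  obtain ⟨e, he⟩ := minpoly.mem_range_of_degree_eq_one K η hdeg
  exact ⟨e, he⟩


/-- `K(J)` is algebraically closed in `C(J)` (`K` algebraically closed, `J` transcendental
over `C`). -/
theorem mem_adjoin_simple_of_algRel {K C M : Type*} [Field K] [Field C] [Field M] [Algebra K C]
    [Algebra C M] [Algebra K M] [IsScalarTower K C M] [IsAlgClosed K] {J : M}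
    (hJ : Transcendental C J) {y : M} (hy : y ∈ C⟮J⟯) (h : AlgRel K J y) : y ∈ K⟮J⟯ := by
  classical
  obtain ⟨F, hF0, hF⟩ := h
  rw [aevalAeval_eq_eval₂] at hF
  obtain ⟨p, r, rfl⟩ := (IntermediateField.mem_adjoin_simple_iff C _).mp hy
  by_cases hr : r = 0
  · subst hr
    simp only [map_zero, div_zero]
    exact zero_mem _
  have hJC := transcendental_iff.mp hJ
  have hrJ : aeval J r ≠ 0 := fun h0 => hr (hJC r h0)
  set ι : K →+* C := algebraMap K C with hι
  have hιinj : Function.Injective ι := (algebraMap K C).injective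
  set n := F.natDegree with hn
  -- Step 1: the polynomial identity `G = 0`
  set G : C[X] := ∑ i ∈ Finset.range (n + 1), (F.coeff i).map ι * p ^ i * r ^ (n - i) with hGdef
  have hG : G = 0 := by
    apply hJC
    rw [hGdef, map_sum]
    have hy' : ∀ i ∈ Finset.range (n + 1),
        aeval J ((F.coeff i).map ι * p ^ i * r ^ (n - i)) =
          aeval J r ^ n * (aeval J (F.coeff i) * (aeval J p / aeval J r) ^ i) := by
      intro i hi
      have hi' : i ≤ n := Nat.lt_succ_iff.mp (Finset.mem_range.mp hi)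
      rw [map_mul, map_mul, map_pow, map_pow, hι, aeval_map_algebraMap]
      have : aeval J r ^ n = aeval J r ^ (n - i) * aeval J r ^ i := by
        rw [← pow_add, Nat.sub_add_cancel hi']
      rw [this, div_pow]
      field_simp
    rw [Finset.sum_congr rfl hy', ← Finset.mul_sum]
    rw [eval₂_eq_sum_range] at hF
    have hF' : ∑ i ∈ Finset.range (n + 1),
        aeval J (F.coeff i) * (aeval J p / aeval J r) ^ i = 0 := hF
    rw [hF', mul_zero]
  -- Step 2: good points
  set lc : K[X] := F.coeff n with hlc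
  have hlc0 : lc ≠ 0 := by
    rw [hlc, hn]; exact leadingCoeff_ne_zero.mpr hF0
  set D : C[X] := r * lc.map ι with hD
  have hD0 : D ≠ 0 := mul_ne_zero hr ((Polynomial.map_ne_zero_iff hιinj).mpr hlc0)
  have hgood : ∀ a : {a : K // ¬ D.IsRoot (ι a)},
      eval (ι a.1) r ≠ 0 ∧ eval a.1 lc ≠ 0 := by
    rintro ⟨a, ha⟩
    rw [hD, IsRoot.def, eval_mul, mul_eq_zero, not_or, eval_map, eval₂_at_apply] at ha
    exact ⟨ha.1, fun h0 => ha.2 (by rw [h0, map_zero])⟩
  have hGa : ∀ a : K, ∑ i ∈ Finset.range (n + 1),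
      ι ((F.coeff i).eval a) * eval (ι a) p ^ i * eval (ι a) r ^ (n - i) = 0 := by
    intro a
    have := congrArg (eval (ι a)) hG
    rw [hGdef, eval_finsetSum, eval_zero] at this
    rw [← this]
    refine Finset.sum_congr rfl fun i _ => ?_
    rw [eval_mul, eval_mul, eval_pow, eval_pow, eval_map, eval₂_at_apply]
  have hη : ∀ a : {a : K // ¬ D.IsRoot (ι a)},
      ∃ e : K, ι e = eval (ι a.1) p / eval (ι a.1) r := by
    intro a
    obtain ⟨hra, hlca⟩ := hgood a
    apply exists_algebraMap_eq_of_isAlgebraic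
    refine ⟨F.map (evalRingHom a.1), ?_, ?_⟩
    · intro h0
      have h1 := congrArg (fun q => q.coeff n) h0
      simp only [coeff_map, coe_evalRingHom, coeff_zero] at h1
      exact hlca h1
    · have hdeg : (F.map (evalRingHom a.1)).natDegree < n + 1 :=
        Nat.lt_succ_of_le natDegree_map_le
      rw [aeval_eq_sum_range' hdeg]
      have hrn : eval (ι a.1) r ^ n ≠ 0 := pow_ne_zero _ hra
      apply mul_left_cancel₀ hrn
      rw [mul_zero, Finset.mul_sum, ← hGa a.1]
      refine Finset.sum_congr rfl fun i hi => ?_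
      have hi' : i ≤ n := Nat.lt_succ_iff.mp (Finset.mem_range.mp hi)
      have : eval (ι a.1) r ^ n = eval (ι a.1) r ^ (n - i) * eval (ι a.1) r ^ i := by
        rw [← pow_add, Nat.sub_add_cancel hi']
      rw [this, coeff_map, coe_evalRingHom, Algebra.smul_def, div_pow]
      field_simp
      exact mul_comm _ _
  choose η hη using hη
  -- Step 3: linear dependence over `K`
  let v : ℕ ⊕ ℕ → {a : K // ¬ D.IsRoot (ι a)} → K := fun x a =>
    match x with
    | Sum.inl i => a.1 ^ i
    | Sum.inr k => η a * a.1 ^ k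
  have hv : ¬ LinearIndependent K v := by
    intro hv
    have hw := linearIndependent_algebraMap_comp (C := C) v hv
    rw [linearIndependent_iff'] at hw
    have hsum : ∑ x ∈ (Finset.range (p.natDegree + 1)).disjSum (Finset.range (r.natDegree + 1)),
        (Sum.elim (fun i => p.coeff i) (fun k => - r.coeff k) x : C) •
          (fun a : {a : K // ¬ D.IsRoot (ι a)} => algebraMap K C (v x a)) = 0 := by
      funext a
      rw [Finset.sum_disjSum]
      simp only [Sum.elim_inl, Sum.elim_inr, Pi.add_apply, Finset.sum_apply, Pi.smul_apply,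
        smul_eq_mul, Pi.zero_apply, v, map_pow, map_mul]
      have h1 : eval (ι a.1) p = ∑ i ∈ Finset.range (p.natDegree + 1), p.coeff i * ι a.1 ^ i :=
        eval_eq_sum_range _
      have h2 : eval (ι a.1) r = ∑ i ∈ Finset.range (r.natDegree + 1), r.coeff i * ι a.1 ^ i :=
        eval_eq_sum_range _
      have h3 : ∑ k ∈ Finset.range (r.natDegree + 1),
          -r.coeff k * ((algebraMap K C) (η a) * (algebraMap K C) a.1 ^ k)
          = - (ι (η a) * eval (ι a.1) r) := by
        rw [h2, Finset.mul_sum, ← Finset.sum_neg_distrib]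
        refine Finset.sum_congr rfl fun k _ => ?_
        ring
      rw [h3, ← h1, hη a]
      have := (hgood a).1
      field_simp
      ring
    have hall := hw _ _ hsum
    apply hr
    apply leadingCoeff_eq_zero.mp
    have := hall (Sum.inr r.natDegree) (by simp)
    simpa using this
  -- Step 4: a `K`-rational relation
  obtain ⟨s, g, hsg, x0, hx0s, hx0⟩ := not_linearIndependent_iff.mp hv
  set p' : K[X] := ∑ i ∈ s.toLeft, monomial i (g (Sum.inl i)) with hp'
  set r' : K[X] := - ∑ k ∈ s.toRight, monomial k (g (Sum.inr k)) with hr'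
  have hp'coeff : ∀ i, p'.coeff i = if i ∈ s.toLeft then g (Sum.inl i) else 0 := by
    intro i
    rw [hp', finsetSum_coeff]
    simp only [coeff_monomial]
    rw [Finset.sum_ite_eq' s.toLeft i]
  have hr'coeff : ∀ k, r'.coeff k = if k ∈ s.toRight then - g (Sum.inr k) else 0 := by
    intro k
    rw [hr', coeff_neg, finsetSum_coeff]
    simp only [coeff_monomial]
    rw [Finset.sum_ite_eq' s.toRight k]
    split_ifs <;> simp
  have hne : p' ≠ 0 ∨ r' ≠ 0 := by
    rcases x0 with i | k
    · left
      intro h0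
      have := hp'coeff i
      rw [h0, coeff_zero, if_pos (Finset.mem_toLeft.mpr hx0s)] at this
      exact hx0 this.symm
    · right
      intro h0
      have := hr'coeff k
      rw [h0, coeff_zero, if_pos (Finset.mem_toRight.mpr hx0s)] at this
      exact hx0 (neg_eq_zero.mp this.symm)
  have hrel : ∀ a : {a : K // ¬ D.IsRoot (ι a)}, eval a.1 p' = η a * eval a.1 r' := by
    intro a
    have h0 := congrFun hsg a
    rw [Finset.sum_sum_eq_sum_toLeft_add_sum_toRight] at h0
    simp only [Pi.add_apply, Finset.sum_apply, Pi.smul_apply, smul_eq_mul, Pi.zero_apply, v] at h0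
    rw [hp', hr', eval_finsetSum, eval_neg, eval_finsetSum]
    simp only [eval_monomial]
    rw [mul_neg, Finset.mul_sum, ← sub_eq_zero, sub_neg_eq_add, ← h0]
    congr 1
    refine Finset.sum_congr rfl fun k _ => ?_
    ring
  -- the polynomial `h`
  set h : C[X] := p'.map ι * r - p * r'.map ι with hh
  have hroot : ∀ a : {a : K // ¬ D.IsRoot (ι a)}, h.IsRoot (ι a.1) := by
    intro a
    rw [IsRoot.def, hh, eval_sub, eval_mul, eval_mul, eval_map, eval_map, eval₂_at_apply,
      eval₂_at_apply, hrel a, map_mul, hη a]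
    have := (hgood a).1
    field_simp
    ring
  have hinf : Set.Infinite {x | h.IsRoot x} := by
    have hfin : {x : C | D.IsRoot x}.Finite := Polynomial.finite_setOfPred_isRoot hD0
    have hfin' : {a : K | D.IsRoot (ι a)}.Finite := hfin.preimage hιinj.injOn
    have hinf' : {a : K | ¬ D.IsRoot (ι a)}.Infinite := by
      have := hfin'.infinite_compl
      exact this
    have := hinf'.image hιinj.injOn
    refine this.mono ?_
    rintro _ ⟨a, ha, rfl⟩
    exact hroot ⟨a, ha⟩
  have hh0 : h = 0 := eq_zero_of_infinite_isRoot h hinf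
  have hmapinj : Function.Injective (Polynomial.map ι) := Polynomial.map_injective ι hιinj
  have hr'0 : r' ≠ 0 := by
    intro h0
    rcases hne with hp | hr''
    · apply hp
      apply hmapinj
      rw [Polynomial.map_zero]
      rw [hh, h0, Polynomial.map_zero, mul_zero, sub_zero] at hh0
      exact (mul_eq_zero.mp hh0).resolve_right hr
    · exact hr'' h0
  have hr'J : aeval J r' ≠ 0 := by
    intro h0
    apply hr'0
    apply hmapinj
    rw [Polynomial.map_zero]
    apply hJC
    rw [hι, aeval_map_algebraMap]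
    exact h0
  have hfinal : aeval J p / aeval J r = aeval J p' / aeval J r' := by
    rw [div_eq_div_iff hrJ hr'J]
    have := congrArg (aeval J) hh0
    rw [hh, map_sub, map_mul, map_mul, map_zero, hι, aeval_map_algebraMap,
      aeval_map_algebraMap, sub_eq_zero] at this
    rw [← this]
  rw [hfinal]
  exact (IntermediateField.mem_adjoin_simple_iff K _).mpr ⟨p', r', rfl⟩

end Fermat.Agent.S24.Mod

namespace Fermat.Agent.S24.Mod

section AlgRelConv

variable {K M : Type*} [Field K] [Field M] [Algebra K M]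

theorem AlgRel.isAlgebraic {J z : M} (hJ : Transcendental K J) (h : AlgRel K J z) :
    IsAlgebraic K⟮J⟯ z := by
  obtain ⟨F, hF0, hF⟩ := h
  rw [aevalAeval_eq_eval₂] at hF
  set φ : K[X] →+* K⟮J⟯ := ((aeval (AdjoinSimple.gen K J) : K[X] →ₐ[K] K⟮J⟯) : K[X] →+* K⟮J⟯)
    with hφ
  have hcomp : (algebraMap K⟮J⟯ M).comp φ = ((aeval J : K[X] →ₐ[K] M) : K[X] →+* M) := by
    ext p
    · simp [hφ]
    · simp [hφ]
  have hφinj : Function.Injective φ := by
    intro p q hpq
    have h1 := congrArg (algebraMap K⟮J⟯ M) hpq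
    have h2 : ∀ p, algebraMap K⟮J⟯ M (φ p) = aeval J p := fun p => by
      rw [← RingHom.comp_apply, hcomp]; rfl
    rw [h2, h2] at h1
    exact (transcendental_iff_injective.mp hJ) h1
  refine ⟨F.map φ, (Polynomial.map_ne_zero_iff hφinj).mpr hF0, ?_⟩
  rw [aeval_def, eval₂_map, hcomp]
  exact hF

theorem AlgRel.map {M' : Type*} [Field M'] [Algebra K M'] (f : M →ₐ[K] M') {J z : M}
    (h : AlgRel K J z) : AlgRel K (f J) (f z) := by
  obtain ⟨F, hF0, hF⟩ := h
  refine ⟨F, hF0, ?_⟩
  rw [aevalAeval_eq_eval₂] at hF ⊢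
  have := congrArg f hF
  rw [map_zero] at this
  rw [← this]
  have h1 := Polynomial.hom_eval₂ F ((aeval J : K[X] →ₐ[K] M) : K[X] →+* M) (f : M →+* M') z
  rw [show (f (eval₂ ((aeval J : K[X] →ₐ[K] M) : K[X] →+* M) z F)) =
    (f : M →+* M') (eval₂ ((aeval J : K[X] →ₐ[K] M) : K[X] →+* M) z F) from rfl, h1]
  congr 1
  ext p
  · simp
  · simp

open scoped IntermediateField.algebraAdjoinAdjoin in
theorem algRel_of_isAlgebraic {J z : M} (h : IsAlgebraic K⟮J⟯ z) : AlgRel K J z := by
  have h1 : IsAlgebraic (Algebra.adjoin K {J}) z :=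
    (IsFractionRing.isAlgebraic_iff (Algebra.adjoin K {J}) K⟮J⟯ M).mpr h
  obtain ⟨f, hf0, hf⟩ := h1
  let ψ : K[X] →ₐ[K] Algebra.adjoin K {J} :=
    (aeval J : K[X] →ₐ[K] M).codRestrict (Algebra.adjoin K {J}) (fun p => by
      rw [Algebra.adjoin_singleton_eq_range_aeval]; exact ⟨p, rfl⟩)
  have hψ : Function.Surjective (ψ : K[X] →+* Algebra.adjoin K {J}) := by
    rintro ⟨a, ha⟩
    have ha' := ha
    rw [Algebra.adjoin_singleton_eq_range_aeval] at ha'
    obtain ⟨p, rfl⟩ := ha'
    exact ⟨p, rfl⟩
  obtain ⟨F, rfl⟩ := Polynomial.map_surjective (ψ : K[X] →+* Algebra.adjoin K {J}) hψ f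
  refine ⟨F, fun h0 => hf0 (by rw [h0, Polynomial.map_zero]), ?_⟩
  rw [aevalAeval_eq_eval₂]
  rw [aeval_def, eval₂_map] at hf
  exact hf

theorem aevalAeval_eq_aeval_equiv (J z : M) (F : K[X][Y]) :
    F.aevalAeval J z =
      MvPolynomial.aeval ![J, z] (Polynomial.Bivariate.equivMvPolynomial K F) := by
  induction F using Polynomial.induction_on' with
  | add p q hp hq => rw [map_add, map_add, map_add, hp, hq]
  | monomial n a =>
    rw [← C_mul_X_pow_eq_monomial, map_mul, map_pow, map_mul, map_pow, map_mul, map_pow]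
    congr 1
    · induction a using Polynomial.induction_on' with
      | add p q hp hq => rw [C_add, map_add, map_add, map_add, hp, hq]
      | monomial m b =>
        rw [← C_mul_X_pow_eq_monomial, C_mul, C_pow, map_mul, map_pow, map_mul, map_pow,
          map_mul, map_pow]
        simp
    · simp

theorem algRel_of_mvPolynomial {J z : M} (P : MvPolynomial (Fin 2) K) (hP : P ≠ 0)
    (h : MvPolynomial.aeval ![J, z] P = 0) : AlgRel K J z := by
  refine ⟨(Polynomial.Bivariate.equivMvPolynomial K).symm P, ?_, ?_⟩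
  · simpa using hP
  · rw [aevalAeval_eq_aeval_equiv, AlgEquiv.apply_symm_apply, h]

theorem AlgRel.exists_mvPolynomial {J z : M} (h : AlgRel K J z) :
    ∃ P : MvPolynomial (Fin 2) K, P ≠ 0 ∧ MvPolynomial.aeval ![J, z] P = 0 := by
  obtain ⟨F, hF0, hF⟩ := h
  refine ⟨Polynomial.Bivariate.equivMvPolynomial K F, ?_, ?_⟩
  · simpa using hF0
  · rw [← aevalAeval_eq_aeval_equiv, hF]

end AlgRelConv

end Fermat.Agent.S24.Mod
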