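/-
S24, package MOD, pure algebra: a group acting on a field `M` through a finite stable set `S`
of generators: finite orbits, norm trick (`C(S)^G = C(J)` if `C[S]^G ⊆ C[J]`), integrality.
-/
import Fermat.Agent.S24.Mod.AlgClosedIn

set_option autoImplicit false

open Polynomial IntermediateField

namespace Fermat.Agent.S24.Mod

section Orbit

variable {G C M : Type*} [Group G] [Field C] [Field M] [Algebra C M]
variable (act : G →* (M ≃ₐ[C] M)) (S : Set M)

theorem act_mem_algAdjoin (hS : ∀ g, ∀ s ∈ S, act g s ∈ S) (g : G) {a : M}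
    (ha : a ∈ Algebra.adjoin C S) : act g a ∈ Algebra.adjoin C S := by
  have h1 : (Algebra.adjoin C S).map ((act g : M ≃ₐ[C] M) : M →ₐ[C] M) ≤ Algebra.adjoin C S := by
    rw [AlgHom.map_adjoin]
    apply Algebra.adjoin_mono
    rintro _ ⟨s, hs, rfl⟩
    exact hS g s hs
  exact h1 ⟨a, ha, rfl⟩

theorem act_mem_fieldAdjoin (hS : ∀ g, ∀ s ∈ S, act g s ∈ S) (g : G) {a : M}
    (ha : a ∈ IntermediateField.adjoin C S) : act g a ∈ IntermediateField.adjoin C S := by
  obtain ⟨b, hb, c, hc, rfl⟩ := IntermediateField.mem_adjoin_iff_div.mp ha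
  rw [map_div₀]
  exact div_mem (IntermediateField.algebra_adjoin_le_adjoin C S (act_mem_algAdjoin act S hS g hb))
    (IntermediateField.algebra_adjoin_le_adjoin C S (act_mem_algAdjoin act S hS g hc))

theorem act_eq_of_eqOn_algAdjoin {g h : G} (hgh : ∀ s ∈ S, act g s = act h s) {a : M}
    (ha : a ∈ Algebra.adjoin C S) : act g a = act h a := by
  have h1 : Algebra.adjoin C S ≤
      AlgHom.equalizer ((act g : M ≃ₐ[C] M) : M →ₐ[C] M) ((act h : M ≃ₐ[C] M) : M →ₐ[C] M) :=
    Algebra.adjoin_le fun s hs => hgh s hs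
  exact h1 ha

theorem act_eq_of_eqOn_fieldAdjoin {g h : G} (hgh : ∀ s ∈ S, act g s = act h s) {a : M}
    (ha : a ∈ IntermediateField.adjoin C S) : act g a = act h a := by
  obtain ⟨b, hb, c, hc, rfl⟩ := IntermediateField.mem_adjoin_iff_div.mp ha
  rw [map_div₀, map_div₀, act_eq_of_eqOn_algAdjoin act S hgh hb,
    act_eq_of_eqOn_algAdjoin act S hgh hc]

/-- orbits of elements of `C(S)` are finite -/
theorem finite_orbit (hSfin : S.Finite) (hS : ∀ g, ∀ s ∈ S, act g s ∈ S) {a : M}
    (ha : a ∈ IntermediateField.adjoin C S) : (Set.range fun g : G => act g a).Finite := by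
  classical
  have : Finite S := hSfin.to_subtype
  let r : G → (S → S) := fun g s => ⟨act g s.1, hS g s.1 s.2⟩
  have hfac : Function.FactorsThrough (fun g : G => act g a) r := by
    intro g h hgh
    apply act_eq_of_eqOn_fieldAdjoin act S _ ha
    intro s hs
    have := congrFun hgh ⟨s, hs⟩
    exact congrArg Subtype.val this
  have hrange : (Set.range fun g : G => act g a) ⊆
      (Function.extend r (fun g : G => act g a) (fun _ => 0)) '' Set.range r := by
    rintro _ ⟨g, rfl⟩
    refine ⟨r g, ⟨g, rfl⟩, ?_⟩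
    exact hfac.extend_apply _ g
  exact ((Set.toFinite (Set.range r)).image _).subset hrange

/-- the orbit of `a` as a finset -/
noncomputable def orbitFinset (hSfin : S.Finite) (hS : ∀ g, ∀ s ∈ S, act g s ∈ S) {a : M}
    (ha : a ∈ IntermediateField.adjoin C S) : Finset M :=
  (finite_orbit act S hSfin hS ha).toFinset

theorem mem_orbitFinset (hSfin : S.Finite) (hS : ∀ g, ∀ s ∈ S, act g s ∈ S) {a : M}
    (ha : a ∈ IntermediateField.adjoin C S) {x : M} :
    x ∈ orbitFinset act S hSfin hS ha ↔ ∃ g, act g a = x := by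
  simp [orbitFinset]

theorem image_orbitFinset (hSfin : S.Finite) (hS : ∀ g, ∀ s ∈ S, act g s ∈ S) {a : M}
    (ha : a ∈ IntermediateField.adjoin C S) (g : G) [DecidableEq M] :
    (orbitFinset act S hSfin hS ha).image (act g) = orbitFinset act S hSfin hS ha := by
  ext x
  simp only [Finset.mem_image, mem_orbitFinset]
  constructor
  · rintro ⟨_, ⟨h, rfl⟩, rfl⟩
    exact ⟨g * h, by rw [map_mul]; rfl⟩
  · rintro ⟨h, rfl⟩
    refine ⟨act (g⁻¹ * h) a, ⟨_, rfl⟩, ?_⟩
    rw [← AlgEquiv.mul_apply, ← map_mul, mul_inv_cancel_left]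

/-- the norm trick -/
theorem mem_adjoin_simple_of_invariant (hSfin : S.Finite) (hS : ∀ g, ∀ s ∈ S, act g s ∈ S)
    {J : M} (hinv : ∀ b ∈ Algebra.adjoin C S, (∀ g, act g b = b) → b ∈ Algebra.adjoin C {J})
    {y : M} (hy : y ∈ IntermediateField.adjoin C S) (hyinv : ∀ g, act g y = y) :
    y ∈ C⟮J⟯ := by
  classical
  obtain ⟨b, hb, c, hc, rfl⟩ := IntermediateField.mem_adjoin_iff_div.mp hy
  by_cases hc0 : c = 0
  · subst hc0; simp
  have hcE : c ∈ IntermediateField.adjoin C S := IntermediateField.algebra_adjoin_le_adjoin C S hc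
  set O := orbitFinset act S hSfin hS hcE with hO
  have hcO : c ∈ O := (mem_orbitFinset act S hSfin hS hcE).mpr ⟨1, by simp⟩
  set n : M := ∏ x ∈ O, x with hn
  have hnA : n ∈ Algebra.adjoin C S := by
    apply Subalgebra.prod_mem
    intro x hx
    obtain ⟨g, rfl⟩ := (mem_orbitFinset act S hSfin hS hcE).mp hx
    exact act_mem_algAdjoin act S hS g hc
  have hn0 : n ≠ 0 := by
    rw [hn, Finset.prod_ne_zero_iff]
    intro x hx
    obtain ⟨g, rfl⟩ := (mem_orbitFinset act S hSfin hS hcE).mp hx
    exact (map_ne_zero_iff _ (act g).injective).mpr hc0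
  have hninv : ∀ g, act g n = n := by
    intro g
    rw [hn, map_prod]
    have himg : O.image (act g) = O := image_orbitFinset act S hSfin hS hcE g
    conv_rhs => rw [← himg]
    rw [Finset.prod_image]
    intro x _ y _ hxy
    exact (act g).injective hxy
  have hsplit : c * ∏ x ∈ O.erase c, x = n := Finset.mul_prod_erase O (fun x => x) hcO
  have hb' : b / c * n = b * ∏ x ∈ O.erase c, x := by
    rw [← hsplit]; field_simp
  have hb'A : b / c * n ∈ Algebra.adjoin C S := by
    rw [hb']
    apply mul_mem hb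
    apply Subalgebra.prod_mem
    intro x hx
    obtain ⟨g, rfl⟩ := (mem_orbitFinset act S hSfin hS hcE).mp (Finset.mem_of_mem_erase hx)
    exact act_mem_algAdjoin act S hS g hc
  have hb'inv : ∀ g, act g (b / c * n) = b / c * n := by
    intro g
    rw [map_mul, hyinv g, hninv g]
  have h1 := hinv _ hb'A hb'inv
  have h2 := hinv _ hnA hninv
  have hle : Algebra.adjoin C {J} ≤ (C⟮J⟯).toSubalgebra :=
    IntermediateField.algebra_adjoin_le_adjoin C _
  have : b / c = (b / c * n) / n := by field_simp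
  rw [this]
  exact div_mem (hle h1) (hle h2)

open scoped IntermediateField.algebraAdjoinAdjoin in
/-- elements of `C[S]` are algebraic over `C(J)` (they are integral over `C[J]`) -/
theorem algRel_of_mem_algAdjoin (hSfin : S.Finite) (hS : ∀ g, ∀ s ∈ S, act g s ∈ S)
    {J : M} (hinv : ∀ b ∈ Algebra.adjoin C S, (∀ g, act g b = b) → b ∈ Algebra.adjoin C {J})
    {z : M} (hz : z ∈ Algebra.adjoin C S) : AlgRel C J z := by
  classical
  have hzE : z ∈ IntermediateField.adjoin C S := IntermediateField.algebra_adjoin_le_adjoin C S hz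
  set O := orbitFinset act S hSfin hS hzE with hO
  have hzO : z ∈ O := (mem_orbitFinset act S hSfin hS hzE).mpr ⟨1, by simp⟩
  set Q : M[X] := ∏ x ∈ O, (X - Polynomial.C x) with hQ
  have hQmonic : Q.Monic := monic_prod_of_monic _ _ fun x _ => monic_X_sub_C x
  have hQz : Q.eval z = 0 := by
    rw [hQ, eval_prod]
    exact Finset.prod_eq_zero hzO (by simp)
  -- coefficients lie in `C[S]`
  have hQA : ∀ i, Q.coeff i ∈ Algebra.adjoin C S := by
    have hlift : Q ∈ Polynomial.lifts (algebraMap (Algebra.adjoin C S) M) := by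
      rw [lifts_iff_liftsRing, hQ]
      apply Subring.prod_mem
      intro x hx
      obtain ⟨g, rfl⟩ := (mem_orbitFinset act S hSfin hS hzE).mp hx
      rw [← lifts_iff_liftsRing]
      refine (mem_lifts _).mpr ⟨X - Polynomial.C ⟨act g z, act_mem_algAdjoin act S hS g hz⟩, ?_⟩
      simp
    intro i
    obtain ⟨a, ha⟩ := (lifts_iff_coeff_lifts _).mp hlift i
    rw [← ha]
    exact a.2
  -- coefficients are invariant
  have hQinv : ∀ i g, act g (Q.coeff i) = Q.coeff i := by
    intro i g
    have hmap : Q.map ((act g : M ≃ₐ[C] M) : M →+* M) = Q := by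
      have himg : O.image (act g) = O := image_orbitFinset act S hSfin hS hzE g
      rw [hQ, Polynomial.map_prod]
      conv_rhs => rw [← himg]
      rw [Finset.prod_image (fun x _ y _ hxy => (act g).injective hxy)]
      refine Finset.prod_congr rfl fun x _ => ?_
      simp
    have := congrArg (fun q => q.coeff i) hmap
    simpa [coeff_map] using this
  -- hence they lie in `C[J]`
  have hQJ : Q ∈ Polynomial.lifts (algebraMap (Algebra.adjoin C {J}) M) := by
    rw [lifts_iff_coeff_lifts]
    intro i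
    exact ⟨⟨Q.coeff i, hinv _ (hQA i) (hQinv i)⟩, rfl⟩
  obtain ⟨q, hqQ, -, hqmonic⟩ := lifts_and_natDegree_eq_and_monic hQJ hQmonic
  have hint : IsIntegral (Algebra.adjoin C {J}) z := by
    refine ⟨q, hqmonic, ?_⟩
    rw [← eval_map, hqQ, hQz]
  have halg : IsAlgebraic C⟮J⟯ z :=
    (IsFractionRing.isAlgebraic_iff (Algebra.adjoin C {J}) C⟮J⟯ M).mp hint.isAlgebraic
  exact algRel_of_isAlgebraic halg

end Orbit

end Fermat.Agent.S24.Mod
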