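/-
S24 / MOD-glue, second seat (helper88).  Part A: restricting a group action to a stable
finitely generated subfield.

Pure algebra, Mathlib only.  `K ⊆ Cx ⊆ M` fields, `act : G →* (M ≃ₐ[Cx] M)`, `S ⊆ M` stable under
the action.  Then `G` acts on `L = K(S)` by `K`-automorphisms (`rho`), and the image of `G` in
`Aut_K(L)` is finite as soon as `S` is finite.
-/
import Mathlib

set_option autoImplicit false

open IntermediateField

namespace Fermat.Agent.S24.Mod88

section Action

variable {K Cx M : Type*} [Field K] [Field Cx] [Field M] [Algebra K Cx] [Algebra Cx M] [Algebra K M]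
  [IsScalarTower K Cx M]
variable {G : Type*} [Group G] (act : G →* (M ≃ₐ[Cx] M)) (S : Set M)

omit [Group G] in
theorem act_algebraMap_K (σ : M ≃ₐ[Cx] M) (k : K) :
    σ (algebraMap K M k) = algebraMap K M k := by
  rw [IsScalarTower.algebraMap_apply K Cx M, AlgEquiv.commutes]

theorem act_inv_apply (g : G) (y : M) : act g⁻¹ (act g y) = y := by
  rw [← AlgEquiv.mul_apply, ← map_mul, inv_mul_cancel, map_one, AlgEquiv.one_apply]

theorem act_apply_inv (g : G) (y : M) : act g (act g⁻¹ y) = y := by
  rw [← AlgEquiv.mul_apply, ← map_mul, mul_inv_cancel, map_one, AlgEquiv.one_apply]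

variable {S}

theorem act_mem_adjoin (hS : ∀ g, ∀ s ∈ S, act g s ∈ S) (g : G) {y : M}
    (hy : y ∈ IntermediateField.adjoin K S) : act g y ∈ IntermediateField.adjoin K S := by
  induction hy using IntermediateField.adjoin_induction with
  | mem s hs => exact IntermediateField.subset_adjoin K S (hS g s hs)
  | algebraMap k =>
      rw [act_algebraMap_K]
      exact IntermediateField.algebraMap_mem _ _
  | add _ _ _ _ h1 h2 => rw [map_add]; exact add_mem h1 h2
  | mul _ _ _ _ h1 h2 => rw [map_mul]; exact mul_mem h1 h2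
  | inv _ _ h1 => rw [map_inv₀]; exact inv_mem h1

theorem act_eq_of_eqOn {g h : G} (hgh : ∀ s ∈ S, act g s = act h s) {y : M}
    (hy : y ∈ IntermediateField.adjoin K S) : act g y = act h y := by
  induction hy using IntermediateField.adjoin_induction with
  | mem s hs => exact hgh s hs
  | algebraMap k => rw [act_algebraMap_K, act_algebraMap_K]
  | add _ _ _ _ h1 h2 => rw [map_add, map_add, h1, h2]
  | mul _ _ _ _ h1 h2 => rw [map_mul, map_mul, h1, h2]
  | inv _ _ h1 => rw [map_inv₀, map_inv₀, h1]

/-- The automorphism of `K(S)` induced by `g`. -/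
noncomputable def rhoEquiv (hS : ∀ g, ∀ s ∈ S, act g s ∈ S) (g : G) :
    ↥(IntermediateField.adjoin K S) ≃ₐ[K] ↥(IntermediateField.adjoin K S) where
  toFun y := ⟨act g y, act_mem_adjoin act hS g y.2⟩
  invFun y := ⟨act g⁻¹ y, act_mem_adjoin act hS g⁻¹ y.2⟩
  left_inv y := Subtype.ext (act_inv_apply act g y)
  right_inv y := Subtype.ext (act_apply_inv act g y)
  map_mul' y z := Subtype.ext (map_mul (act g) (y : M) (z : M))
  map_add' y z := Subtype.ext (map_add (act g) (y : M) (z : M))
  commutes' k := Subtype.ext (act_algebraMap_K (act g) k)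

@[simp]
theorem coe_rhoEquiv_apply (hS : ∀ g, ∀ s ∈ S, act g s ∈ S) (g : G)
    (y : ↥(IntermediateField.adjoin K S)) :
    ((rhoEquiv (K := K) act hS g y : ↥(IntermediateField.adjoin K S)) : M) = act g y := rfl

/-- The action of `G` on `K(S)`. -/
noncomputable def rho (hS : ∀ g, ∀ s ∈ S, act g s ∈ S) :
    G →* (↥(IntermediateField.adjoin K S) ≃ₐ[K] ↥(IntermediateField.adjoin K S)) where
  toFun g := rhoEquiv act hS g
  map_one' := by
    refine AlgEquiv.ext fun y => Subtype.ext ?_
    rw [coe_rhoEquiv_apply, map_one]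
    rfl
  map_mul' g h := by
    refine AlgEquiv.ext fun y => Subtype.ext ?_
    rw [coe_rhoEquiv_apply, map_mul]
    rfl

@[simp]
theorem coe_rho_apply (hS : ∀ g, ∀ s ∈ S, act g s ∈ S) (g : G)
    (y : ↥(IntermediateField.adjoin K S)) :
    ((rho (K := K) act hS g y : ↥(IntermediateField.adjoin K S)) : M) = act g y := rfl

theorem rho_eq_of_eqOn (hS : ∀ g, ∀ s ∈ S, act g s ∈ S) {g h : G}
    (hgh : ∀ s ∈ S, act g s = act h s) : rho (K := K) act hS g = rho act hS h := by
  refine AlgEquiv.ext fun y => Subtype.ext ?_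
  rw [coe_rho_apply, coe_rho_apply]
  exact act_eq_of_eqOn act hgh y.2

theorem rho_eq_one_of_fixes (hS : ∀ g, ∀ s ∈ S, act g s ∈ S) {g : G}
    (hg : ∀ s ∈ S, act g s = s) : rho (K := K) act hS g = 1 := by
  rw [← map_one (rho (K := K) act hS)]
  refine rho_eq_of_eqOn act hS fun s hs => ?_
  rw [hg s hs, map_one]
  rfl

/-- If `S` is finite, the image of `G` in `Aut_K(K(S))` is finite. -/
theorem finite_range_rho (hS : ∀ g, ∀ s ∈ S, act g s ∈ S) (hfin : S.Finite) :
    Finite (rho (K := K) act hS).range := by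
  classical
  haveI : Finite ↥S := hfin.to_subtype
  let res : G → (↥S → ↥S) := fun g s => ⟨act g s, hS g s s.2⟩
  let F : (↥S → ↥S) → (↥(IntermediateField.adjoin K S) ≃ₐ[K] ↥(IntermediateField.adjoin K S)) :=
    fun f => if h : ∃ g, res g = f then rho act hS h.choose else 1
  have hF : ∀ g, rho (K := K) act hS g = F (res g) := by
    intro g
    have hex : ∃ g', res g' = res g := ⟨g, rfl⟩
    show _ = dite _ _ _
    rw [dif_pos hex]
    refine rho_eq_of_eqOn act hS fun s hs => ?_
    have h1 := congrFun hex.choose_spec ⟨s, hs⟩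
    exact (congrArg Subtype.val h1).symm
  have hsub : ((rho (K := K) act hS).range : Set _) ⊆ Set.range F := by
    rintro σ ⟨g, rfl⟩
    exact ⟨res g, (hF g).symm⟩
  exact Set.finite_coe_iff.mpr ((Set.finite_range F).subset hsub)

end Action

end Fermat.Agent.S24.Mod88
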