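/-
S24 / MOD-glue, second seat (helper88).  Part B: the fixed-field descent.

Pure algebra, Mathlib only.  `K ⊆ Cx ⊆ M` fields, `K` algebraically closed, `j : M` transcendental
over `Cx`.

* `mem_range_of_isAlgebraic` : elements of `Cx` algebraic over `K` lie in `K`.
* `exists_map_eq_of_isAlgebraic` (Lemma P): if `p(j)` (`p ∈ Cx[X]`) is algebraic over `K(j)` then
  `p ∈ K[X]`.
* `exists_denominator` (Lemma T): elements of `K(S)` have denominators in `K[j]`.
* `fixed_mem` : the invariants of `K(S)` are `K(j)`.
-/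
import Mathlib

set_option autoImplicit false

open Polynomial IntermediateField

namespace Fermat.Agent.S24.Mod88

section LemmaP

variable {K Cx M : Type*} [Field K] [Field Cx] [Field M] [Algebra K Cx] [Algebra Cx M] [Algebra K M]
  [IsScalarTower K Cx M]

/-- An element of an extension of an algebraically closed field `K` which is algebraic over `K`
lies in `K`. -/
theorem mem_range_of_isAlgebraic [IsAlgClosed K] {c : Cx} (hc : IsAlgebraic K c) :
    c ∈ Set.range (algebraMap K Cx) := by
  have hint : IsIntegral K c := hc.isIntegral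
  have hdeg : (minpoly K c).degree = 1 :=
    IsAlgClosed.degree_eq_one_of_irreducible K (minpoly.irreducible hint)
  have := (minpoly.degree_eq_one_iff (A := K) (B := Cx) (x := c)).mp hdeg
  obtain ⟨a, ha⟩ := this
  exact ⟨a, ha⟩

open scoped IntermediateField.algebraAdjoinAdjoin in
/-- From algebraicity over `K(j)` to an explicit relation with coefficients in `K[X]`. -/
theorem exists_rel_of_isAlgebraic (j a : M) (h : IsAlgebraic K⟮j⟯ a) :
    ∃ (r : ℕ → K[X]) (n : ℕ), (∃ i ∈ Finset.range (n + 1), r i ≠ 0) ∧
      ∑ i ∈ Finset.range (n + 1), aeval j (r i) * a ^ i = 0 := by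
  have h1 : IsAlgebraic (Algebra.adjoin K {j}) a :=
    (IsFractionRing.isAlgebraic_iff (Algebra.adjoin K {j}) K⟮j⟯ M).mpr h
  obtain ⟨f, hf0, hfa⟩ := h1
  have hcoef : ∀ i, ∃ r : K[X], aeval j r = (f.coeff i : M) := by
    intro i
    have h2 : (f.coeff i : M) ∈ (aeval (R := K) j).range := by
      rw [← Algebra.adjoin_singleton_eq_range_aeval]
      exact (f.coeff i).2
    exact h2
  choose r hr using hcoef
  refine ⟨r, f.natDegree, ?_, ?_⟩
  · refine ⟨f.natDegree, Finset.mem_range.mpr (Nat.lt_succ_self _), ?_⟩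
    intro h0
    have h2 := hr f.natDegree
    rw [h0, map_zero] at h2
    have h3 : f.coeff f.natDegree = 0 := Subtype.ext h2.symm
    exact hf0 (Polynomial.leadingCoeff_eq_zero.mp h3)
  · rw [aeval_eq_sum_range] at hfa
    rw [← hfa]
    refine Finset.sum_congr rfl fun i _ => ?_
    rw [hr i, Algebra.smul_def]
    rfl

/-- **Lemma P**: `K` algebraically closed, `j` transcendental over `C ⊇ K`.  If `p(j)`, `p ∈ C[X]`,
is algebraic over `K(j)`, then `p` has coefficients in `K`. -/
theorem exists_map_eq_of_isAlgebraic [IsAlgClosed K] (j : M) (hj : Transcendental Cx j)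
    (p : Cx[X]) (h : IsAlgebraic K⟮j⟯ (aeval j p)) :
    ∃ q : K[X], q.map (algebraMap K Cx) = p := by
  classical
  obtain ⟨r, n, ⟨i0, hi0, hr0⟩, hsum⟩ := exists_rel_of_isAlgebraic j (aeval j p) h
  have key : ∑ i ∈ Finset.range (n + 1), (r i).map (algebraMap K Cx) * p ^ i = 0 := by
    apply (transcendental_iff_injective.mp hj)
    rw [map_sum, map_zero, ← hsum]
    refine Finset.sum_congr rfl fun i _ => ?_
    rw [map_mul, map_pow, aeval_map_algebraMap]
  -- good points
  have hgood : ∀ α : K, (r i0).eval α ≠ 0 →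
      p.eval (algebraMap K Cx α) ∈ Set.range (algebraMap K Cx) := by
    intro α hα
    apply mem_range_of_isAlgebraic
    refine ⟨∑ i ∈ Finset.range (n + 1), C ((r i).eval α) * X ^ i, ?_, ?_⟩
    · intro h0
      have h1 := congrArg (fun f : K[X] => f.coeff i0) h0
      simp only [finsetSum_coeff, coeff_C_mul, coeff_X_pow, coeff_zero] at h1
      rw [Finset.sum_eq_single i0] at h1
      · simp at h1
        exact hα h1
      · intro b _ hb
        rw [if_neg (Ne.symm hb), mul_zero]
      · intro h2; exact absurd hi0 h2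
    · have h1 := congrArg (Polynomial.eval (algebraMap K Cx α)) key
      rw [eval_finsetSum, eval_zero] at h1
      rw [map_sum, ← h1]
      refine Finset.sum_congr rfl fun i _ => ?_
      rw [map_mul, aeval_C, map_pow, aeval_X, eval_mul, eval_pow, eval_map_algebraMap,
        aeval_algebraMap_apply_eq_algebraMap_eval]
  -- infinitely many good points
  have hinf : {α : K | (r i0).eval α ≠ 0}.Infinite := by
    have hfin : {α : K | (r i0).eval α = 0}.Finite := by
      refine Set.Finite.subset ((r i0).roots.toFinset.finite_toSet) ?_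
      intro α hα
      simp only [Finset.mem_coe, Multiset.mem_toFinset]
      exact (mem_roots hr0).mpr hα
    have : {α : K | (r i0).eval α ≠ 0} = {α : K | (r i0).eval α = 0}ᶜ := rfl
    rw [this]
    exact hfin.infinite_compl
  obtain ⟨t, ht, htcard⟩ := hinf.exists_subset_card_eq (p.natDegree + 1)
  have hval : ∀ α : K, ∃ b : K, α ∈ t → algebraMap K Cx b = p.eval (algebraMap K Cx α) := by
    intro α
    by_cases hα : α ∈ t
    · obtain ⟨b, hb⟩ := hgood α (ht hα)
      exact ⟨b, fun _ => hb⟩
    · exact ⟨0, fun h => absurd h hα⟩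
  choose v hv using hval
  refine ⟨Lagrange.interpolate t id v, ?_⟩
  have hinj : Function.Injective (algebraMap K Cx) := (algebraMap K Cx).injective
  refine eq_of_degrees_lt_of_eval_finset_eq (t.map ⟨algebraMap K Cx, hinj⟩) ?_ ?_ ?_
  · rw [Finset.card_map, degree_map]
    exact Lagrange.degree_interpolate_lt _ (fun _ _ _ _ h => h)
  · rw [Finset.card_map, htcard]
    refine lt_of_le_of_lt degree_le_natDegree ?_
    exact_mod_cast Nat.lt_succ_self _
  · intro x hx
    obtain ⟨α, hα, rfl⟩ := Finset.mem_map.mp hx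
    simp only [Function.Embedding.coeFn_mk]
    rw [eval_map_algebraMap, aeval_algebraMap_apply_eq_algebraMap_eval,
      ← hv α hα]
    congr 1
    have := Lagrange.eval_interpolate_at_node (s := t) (v := id) v (fun _ _ _ _ h => h) hα
    simpa using this

end LemmaP

section Fixed

variable {K Cx M : Type*} [Field K] [Field Cx] [Field M] [Algebra K Cx] [Algebra Cx M] [Algebra K M]
  [IsScalarTower K Cx M]

/-- **Lemma T** (denominators): if every element of `S ∋ j` is algebraic over `K(j)`, every element
of `K(S)` becomes an element of `K[S]` after multiplication by a nonzero element of `K[j]`. -/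
theorem exists_denominator {S : Set M} {j : M} (hjS : j ∈ S)
    (halg : ∀ s ∈ S, IsAlgebraic K⟮j⟯ s) {y : M} (hy : y ∈ IntermediateField.adjoin K S) :
    ∃ b ∈ Algebra.adjoin K {j}, b ≠ 0 ∧ b * y ∈ Algebra.adjoin K S := by
  have hle : Algebra.adjoin K {j} ≤ Algebra.adjoin K S :=
    Algebra.adjoin_mono (Set.singleton_subset_iff.mpr hjS)
  -- `y` lies in the ring adjoin over `K(j)`
  have h1 : (IntermediateField.adjoin K⟮j⟯ S).restrictScalars K = IntermediateField.adjoin K S := by
    rw [IntermediateField.adjoin_adjoin_left]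
    congr 1
    exact Set.union_eq_self_of_subset_left (Set.singleton_subset_iff.mpr hjS)
  have h2 : y ∈ IntermediateField.adjoin K⟮j⟯ S := by
    have : y ∈ (IntermediateField.adjoin K⟮j⟯ S).restrictScalars K := by rw [h1]; exact hy
    exact this
  have h3 : y ∈ Algebra.adjoin K⟮j⟯ S := by
    rw [← IntermediateField.adjoin_toSubalgebra_of_isAlgebraic halg]
    exact h2
  clear h2 h1 hy
  induction h3 using Algebra.adjoin_induction with
  | mem s hs =>
      exact ⟨1, one_mem _, one_ne_zero, by rw [one_mul]; exact Algebra.subset_adjoin hs⟩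
  | algebraMap e =>
      obtain ⟨u, hu, v, hv, huv⟩ := IntermediateField.mem_adjoin_iff_div.mp e.2
      by_cases hv0 : v = 0
      · refine ⟨1, one_mem _, one_ne_zero, ?_⟩
        have : (algebraMap K⟮j⟯ M e) = 0 := by
          show (e : M) = 0
          rw [huv, hv0, div_zero]
        rw [this, mul_zero]
        exact zero_mem _
      · refine ⟨v, hv, hv0, ?_⟩
        have : v * algebraMap K⟮j⟯ M e = u := by
          show v * (e : M) = u
          rw [huv, mul_div_cancel₀ _ hv0]
        rw [this]
        exact hle hu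
  | add y z _ _ hy hz =>
      obtain ⟨b, hb, hb0, hby⟩ := hy
      obtain ⟨c, hc, hc0, hcz⟩ := hz
      refine ⟨b * c, mul_mem hb hc, mul_ne_zero hb0 hc0, ?_⟩
      have : b * c * (y + z) = c * (b * y) + b * (c * z) := by ring
      rw [this]
      exact add_mem (mul_mem (hle hc) hby) (mul_mem (hle hb) hcz)
  | mul y z _ _ hy hz =>
      obtain ⟨b, hb, hb0, hby⟩ := hy
      obtain ⟨c, hc, hc0, hcz⟩ := hz
      refine ⟨b * c, mul_mem hb hc, mul_ne_zero hb0 hc0, ?_⟩
      have : b * c * (y * z) = (b * y) * (c * z) := by ring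
      rw [this]
      exact mul_mem hby hcz

/-- every element of `K(S)` is algebraic over `K(j)` when the elements of `S ∋ j` are. -/
theorem isAlgebraic_of_mem_adjoin {S : Set M} {j : M} (hjS : j ∈ S)
    (halg : ∀ s ∈ S, IsAlgebraic K⟮j⟯ s) {y : M} (hy : y ∈ IntermediateField.adjoin K S) :
    IsAlgebraic K⟮j⟯ y := by
  have h1 : (IntermediateField.adjoin K⟮j⟯ S).restrictScalars K = IntermediateField.adjoin K S := by
    rw [IntermediateField.adjoin_adjoin_left]
    congr 1
    exact Set.union_eq_self_of_subset_left (Set.singleton_subset_iff.mpr hjS)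
  have h2 : y ∈ IntermediateField.adjoin K⟮j⟯ S := by
    have : y ∈ (IntermediateField.adjoin K⟮j⟯ S).restrictScalars K := by rw [h1]; exact hy
    exact this
  have h3 : Algebra.IsAlgebraic K⟮j⟯ (IntermediateField.adjoin K⟮j⟯ S) :=
    IntermediateField.isAlgebraic_adjoin fun s hs => (halg s hs).isIntegral
  have h4 := h3.isAlgebraic (⟨y, h2⟩ : IntermediateField.adjoin K⟮j⟯ S)
  exact (IntermediateField.isAlgebraic_iff (S := IntermediateField.adjoin K⟮j⟯ S)).mp h4

/-- **The fixed field**: `K ⊆ Cx ⊆ M`, `K` algebraically closed, a group acting on `M` by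
`Cx`-automorphisms fixing `j` (transcendental over `Cx`), `S ∋ j` a set of elements algebraic over
`K(j)` such that the invariants of `Cx[S]` lie in `Cx[j]`.  Then the invariants of `K(S)` are
`K(j)`. -/
theorem fixed_mem [IsAlgClosed K] {G : Type*} [Group G] (act : G →* (M ≃ₐ[Cx] M))
    {S : Set M} {j : M} (hjS : j ∈ S) (hact_j : ∀ g, act g j = j) (hj : Transcendental Cx j)
    (halg : ∀ s ∈ S, IsAlgebraic K⟮j⟯ s)
    (hinv : ∀ b ∈ Algebra.adjoin Cx S, (∀ g, act g b = b) → b ∈ Algebra.adjoin Cx {j})
    {y : M} (hy : y ∈ IntermediateField.adjoin K S) (hfix : ∀ g, act g y = y) :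
    y ∈ K⟮j⟯ := by
  obtain ⟨b, hb, hb0, hby⟩ := exists_denominator hjS halg hy
  -- `b` is fixed
  have hbfix : ∀ g, act g b = b := by
    intro g
    have hb' : b ∈ (aeval (R := K) j).range := by
      rw [← Algebra.adjoin_singleton_eq_range_aeval]; exact hb
    obtain ⟨r, hr⟩ := hb'
    have hr' : aeval j r = b := hr
    have := Polynomial.aeval_algHom_apply (((act g).restrictScalars K : M ≃ₐ[K] M) : M →ₐ[K] M) j r
    simp only [AlgEquiv.coe_toAlgHom, AlgEquiv.restrictScalars_apply] at this
    rw [← hr', ← this, hact_j g]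
  have hafix : ∀ g, act g (b * y) = b * y := fun g => by rw [map_mul, hbfix g, hfix g]
  have haC : b * y ∈ Algebra.adjoin Cx S := by
    have hle : ∀ z ∈ Algebra.adjoin K S, z ∈ Algebra.adjoin Cx S := by
      intro z hz
      induction hz using Algebra.adjoin_induction with
      | mem s hs => exact Algebra.subset_adjoin hs
      | algebraMap k =>
          rw [IsScalarTower.algebraMap_apply K Cx M]
          exact Subalgebra.algebraMap_mem _ _
      | add _ _ _ _ h1 h2 => exact add_mem h1 h2
      | mul _ _ _ _ h1 h2 => exact mul_mem h1 h2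
    exact hle _ hby
  have h1 := hinv _ haC hafix
  have h1' : b * y ∈ (aeval (R := Cx) j).range := by
    rw [← Algebra.adjoin_singleton_eq_range_aeval]; exact h1
  obtain ⟨p, hp⟩ := h1'
  have hp' : aeval j p = b * y := hp
  have hbL : b ∈ IntermediateField.adjoin K S :=
    IntermediateField.algebra_adjoin_le_adjoin K S
      (Algebra.adjoin_mono (Set.singleton_subset_iff.mpr hjS) hb)
  have halg' : IsAlgebraic K⟮j⟯ (aeval j p) := by
    rw [hp']
    exact isAlgebraic_of_mem_adjoin hjS halg (mul_mem hbL hy)
  obtain ⟨q, hq⟩ := exists_map_eq_of_isAlgebraic j hj p halg'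
  have h2 : b * y = aeval j q := by
    rw [← hp', ← hq, aeval_map_algebraMap]
  have hbE : b ∈ K⟮j⟯ := IntermediateField.algebra_adjoin_le_adjoin K {j} hb
  have hqE : aeval j q ∈ K⟮j⟯ := by
    apply IntermediateField.algebra_adjoin_le_adjoin K {j}
    rw [Algebra.adjoin_singleton_eq_range_aeval]
    exact ⟨q, rfl⟩
  have h3 : y = aeval j q / b := by
    rw [← h2, mul_div_cancel_left₀ _ hb0]
  rw [h3]
  exact div_mem hqE hbE

end Fixed

end Fermat.Agent.S24.Mod88
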