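/-
S24 / MOD-glue, second seat (helper88).  Part C: algebraicity of the generators over `K(j)`.

`K ⊆ Cx ⊆ M` fields.  Contents:
* `exists_rel_of_coeffMap_rel` : descent of linear relations between Laurent series from `Cx` to `K`;
* `algebraicIndependent_coeffMap` : descent of algebraic relations;
* `isIntegral_of_invariants` : the orbit polynomial;
* `rel_small`, `transcendental_of_rel`, `isAlgebraic_of_rel`, `isAlgebraic_conj`;
* `transcendental_coeffMap_jq`.
Imports Mathlib + Prelude (LaurentCoeff, X0) only.
-/
import Mathlib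
import Fermat.Prelude.Def_ModularCurve_X0
import Fermat.Prelude.Def_ModularCurve_LaurentCoeff

set_option autoImplicit false

open ModularCurve IntermediateField

namespace Fermat.Agent.S24.Mod88

section LI

variable {K Cx : Type*} [Field K] [Field Cx] (f : K →+* Cx)

theorem algebraMap_mul_eq_smul {L : Type*} [Field L] (c : L) (x : LaurentSeries L) :
    algebraMap L (LaurentSeries L) c * x = c • x := by
  rw [algebraMap_laurentSeries_eq_single, ← HahnSeries.C_apply, HahnSeries.C_mul_eq_smul]

/-- **Descent of linear relations**: a nontrivial `Cx`-linear relation between the images of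
finitely many Laurent series with coefficients in `K ⊆ Cx` comes from a nontrivial `K`-linear
relation. -/
theorem exists_rel_of_coeffMap_rel {ι : Type*} [Fintype ι] (v : ι → LaurentSeries K) (c : ι → Cx)
    (hc : c ≠ 0) (h : ∑ i, c i • coeffMap f (v i) = 0) :
    ∃ l : ι → K, l ≠ 0 ∧ ∑ i, l i • v i = 0 := by
  classical
  let r : ℤ → (ι → K) := fun n i => (v i).coeff n
  by_cases hU : Submodule.span K (Set.range r) = ⊤
  · exfalso
    have key : ∀ w ∈ Submodule.span K (Set.range r), ∑ i, c i * f (w i) = 0 := by
      intro w hw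
      induction hw using Submodule.span_induction with
      | mem w hw =>
          obtain ⟨n, rfl⟩ := hw
          have h1 := congrArg (fun x : LaurentSeries Cx => x.coeff n) h
          simp only [HahnSeries.coeff_sum, HahnSeries.coeff_smul, coeffMap_coeff, smul_eq_mul,
            HahnSeries.coeff_zero] at h1
          exact h1
      | zero => simp
      | add w w' _ _ h1 h2 =>
          simp only [Pi.add_apply, map_add, mul_add, Finset.sum_add_distrib, h1, h2, add_zero]
      | smul k w _ h1 =>
          simp only [Pi.smul_apply, smul_eq_mul, map_mul]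
          have : ∀ i, c i * (f k * f (w i)) = f k * (c i * f (w i)) := fun i => by ring
          simp only [this, ← Finset.mul_sum, h1, mul_zero]
    apply hc
    funext i0
    have h1 := key (Pi.single i0 1) (by rw [hU]; exact Submodule.mem_top)
    rw [Finset.sum_eq_single i0] at h1
    · simpa using h1
    · intro b _ hb
      rw [Pi.single_eq_of_ne hb, map_zero, mul_zero]
    · intro h2; exact absurd (Finset.mem_univ i0) h2
  · obtain ⟨g, hg0, hg⟩ := Submodule.exists_le_ker_of_lt_top _ (lt_top_iff_ne_top.mpr hU)
    refine ⟨fun i => g (Pi.single i 1), ?_, ?_⟩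
    · intro h0
      apply hg0
      apply LinearMap.ext
      intro w
      rw [LinearMap.pi_apply_eq_sum_univ g w]
      simp only [LinearMap.zero_apply]
      refine Finset.sum_eq_zero fun i _ => ?_
      have h1 := congrFun h0 i
      simp only [Pi.zero_apply] at h1
      have h2 : (fun j => if i = j then (1 : K) else 0) = Pi.single i 1 := by
        funext j
        by_cases hij : i = j
        · subst hij; simp
        · rw [if_neg hij, Pi.single_eq_of_ne (Ne.symm hij)]
      rw [h2, h1, smul_zero]
    · ext n
      simp only [HahnSeries.coeff_sum, HahnSeries.coeff_smul, smul_eq_mul, HahnSeries.coeff_zero]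
      have h1 : g (r n) = 0 := hg (Submodule.subset_span ⟨n, rfl⟩)
      rw [LinearMap.pi_apply_eq_sum_univ g (r n)] at h1
      rw [← h1]
      refine Finset.sum_congr rfl fun i _ => ?_
      have h2 : (fun j => if i = j then (1 : K) else 0) = Pi.single i 1 := by
        funext j
        by_cases hij : i = j
        · subst hij; simp
        · rw [if_neg hij, Pi.single_eq_of_ne (Ne.symm hij)]
      rw [h2, smul_eq_mul, mul_comm]

/-- **Descent of algebraic relations**: a family of Laurent series over `K` which is
algebraically independent over `K` stays algebraically independent over `Cx` after extending the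
coefficient field to `Cx`. -/
theorem algebraicIndependent_coeffMap {σ : Type*} {y : σ → LaurentSeries K}
    (hy : AlgebraicIndependent K y) :
    AlgebraicIndependent Cx (fun i => coeffMap f (y i)) := by
  classical
  rw [algebraicIndependent_iff]
  intro P hP
  by_contra hP0
  let v : ↥P.support → LaurentSeries K := fun m => (m : σ →₀ ℕ).prod fun i k => y i ^ k
  let c : ↥P.support → Cx := fun m => P.coeff m
  have hsum : ∑ m : ↥P.support, c m • coeffMap f (v m) = 0 := by
    rw [← hP]
    conv_rhs => rw [← MvPolynomial.support_sum_monomial_coeff P, map_sum]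
    rw [Finset.sum_coe_sort P.support
      (fun m => P.coeff m • coeffMap f ((m : σ →₀ ℕ).prod fun i k => y i ^ k))]
    refine Finset.sum_congr rfl fun m _ => ?_
    rw [MvPolynomial.aeval_monomial, algebraMap_mul_eq_smul, map_finsuppProd]
    simp only [map_pow]
  have hc : c ≠ 0 := by
    obtain ⟨m, hm⟩ := MvPolynomial.support_nonempty.mpr hP0
    intro h0
    have := congrFun h0 ⟨m, hm⟩
    exact (MvPolynomial.mem_support_iff.mp hm) this
  obtain ⟨l, hl0, hl⟩ := exists_rel_of_coeffMap_rel f v c hc hsum
  let Q : MvPolynomial σ K := ∑ m : ↥P.support, MvPolynomial.monomial (m : σ →₀ ℕ) (l m)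
  have hQ : MvPolynomial.aeval y Q = 0 := by
    rw [← hl]
    show MvPolynomial.aeval y (∑ m : ↥P.support, MvPolynomial.monomial (m : σ →₀ ℕ) (l m)) = _
    rw [map_sum]
    refine Finset.sum_congr rfl fun m _ => ?_
    rw [MvPolynomial.aeval_monomial, algebraMap_mul_eq_smul]
  have hQ0 : Q = 0 := (algebraicIndependent_iff.mp hy) Q hQ
  apply hl0
  funext m0
  have h1 := congrArg (MvPolynomial.coeff (m0 : σ →₀ ℕ)) hQ0
  show l m0 = 0
  rw [MvPolynomial.coeff_zero] at h1
  rw [← h1]
  show _ = MvPolynomial.coeff (m0 : σ →₀ ℕ)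
    (∑ m : ↥P.support, MvPolynomial.monomial (m : σ →₀ ℕ) (l m))
  rw [MvPolynomial.coeff_sum, Finset.sum_eq_single m0]
  · rw [MvPolynomial.coeff_monomial, if_pos rfl]
  · intro b _ hb
    rw [MvPolynomial.coeff_monomial, if_neg]
    intro h2
    exact hb (Subtype.ext h2)
  · intro h2; exact absurd (Finset.mem_univ m0) h2

end LI

section Orbit

open Polynomial

variable {Cx M : Type*} [Field Cx] [Field M] [Algebra Cx M]
variable {G : Type*} [Group G] (act : G →* (M ≃ₐ[Cx] M))

/-- **Orbit polynomial**: if `S` is a finite stable set and the invariants of `Cx[S]` lie in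
`Cx[j]`, every element of `S` is integral over `Cx[j]`. -/
theorem isIntegral_of_invariants {S : Set M} (hS : ∀ g, ∀ s ∈ S, act g s ∈ S) (hfin : S.Finite)
    {j : M}
    (hinv : ∀ b ∈ Algebra.adjoin Cx S, (∀ g, act g b = b) → b ∈ Algebra.adjoin Cx {j})
    {x : M} (hx : x ∈ S) : IsIntegral (Algebra.adjoin Cx {j}) x := by
  classical
  have horb : Set.range (fun g => act g x) ⊆ S := by
    rintro _ ⟨g, rfl⟩
    exact hS g x hx
  let O : Finset M := (hfin.subset horb).toFinset
  have hO : ∀ t, t ∈ O ↔ ∃ g, act g x = t := by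
    intro t
    simp only [O, Set.Finite.mem_toFinset, Set.mem_range]
  have hOS : ∀ t ∈ O, t ∈ S := fun t ht => horb ((hO t).mp ht)
  let F : M[X] := ∏ t ∈ O, (X - C t)
  have hFmonic : F.Monic := monic_prod_of_monic _ _ (fun t _ => monic_X_sub_C t)
  have hFroot : F.eval x = 0 := by
    rw [eval_prod]
    refine Finset.prod_eq_zero ((hO x).mpr ⟨1, by rw [map_one]; rfl⟩) ?_
    simp
  have hFinv : ∀ g, F.map ((act g : M ≃ₐ[Cx] M) : M →+* M) = F := by
    intro g
    show (∏ t ∈ O, (X - C t)).map _ = ∏ t ∈ O, (X - C t)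
    rw [Polynomial.map_prod]
    have himg : O.image (act g) = O := by
      ext t
      rw [Finset.mem_image, hO]
      constructor
      · rintro ⟨t', ht', rfl⟩
        obtain ⟨h, rfl⟩ := (hO t').mp ht'
        exact ⟨g * h, by rw [map_mul]; rfl⟩
      · rintro ⟨h, rfl⟩
        refine ⟨act (g⁻¹ * h) x, (hO _).mpr ⟨_, rfl⟩, ?_⟩
        rw [← AlgEquiv.mul_apply, ← map_mul, mul_inv_cancel_left]
    conv_rhs => rw [← himg]
    rw [Finset.prod_image (fun a _ b _ hab => (act g).injective hab)]
    refine Finset.prod_congr rfl fun t _ => ?_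
    simp
  have hFR : F ∈ lifts (algebraMap (Algebra.adjoin Cx S) M) := by
    refine prod_mem fun t ht => ?_
    rw [lifts_iff_liftsRing]
    refine sub_mem ((lifts_iff_liftsRing _ _).mp (X_mem_lifts _)) ((lifts_iff_liftsRing _ _).mp ?_)
    exact C_mem_lifts (algebraMap (Algebra.adjoin Cx S) M) ⟨t, Algebra.subset_adjoin (hOS t ht)⟩
  have hcoeffR : ∀ k, F.coeff k ∈ Algebra.adjoin Cx S := by
    intro k
    obtain ⟨a, ha⟩ := (lifts_iff_coeff_lifts F).mp hFR k
    rw [← ha]
    exact a.2
  have hcoeffInv : ∀ g k, act g (F.coeff k) = F.coeff k := by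
    intro g k
    have := congrArg (fun p : M[X] => p.coeff k) (hFinv g)
    simpa [coeff_map] using this
  have hcoeff : ∀ k, F.coeff k ∈ Algebra.adjoin Cx {j} :=
    fun k => hinv _ (hcoeffR k) (fun g => hcoeffInv g k)
  have hFA : F ∈ lifts (algebraMap (Algebra.adjoin Cx {j}) M) :=
    (lifts_iff_coeff_lifts F).mpr fun k => ⟨⟨F.coeff k, hcoeff k⟩, rfl⟩
  obtain ⟨q, hq, -, hqm⟩ := lifts_and_degree_eq_and_monic hFA hFmonic
  refine ⟨q, hqm, ?_⟩
  rw [eval₂_eq_eval_map, hq, hFroot]

end Orbit

section CoeffMap

variable {K Cx : Type*} [Field K] [Field Cx] (f : K →+* Cx)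

theorem coeffMap_injective88 : Function.Injective (coeffMap f) := by
  intro x y hxy
  ext n
  have := congrArg (fun z : LaurentSeries Cx => z.coeff n) hxy
  simp only [coeffMap_coeff] at this
  exact f.injective this

theorem coeffMap_algebraMap88 (k : K) :
    coeffMap f (algebraMap K (LaurentSeries K) k) = algebraMap Cx (LaurentSeries Cx) (f k) := by
  rw [algebraMap_laurentSeries_eq_single, algebraMap_laurentSeries_eq_single, coeffMap_single]

theorem coeffMap_aeval {σ : Type*} (y : σ → LaurentSeries K) (P : MvPolynomial σ K) :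
    coeffMap f (MvPolynomial.aeval y P) =
      MvPolynomial.aeval (fun i => coeffMap f (y i)) (MvPolynomial.map f P) := by
  induction P using MvPolynomial.induction_on with
  | C k =>
      rw [MvPolynomial.aeval_C, MvPolynomial.map_C, MvPolynomial.aeval_C, coeffMap_algebraMap88]
  | add p q hp hq => rw [map_add, map_add, map_add, map_add, hp, hq]
  | mul_X p i hp =>
      rw [map_mul, map_mul, map_mul, map_mul, hp, MvPolynomial.aeval_X, MvPolynomial.map_X,
        MvPolynomial.aeval_X]

end CoeffMap

section Relations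

variable {K Cx M : Type*} [Field K] [Field Cx] [Field M] [Algebra K Cx] [Algebra Cx M] [Algebra K M]
  [IsScalarTower K Cx M]
variable {σ : Type*} (Jd : σ → M) (xK : σ → LaurentSeries K)

/-- `rel` for polynomials with coefficients in the small field. -/
theorem rel_small
    (hrel : ∀ P : MvPolynomial σ Cx, MvPolynomial.aeval Jd P = 0 ↔
      MvPolynomial.aeval (fun i => coeffMap (algebraMap K Cx) (xK i)) P = 0)
    (P : MvPolynomial σ K) :
    MvPolynomial.aeval Jd P = 0 ↔ MvPolynomial.aeval xK P = 0 := by
  rw [← MvPolynomial.aeval_map_algebraMap Cx Jd P, hrel, ← coeffMap_aeval]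
  constructor
  · intro h
    exact coeffMap_injective88 _ (by rw [h, map_zero])
  · intro h
    rw [h, map_zero]

/-- transfer of algebraic independence of subfamilies along equal relation ideals -/
theorem algebraicIndependent_comp_iff {R A B : Type*} [CommRing R] [CommRing A] [CommRing B]
    [Algebra R A] [Algebra R B] {a : σ → A} {b : σ → B}
    (h : ∀ P : MvPolynomial σ R, MvPolynomial.aeval a P = 0 ↔ MvPolynomial.aeval b P = 0)
    {τ : Type*} (e : τ → σ) :
    AlgebraicIndependent R (a ∘ e) ↔ AlgebraicIndependent R (b ∘ e) := by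
  rw [algebraicIndependent_iff, algebraicIndependent_iff]
  constructor
  · intro H P hP
    apply H P
    rw [← MvPolynomial.aeval_rename] at hP ⊢
    exact (h _).mpr hP
  · intro H P hP
    apply H P
    rw [← MvPolynomial.aeval_rename] at hP ⊢
    exact (h _).mp hP

omit [Algebra K M] [IsScalarTower K Cx M] in
/-- `j = Jd i1` is transcendental over `Cx` when its `q`-expansion is. -/
theorem transcendental_of_rel
    (hrel : ∀ P : MvPolynomial σ Cx, MvPolynomial.aeval Jd P = 0 ↔
      MvPolynomial.aeval (fun i => coeffMap (algebraMap K Cx) (xK i)) P = 0)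
    (i1 : σ) (htr : Transcendental Cx (coeffMap (algebraMap K Cx) (xK i1))) :
    Transcendental Cx (Jd i1) := by
  rw [transcendental_iff] at htr ⊢
  intro p hp
  apply htr p
  have h1 : MvPolynomial.aeval Jd (Polynomial.aeval (MvPolynomial.X i1 : MvPolynomial σ Cx) p) = 0 := by
    rw [← Polynomial.aeval_algHom_apply, MvPolynomial.aeval_X]
    exact hp
  have h2 := (hrel _).mp h1
  rw [← Polynomial.aeval_algHom_apply, MvPolynomial.aeval_X] at h2
  exact h2

open scoped IntermediateField.algebraAdjoinAdjoin in
/-- **Algebraicity over the small field**: the generators `Jd i` are algebraic over `K(j)`,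
`j = Jd i1`. -/
theorem isAlgebraic_of_rel
    (hrel : ∀ P : MvPolynomial σ Cx, MvPolynomial.aeval Jd P = 0 ↔
      MvPolynomial.aeval (fun i => coeffMap (algebraMap K Cx) (xK i)) P = 0)
    (i1 : σ) (htr : Transcendental Cx (coeffMap (algebraMap K Cx) (xK i1)))
    {G : Type*} [Group G] (act : G →* (M ≃ₐ[Cx] M))
    {S : Set M} (hS : ∀ g, ∀ s ∈ S, act g s ∈ S) (hfin : S.Finite)
    (hinv : ∀ b ∈ Algebra.adjoin Cx S, (∀ g, act g b = b) → b ∈ Algebra.adjoin Cx {Jd i1})
    (i : σ) (hi : Jd i ∈ S) : IsAlgebraic K⟮Jd i1⟯ (Jd i) := by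
  have hj : Transcendental Cx (Jd i1) := transcendental_of_rel Jd xK hrel i1 htr
  have hjK : Transcendental K (Jd i1) := hj.restrictScalars (algebraMap K Cx).injective
  let e : Option Unit → σ := fun o => o.elim i (fun _ => i1)
  have he : (Jd ∘ e) = fun o : Option Unit => o.elim (Jd i) (fun _ : Unit => Jd i1) := by
    funext o
    cases o <;> rfl
  have hint : IsIntegral (Algebra.adjoin Cx {Jd i1}) (Jd i) :=
    isIntegral_of_invariants act hS hfin hinv hi
  have hAI1 : AlgebraicIndependent Cx (fun _ : Unit => Jd i1) :=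
    algebraicIndependent_unique_type_iff.mpr hj
  have h1 : ¬ AlgebraicIndependent Cx (Jd ∘ e) := by
    rw [he, hAI1.option_iff_transcendental, Set.range_const]
    exact fun ht => ht hint.isAlgebraic
  have h2 : ¬ AlgebraicIndependent Cx ((fun k => coeffMap (algebraMap K Cx) (xK k)) ∘ e) :=
    fun h => h1 ((algebraicIndependent_comp_iff hrel e).mpr h)
  have h3 : ¬ AlgebraicIndependent K (xK ∘ e) :=
    fun h => h2 (algebraicIndependent_coeffMap (algebraMap K Cx) h)
  have h4 : ¬ AlgebraicIndependent K (Jd ∘ e) :=
    fun h => h3 ((algebraicIndependent_comp_iff (rel_small Jd xK hrel) e).mp h)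
  have hAI1K : AlgebraicIndependent K (fun _ : Unit => Jd i1) :=
    algebraicIndependent_unique_type_iff.mpr hjK
  rw [he, hAI1K.option_iff_transcendental, Set.range_const] at h4
  have h5 : IsAlgebraic (Algebra.adjoin K {Jd i1}) (Jd i) := not_not.mp h4
  exact (IsFractionRing.isAlgebraic_iff (Algebra.adjoin K {Jd i1}) K⟮Jd i1⟯ M).mp h5

/-- an automorphism fixing `j` fixes `K(j)` pointwise -/
theorem fixes_adjoin_simple (s : M ≃ₐ[Cx] M) {j : M} (hs : s j = j) {y : M} (hy : y ∈ K⟮j⟯) :
    s y = y := by
  induction hy using IntermediateField.adjoin_induction with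
  | mem t ht =>
      rw [Set.mem_singleton_iff] at ht
      rw [ht, hs]
  | algebraMap k => rw [IsScalarTower.algebraMap_apply K Cx M, AlgEquiv.commutes]
  | add _ _ _ _ h1 h2 => rw [map_add, h1, h2]
  | mul _ _ _ _ h1 h2 => rw [map_mul, h1, h2]
  | inv _ _ h1 => rw [map_inv₀, h1]

/-- conjugates of elements algebraic over `K(j)` are algebraic over `K(j)` -/
theorem isAlgebraic_conj (s : M ≃ₐ[Cx] M) {j : M} (hs : s j = j) {a : M}
    (ha : IsAlgebraic K⟮j⟯ a) : IsAlgebraic K⟮j⟯ (s a) := by
  let s' : M →ₐ[K⟮j⟯] M :=
    { (s : M →+* M) with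
      commutes' := fun e => fixes_adjoin_simple (K := K) s hs e.2 }
  exact ha.algHom s'

end Relations

/-- the `q`-expansion of `j`, with coefficients in any field of characteristic zero, is
transcendental over the constants -/
theorem transcendental_coeffMap_jq {R : Type*} [Field R] (f : ℚ →+* R) :
    Transcendental R (coeffMap f jq) := by
  rw [transcendental_iff]
  intro p hp
  by_contra hp0
  have h1 := congrArg (fun z : LaurentSeries R => z.coeff (-(p.natDegree : ℤ))) hp
  simp only [HahnSeries.coeff_zero] at h1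
  rw [Polynomial.aeval_eq_sum_range, HahnSeries.coeff_sum] at h1
  rw [Finset.sum_eq_single p.natDegree] at h1
  · rw [Algebra.smul_def, algebraMap_mul_eq_smul, HahnSeries.coeff_smul, ← map_pow, coeffMap_coeff,
      coeff_jq_pow_self, map_one, smul_eq_mul, mul_one] at h1
    exact hp0 (Polynomial.leadingCoeff_eq_zero.mp h1)
  · intro k hk hkn
    have hlt : k < p.natDegree := lt_of_le_of_ne (Nat.lt_succ_iff.mp (Finset.mem_range.mp hk)) hkn
    rw [Algebra.smul_def, algebraMap_mul_eq_smul, HahnSeries.coeff_smul, ← map_pow, coeffMap_coeff,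
      coeff_jq_pow_of_lt (by exact_mod_cast (neg_lt_neg (by exact_mod_cast hlt))), map_zero,
      smul_zero]
  · intro h2
    exact absurd (Finset.mem_range.mpr (Nat.lt_succ_self _)) h2

end Fermat.Agent.S24.Mod88
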