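/-
S24 / MOD (helper89): the abstract glue `Mod.AnalyticInput N → Nonempty (ModularTower N)`,
assembled from landed pieces:
* `Br46Rel.exists_algHom_FN_of_relC` (helper46): `Φ : F_N → M`;
* `FixedFieldAI.fixed_mem` (helper89): the fixed field;
* `Mod.Aux16` (helper16): `T_zpow`, stability of `C[conjSet]`;
* `Mod.ValGlue14.exists_valuationSubring` (helper14): valuation subrings.
No `sorry`.
-/
import Fermat.Agent.S24.Mod.Interface
import Fermat.Agent.S24.Mod.Aux16
import Fermat.Agent.S24.Mod.ValGlue14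
import Fermat.Agent.S24.Br46Rel
import Fermat.Agent.S24.FixedFieldAI

set_option autoImplicit false

open scoped MatrixGroups
open ModularCurve IntermediateField

namespace Fermat.Agent.S24.Mod.Glue89

open Fermat.Agent.S24.Mod Fermat.Agent.S24.FixedField Fermat.Agent.S24.FixedFieldAI
open Fermat.Agent.S24.Br46

variable {N : ℕ} [NeZero N] (AI : AnalyticInput N)
variable [Algebra Kbar AI.M] [IsScalarTower Kbar AI.C AI.M]

/-- The field `ℚ̄(conjugates of j(dτ))` inside the ambient field. -/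
noncomputable def L0 : IntermediateField Kbar AI.M :=
  IntermediateField.adjoin Kbar (conjSet AI.act AI.Jd N)

/-- The `ℚ̄`-algebra automorphism of `M` underlying `act g`. -/
noncomputable def actK (g : SL(2, ℤ)) : AI.M ≃ₐ[Kbar] AI.M := (AI.act g).restrictScalars Kbar

@[simp] theorem actK_apply (g : SL(2, ℤ)) (y : AI.M) : actK AI g y = AI.act g y := rfl

theorem act_mem_L0 (g : SL(2, ℤ)) {y : AI.M} (hy : y ∈ L0 AI) : AI.act g y ∈ L0 AI := by
  have h : (L0 AI).map (actK AI g).toAlgHom ≤ L0 AI := by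
    unfold L0
    rw [IntermediateField.adjoin_map]
    refine IntermediateField.adjoin.mono _ _ _ ?_
    rintro _ ⟨s, hs, rfl⟩
    exact conjSet_stable AI g s hs
  exact h ⟨y, hy, rfl⟩

/-- Restriction of `act g` to `L0`, as an algebra endomorphism. -/
noncomputable def rhoHom (g : SL(2, ℤ)) : L0 AI →ₐ[Kbar] L0 AI :=
  ((actK AI g).toAlgHom.comp (L0 AI).val).codRestrict (L0 AI).toSubalgebra
    (fun y => act_mem_L0 AI g y.2)

@[simp] theorem rhoHom_coe (g : SL(2, ℤ)) (y : L0 AI) :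
    ((rhoHom AI g y : L0 AI) : AI.M) = AI.act g (y : AI.M) := rfl

theorem rhoHom_mul (g h : SL(2, ℤ)) : rhoHom AI (g * h) = (rhoHom AI g).comp (rhoHom AI h) := by
  ext y
  simp only [rhoHom_coe, AlgHom.comp_apply, map_mul]
  rfl

theorem rhoHom_one : rhoHom AI 1 = AlgHom.id Kbar (L0 AI) := by
  ext y
  simp only [rhoHom_coe, map_one, AlgHom.id_apply]
  rfl

/-- Restriction of `act g` to `L0`, as an algebra automorphism. -/
noncomputable def rhoEquiv (g : SL(2, ℤ)) : L0 AI ≃ₐ[Kbar] L0 AI :=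
  AlgEquiv.ofAlgHom (rhoHom AI g) (rhoHom AI g⁻¹)
    (by rw [← rhoHom_mul, mul_inv_cancel, rhoHom_one])
    (by rw [← rhoHom_mul, inv_mul_cancel, rhoHom_one])

@[simp] theorem rhoEquiv_coe (g : SL(2, ℤ)) (y : L0 AI) :
    ((rhoEquiv AI g y : L0 AI) : AI.M) = AI.act g (y : AI.M) := rfl

/-- The action of the modular group on `L0`. -/
noncomputable def rho : SL(2, ℤ) →* (L0 AI ≃ₐ[Kbar] L0 AI) where
  toFun := rhoEquiv AI
  map_one' := by
    ext y
    simp only [rhoEquiv_coe, map_one]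
    rfl
  map_mul' g h := by
    ext y
    simp only [rhoEquiv_coe, map_mul]
    rfl

@[simp] theorem rho_coe (g : SL(2, ℤ)) (y : L0 AI) :
    ((rho AI g y : L0 AI) : AI.M) = AI.act g (y : AI.M) := rfl

theorem exists_psi : ∃ ψ : FN N →ₐ[Kbar] AI.M,
    (∀ d : Dv N, ψ ⟨xK N d, xK_mem N d⟩ = AI.Jd d.1) ∧ ψ (jF N) = AI.Jd 1 :=
  exists_algHom_FN_of_relC N (fun d : Dv N => AI.Jd d.1) AI.rel

/-- The embedding of `F_N` into the ambient field. -/
noncomputable def psi : FN N →ₐ[Kbar] AI.M := (exists_psi AI).choose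

theorem psi_xK (d : Dv N) : psi AI ⟨xK N d, xK_mem N d⟩ = AI.Jd d.1 :=
  (exists_psi AI).choose_spec.1 d

theorem psi_jF : psi AI (jF N) = AI.Jd 1 := (exists_psi AI).choose_spec.2

/-- The generators of `F_N`, as a subset of the type `F_N`. -/
def gensFN (N : ℕ) [NeZero N] : Set (FN N) := Set.range fun d : Dv N => ⟨xK N d, xK_mem N d⟩

theorem adjoin_gensFN : IntermediateField.adjoin Kbar (gensFN N) = ⊤ := by
  apply IntermediateField.lift_injective
  rw [IntermediateField.lift_adjoin, IntermediateField.lift_top]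
  have : (Subtype.val '' gensFN N : Set (LaurentSeries Kbar)) = Set.range (xK N) := by
    ext x
    constructor
    · rintro ⟨_, ⟨d, rfl⟩, rfl⟩
      exact ⟨d, rfl⟩
    · rintro ⟨d, rfl⟩
      exact ⟨⟨xK N d, xK_mem N d⟩, ⟨d, rfl⟩, rfl⟩
  rw [this]
  exact (modularFunctionFieldBar_eq_adjoin N).symm

theorem psi_mem_L0 (f : FN N) : psi AI f ∈ L0 AI := by
  have h1 : (⊤ : IntermediateField Kbar (FN N)).map (psi AI) ≤ L0 AI := by
    rw [← adjoin_gensFN, IntermediateField.adjoin_map]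
    unfold L0
    refine IntermediateField.adjoin.mono _ _ _ ?_
    rintro _ ⟨_, ⟨d, rfl⟩, rfl⟩
    rw [psi_xK]
    exact Jd_mem_conjSet AI d.2
  exact h1 ⟨f, IntermediateField.mem_top, rfl⟩

/-- The embedding `Φ : F_N → L0`. -/
noncomputable def Phi : FN N →ₐ[Kbar] L0 AI :=
  (psi AI).codRestrict (L0 AI).toSubalgebra (psi_mem_L0 AI)

@[simp] theorem Phi_coe (f : FN N) : ((Phi AI f : L0 AI) : AI.M) = psi AI f := rfl

theorem finite_range_rho : Finite (rho AI).range := by
  classical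
  have hSfin : (conjSet AI.act AI.Jd N).Finite := conjSet_finite AI
  have : Finite (conjSet AI.act AI.Jd N) := hSfin.to_subtype
  -- evaluation on generators
  let G : (L0 AI ≃ₐ[Kbar] L0 AI) → (conjSet AI.act AI.Jd N → AI.M) :=
    fun σ s => ((σ ⟨s.1, IntermediateField.subset_adjoin Kbar _ s.2⟩ : L0 AI) : AI.M)
  have hG : Function.Injective G := by
    intro σ τ h
    have h2 : (σ : L0 AI →ₐ[Kbar] L0 AI) = (τ : L0 AI →ₐ[Kbar] L0 AI) := by
      refine IntermediateField.adjoin_algHom_ext Kbar fun x hx => ?_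
      apply Subtype.ext
      exact congrFun h ⟨x, hx⟩
    ext y
    exact congrArg Subtype.val (AlgHom.congr_fun h2 y)
  have hT : {f : conjSet AI.act AI.Jd N → AI.M | ∀ s, f s ∈ conjSet AI.act AI.Jd N}.Finite :=
    Set.Finite.pi' fun _ => hSfin
  have hsub : ((rho AI).range : Set (L0 AI ≃ₐ[Kbar] L0 AI)) ⊆
      G ⁻¹' {f | ∀ s, f s ∈ conjSet AI.act AI.Jd N} := by
    rintro _ ⟨g, rfl⟩ s
    show ((rho AI g ⟨s.1, _⟩ : L0 AI) : AI.M) ∈ _
    rw [rho_coe]
    exact conjSet_stable AI g s.1 s.2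
  exact ((hT.preimage hG.injOn).subset hsub).to_subtype

omit [Algebra Kbar AI.M] [IsScalarTower Kbar AI.C AI.M] in
theorem nonempty_modularTower_aux {N : ℕ} [NeZero N] (AI : AnalyticInput N)
    [Algebra Kbar AI.M] [IsScalarTower Kbar AI.C AI.M] : Nonempty (ModularTower N) := by
  classical
  let instAlgF : Algebra (FN N) (L0 AI) := (Phi AI).toRingHom.toAlgebra
  have hAlgMap : ∀ f : FN N, algebraMap (FN N) (L0 AI) f = Phi AI f := fun f => rfl
  have instTower : IsScalarTower Kbar (FN N) (L0 AI) :=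
    IsScalarTower.of_algebraMap_eq (fun k => ((Phi AI).commutes k).symm)
  have hj : ((algebraMap (FN N) (L0 AI) (jF N) : L0 AI) : AI.M) = AI.Jd 1 := psi_jF AI
  refine ⟨{ L := L0 AI, ρ := rho AI, finite_range := finite_range_rho AI, ρ_neg_one := ?_,
            fixes_j := ?_, fixed := ?_, fixes_F_iff := ?_, T_zpow := ?_, val_fin := ?_,
            val_inf := ?_ }⟩
  · -- ρ_neg_one
    ext y
    rw [rho_coe, AI.act_neg_one]
    rfl
  · -- fixes_j
    intro g
    apply Subtype.ext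
    rw [rho_coe, hj, AI.act_J]
  · -- fixed
    intro y hy
    refine mem_adjoin_of_val_mem ?_
    rw [hj]
    refine fixed_mem AI y.2 fun g => ?_
    have := congrArg Subtype.val (hy g)
    rwa [rho_coe] at this
  · -- fixes_F_iff
    intro g
    constructor
    · intro h
      apply AI.stab_JN
      have h1 := congrArg Subtype.val (h ⟨xK N ⟨N, dvd_rfl⟩, xK_mem N _⟩)
      rw [rho_coe] at h1
      have h2 : ((algebraMap (FN N) (L0 AI) ⟨xK N ⟨N, dvd_rfl⟩, xK_mem N _⟩ : L0 AI) : AI.M) =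
          AI.Jd N := psi_xK AI ⟨N, dvd_rfl⟩
      rwa [h2] at h1
    · intro hg f
      apply Subtype.ext
      rw [rho_coe]
      show AI.act g (psi AI f) = psi AI f
      have h1 : (actK AI g).toAlgHom.comp (psi AI) = psi AI := by
        refine IntermediateField.algHom_ext_of_eq_adjoin Kbar
          (modularFunctionFieldBar_eq_adjoin N) fun x hx => ?_
        obtain ⟨d, rfl⟩ := hx
        show AI.act g (psi AI ⟨xK N d, _⟩) = psi AI ⟨xK N d, _⟩
        rw [psi_xK, AI.act_Jd d.1 d.2 g hg]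
      exact AlgHom.congr_fun h1 f
  · -- T_zpow
    intro k hk
    refine Aux16.dvd_of_act_T_zpow AI.act AI.Jd N AI.stab_JN k fun s hs => ?_
    have h1 : ((rho AI (ModularGroup.T ^ k)
        ⟨s, IntermediateField.subset_adjoin Kbar _ hs⟩ : L0 AI) : AI.M) = s := by
      rw [hk]; rfl
    rwa [rho_coe] at h1
  · -- val_fin
    intro c
    obtain ⟨ν, hν, hpos, hle, hS, hST⟩ := AI.val_fin c
    obtain ⟨V, ν', h1, h2, h3, h4, h5⟩ := ValGlue14.exists_valuationSubring (k := Kbar)
      (Algebra.adjoin AI.C (conjSet AI.act AI.Jd N)) ν hν (L0 AI)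
      (fun y hy => ValGlue14.isFrac_of_mem_adjoin _ hy)
    have hz : ((algebraMap (FN N) (L0 AI) (jF N) - algebraMap Kbar (L0 AI) c : L0 AI) : AI.M) =
        AI.Jd 1 - algebraMap AI.C AI.M (algebraMap Kbar AI.C c) := by
      rw [AddSubgroupClass.coe_sub, hj, ← IsScalarTower.algebraMap_apply Kbar AI.C AI.M]
      rfl
    have hzA : AI.Jd 1 - algebraMap AI.C AI.M (algebraMap Kbar AI.C c) ∈
        Algebra.adjoin AI.C (conjSet AI.act AI.Jd N) :=
      sub_mem (Algebra.subset_adjoin (Jd_mem_conjSet AI (one_dvd N)))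
        (Subalgebra.algebraMap_mem _ _)
    have hz0 : (algebraMap (FN N) (L0 AI) (jF N) - algebraMap Kbar (L0 AI) c : L0 AI) ≠ 0 := by
      intro h0
      have h6 := congrArg Subtype.val h0
      rw [hz] at h6
      have h7 : AI.Jd 1 = algebraMap AI.C AI.M (algebraMap Kbar AI.C c) := sub_eq_zero.mp h6
      exact transcendental_J AI (h7 ▸ isAlgebraic_algebraMap _)
    have hν' : ν' (algebraMap (FN N) (L0 AI) (jF N) - algebraMap Kbar (L0 AI) c) =
        ν (AI.Jd 1 - algebraMap AI.C AI.M (algebraMap Kbar AI.C c)) := by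
      rw [h4 _ (hz ▸ hzA) hz0, hz]
    refine ⟨V, ν', h1, h2, h3, hν' ▸ hpos, hν' ▸ hle, ?_, ?_⟩
    · intro hc y hy
      exact (h5 (AI.act ModularGroup.S) (fun a ha => Aux16.act_mem_adjoin AI.act AI.Jd N _ ha)
        (hS hc) y (act_mem_L0 AI _ y.2)).2 hy
    · intro hc y hy
      exact (h5 (AI.act (ModularGroup.S * ModularGroup.T))
        (fun a ha => Aux16.act_mem_adjoin AI.act AI.Jd N _ ha)
        (hST hc) y (act_mem_L0 AI _ y.2)).2 hy
  · -- val_inf
    obtain ⟨ν, hν, hneg, hge, hT⟩ := AI.val_inf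
    obtain ⟨V, ν', h1, h2, h3, h4, h5⟩ := ValGlue14.exists_valuationSubring (k := Kbar)
      (Algebra.adjoin AI.C (conjSet AI.act AI.Jd N)) ν hν (L0 AI)
      (fun y hy => ValGlue14.isFrac_of_mem_adjoin _ hy)
    have hzA : AI.Jd 1 ∈ Algebra.adjoin AI.C (conjSet AI.act AI.Jd N) :=
      Algebra.subset_adjoin (Jd_mem_conjSet AI (one_dvd N))
    have hz0 : (algebraMap (FN N) (L0 AI) (jF N) : L0 AI) ≠ 0 := by
      intro h0
      have h6 := congrArg Subtype.val h0
      rw [hj] at h6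
      have h7 : AI.Jd 1 = algebraMap AI.C AI.M 0 := by rw [h6, map_zero]; rfl
      exact transcendental_J AI (h7 ▸ isAlgebraic_algebraMap _)
    have hν' : ν' (algebraMap (FN N) (L0 AI) (jF N)) = ν (AI.Jd 1) := by
      rw [h4 _ (hj ▸ hzA) hz0, hj]
    refine ⟨V, ν', h1, h2, h3, hν' ▸ hneg, hν' ▸ hge, ?_⟩
    intro y hy
    exact (h5 (AI.act ModularGroup.T) (fun a ha => Aux16.act_mem_adjoin AI.act AI.Jd N _ ha)
      hT y (act_mem_L0 AI _ y.2)).2 hy

/-- **MOD glue**: an analytic input gives a modular tower. -/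
theorem nonempty_modularTower {N : ℕ} [NeZero N] (h : Nonempty (AnalyticInput N)) :
    Nonempty (ModularTower N) := by
  obtain ⟨AI⟩ := h
  let _ : Algebra Kbar AI.M := ((algebraMap AI.C AI.M).comp (algebraMap Kbar AI.C)).toAlgebra
  have : IsScalarTower Kbar AI.C AI.M := IsScalarTower.of_algebraMap_eq fun _ => rfl
  exact nonempty_modularTower_aux AI

end Fermat.Agent.S24.Mod.Glue89
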