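/-
S24, package MOD, pure algebra: the embedding `Φ : F_N → M` of the (formal) function field of
`X₀(N)` into the ambient analytic field of an `AnalyticInput`.
-/
import Fermat.Agent.S24.Mod.Interface
import Fermat.Agent.S24.Mod.LinDesc
import Fermat.Prelude.Thm_ModularCurve_coeffMap_qExpand

set_option autoImplicit false

open AlgebraicCurve IntermediateField
open scoped MatrixGroups
open ModularCurve

namespace Fermat.Agent.S24.Mod

/-! ### The function field `F_N` is generated by the `j(q^d)` -/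

theorem coeffEmb_mem_adjoin_range_xK (N : ℕ) [NeZero N] {x : LaurentSeries ℚ}
    (hx : x ∈ modularFunctionFieldFull N) :
    coeffEmb Kbar x ∈ IntermediateField.adjoin Kbar (Set.range (xK N)) := by
  rw [modularFunctionFieldFull] at hx
  induction hx using IntermediateField.adjoin_induction with
  | mem y hy =>
    obtain ⟨d, hne, hd, rfl⟩ := hy
    exact IntermediateField.subset_adjoin _ _ ⟨⟨d, hd⟩, rfl⟩
  | algebraMap r =>
    have : coeffEmb Kbar (algebraMap ℚ (LaurentSeries ℚ) r) =
        algebraMap Kbar (LaurentSeries Kbar) (algebraMap ℚ Kbar r) := by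
      rw [algebraMap_apply_eq_single, algebraMap_laurentSeries_eq_single, coeffEmb, coeffMap_single]
    rw [this]
    exact IntermediateField.algebraMap_mem _ _
  | add y z _ _ hy hz => rw [map_add]; exact add_mem hy hz
  | inv y _ hy => rw [map_inv₀]; exact inv_mem hy
  | mul y z _ _ hy hz => rw [map_mul]; exact mul_mem hy hz

theorem modularFunctionFieldBar_eq_adjoin (N : ℕ) [NeZero N] :
    modularFunctionFieldBar N = IntermediateField.adjoin Kbar (Set.range (xK N)) := by
  apply le_antisymm
  · rw [modularFunctionFieldBar, laurentBaseChange, IntermediateField.adjoin_le_iff]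
    rintro _ ⟨x, hx, rfl⟩
    exact coeffEmb_mem_adjoin_range_xK N hx
  · rw [IntermediateField.adjoin_le_iff]
    rintro _ ⟨d, rfl⟩
    exact coeffEmb_mem_laurentBaseChange Kbar (jqd_mem_full N d.2)

/-! ### Scalars -/

noncomputable instance instAlgebraKbarM {N : ℕ} [NeZero N] (I : AnalyticInput N) :
    Algebra Kbar I.M :=
  ((algebraMap I.C I.M).comp (algebraMap Kbar I.C)).toAlgebra

instance instIsScalarTowerKbarCM {N : ℕ} [NeZero N] (I : AnalyticInput N) :
    IsScalarTower Kbar I.C I.M :=
  IsScalarTower.of_algebraMap_eq fun _ => rfl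

/-! ### Relations over `Kbar` -/

theorem coeffMap_algebraMap' {K C : Type*} [Field K] [Field C] (f : K →+* C) (a : K) :
    coeffMap f (algebraMap K (LaurentSeries K) a) = algebraMap C (LaurentSeries C) (f a) := by
  rw [algebraMap_laurentSeries_eq_single, algebraMap_laurentSeries_eq_single, coeffMap_single]

theorem coeffMap_injective {K C : Type*} [Field K] [Field C] (f : K →+* C) :
    Function.Injective (coeffMap f) := by
  intro x y h
  ext k
  have := congrArg (fun z => HahnSeries.coeff z k) h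
  simp only [coeffMap_coeff] at this
  exact f.injective this

theorem coeffMap_aeval {K C : Type*} [Field K] [Field C] [Algebra K C] {σ : Type*}
    (x : σ → LaurentSeries K) (P : MvPolynomial σ K) :
    coeffMap (algebraMap K C) (MvPolynomial.aeval x P) =
      MvPolynomial.aeval (fun i => coeffMap (algebraMap K C) (x i))
        (MvPolynomial.map (algebraMap K C) P) := by
  rw [MvPolynomial.aeval_def, MvPolynomial.aeval_def, MvPolynomial.eval₂_map,
    MvPolynomial.hom_eval₂]
  congr 1
  ext a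
  simp [coeffMap_algebraMap']

variable {N : ℕ} [NeZero N] (I : AnalyticInput N)

/-- The relations between the `j(dτ)` over `Kbar` are those between the formal `j(q^d)`. -/
theorem rel_K (P : MvPolynomial (Dv N) Kbar) :
    MvPolynomial.aeval (fun d : Dv N => I.Jd d.1) P = 0 ↔ MvPolynomial.aeval (xK N) P = 0 := by
  rw [← MvPolynomial.aeval_map_algebraMap I.C (fun d : Dv N => I.Jd d.1) P, I.rel,
    ← (coeffMap_injective (algebraMap Kbar I.C)).eq_iff, map_zero, coeffMap_aeval]
  rfl

/-! ### The map `Φ` -/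

/-- formal side evaluation -/
noncomputable abbrev evA (N : ℕ) [NeZero N] : MvPolynomial (Dv N) Kbar →ₐ[Kbar] LaurentSeries Kbar :=
  MvPolynomial.aeval (xK N)

/-- analytic side evaluation -/
noncomputable abbrev evB : MvPolynomial (Dv N) Kbar →ₐ[Kbar] I.M :=
  MvPolynomial.aeval (fun d : Dv N => I.Jd d.1)

theorem evB_eq_zero_iff (P : MvPolynomial (Dv N) Kbar) : evB I P = 0 ↔ evA N P = 0 := rel_K I P

/-- The underlying function of `Φ`, defined on all Laurent series (junk outside `F_N`). -/
noncomputable def phiFun (f : LaurentSeries Kbar) : I.M :=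
  open Classical in
  if h : ∃ P Q : MvPolynomial (Dv N) Kbar, evA N Q ≠ 0 ∧ f = evA N P / evA N Q
  then evB I h.choose / evB I h.choose_spec.choose else 0

theorem phi_wd (P Q P' Q' : MvPolynomial (Dv N) Kbar) (hQ : evA N Q ≠ 0) (hQ' : evA N Q' ≠ 0)
    (heq : evA N P / evA N Q = evA N P' / evA N Q') :
    evB I P' / evB I Q' = evB I P / evB I Q := by
  have hBQ : evB I Q ≠ 0 := fun h0 => hQ ((evB_eq_zero_iff I Q).mp h0)
  have hBQ' : evB I Q' ≠ 0 := fun h0 => hQ' ((evB_eq_zero_iff I Q').mp h0)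
  rw [div_eq_div_iff hQ hQ'] at heq
  rw [div_eq_div_iff hBQ' hBQ]
  have h1 : evA N (P' * Q - P * Q') = 0 := by
    rw [map_sub, map_mul, map_mul, heq, sub_self]
  have h2 := (evB_eq_zero_iff I _).mpr h1
  rw [map_sub, map_mul, map_mul, sub_eq_zero] at h2
  exact h2

theorem phiFun_div (P Q : MvPolynomial (Dv N) Kbar) (hQ : evA N Q ≠ 0) :
    phiFun I (evA N P / evA N Q) = evB I P / evB I Q := by
  classical
  have h : ∃ P' Q' : MvPolynomial (Dv N) Kbar, evA N Q' ≠ 0 ∧
      evA N P / evA N Q = evA N P' / evA N Q' := ⟨P, Q, hQ, rfl⟩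
  rw [phiFun, dif_pos h]
  exact phi_wd I P Q _ _ hQ h.choose_spec.choose_spec.1 h.choose_spec.choose_spec.2

theorem exists_rep {f : LaurentSeries Kbar} (hf : f ∈ modularFunctionFieldBar N) :
    ∃ P Q : MvPolynomial (Dv N) Kbar, evA N Q ≠ 0 ∧ f = evA N P / evA N Q := by
  rw [modularFunctionFieldBar_eq_adjoin, IntermediateField.mem_adjoin_range_iff] at hf
  obtain ⟨P, Q, rfl⟩ := hf
  by_cases hQ : evA N Q = 0
  · refine ⟨0, 1, by simp, ?_⟩
    show MvPolynomial.aeval (xK N) P / MvPolynomial.aeval (xK N) Q = _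
    have hQ' : MvPolynomial.aeval (xK N) Q = 0 := hQ
    rw [hQ', div_zero]; simp
  · exact ⟨P, Q, hQ, rfl⟩

/-- The embedding of the function field of `X₀(N)` into the analytic ambient field. -/
noncomputable def Phi : FN N →ₐ[Kbar] I.M where
  toFun f := phiFun I f.1
  map_one' := by
    have := phiFun_div I 1 1 (by simp)
    simpa using this
  map_zero' := by
    have := phiFun_div I 0 1 (by simp)
    simpa using this
  map_mul' := by
    rintro ⟨f, hf⟩ ⟨g, hg⟩
    obtain ⟨P, Q, hQ, rfl⟩ := exists_rep hf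
    obtain ⟨P', Q', hQ', rfl⟩ := exists_rep hg
    show phiFun I (evA N P / evA N Q * (evA N P' / evA N Q')) = _
    have h1 : evA N P / evA N Q * (evA N P' / evA N Q') = evA N (P * P') / evA N (Q * Q') := by
      rw [map_mul, map_mul, div_mul_div_comm]
    rw [h1, phiFun_div I _ _ (by rw [map_mul]; exact mul_ne_zero hQ hQ')]
    show _ = phiFun I (evA N P / evA N Q) * phiFun I (evA N P' / evA N Q')
    rw [phiFun_div I _ _ hQ, phiFun_div I _ _ hQ', map_mul, map_mul, div_mul_div_comm]
  map_add' := by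
    rintro ⟨f, hf⟩ ⟨g, hg⟩
    obtain ⟨P, Q, hQ, rfl⟩ := exists_rep hf
    obtain ⟨P', Q', hQ', rfl⟩ := exists_rep hg
    have hBQ : evB I Q ≠ 0 := fun h0 => hQ ((evB_eq_zero_iff I Q).mp h0)
    have hBQ' : evB I Q' ≠ 0 := fun h0 => hQ' ((evB_eq_zero_iff I Q').mp h0)
    show phiFun I (evA N P / evA N Q + evA N P' / evA N Q') = _
    have h1 : evA N P / evA N Q + evA N P' / evA N Q' =
        evA N (P * Q' + P' * Q) / evA N (Q * Q') := by
      rw [map_mul, map_add, map_mul, map_mul]
      field_simp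
    rw [h1, phiFun_div I _ _ (by rw [map_mul]; exact mul_ne_zero hQ hQ')]
    show _ = phiFun I (evA N P / evA N Q) + phiFun I (evA N P' / evA N Q')
    rw [phiFun_div I _ _ hQ, phiFun_div I _ _ hQ', map_mul, map_add, map_mul, map_mul]
    field_simp
  commutes' := by
    intro c
    show phiFun I (algebraMap Kbar (LaurentSeries Kbar) c) = _
    have h1 : algebraMap Kbar (LaurentSeries Kbar) c =
        evA N (MvPolynomial.C c) / evA N 1 := by
      simp
    rw [h1, phiFun_div I _ _ (by simp)]
    simp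

theorem Phi_apply_div (P Q : MvPolynomial (Dv N) Kbar) (hQ : evA N Q ≠ 0)
    (hmem : evA N P / evA N Q ∈ modularFunctionFieldBar N) :
    Phi I ⟨evA N P / evA N Q, hmem⟩ = evB I P / evB I Q :=
  phiFun_div I P Q hQ

theorem xK_mem (d : Dv N) : xK N d ∈ modularFunctionFieldBar N :=
  coeffEmb_mem_laurentBaseChange Kbar (jqd_mem_full N d.2)

theorem Phi_xK (d : Dv N) : Phi I ⟨xK N d, xK_mem d⟩ = I.Jd d.1 := by
  have h1 : xK N d = evA N (MvPolynomial.X d) / evA N 1 := by simp
  have := phiFun_div I (MvPolynomial.X d) 1 (by simp)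
  rw [← h1] at this
  show phiFun I (xK N d) = _
  rw [this]
  simp

theorem Phi_jF : Phi I (jF N) = I.Jd 1 := by
  have h1 : xK N ⟨1, one_dvd N⟩ = coeffEmb Kbar jq := by
    rw [xK, qExpand_one_apply]
  have := Phi_xK I ⟨1, one_dvd N⟩
  show phiFun I (coeffEmb Kbar jq) = _
  rw [← h1]
  exact this

/-- every value of `Φ` is a quotient of polynomial expressions in the `j(dτ)` -/
theorem Phi_eq_div (f : FN N) : ∃ P Q : MvPolynomial (Dv N) Kbar, evB I Q ≠ 0 ∧
    Phi I f = evB I P / evB I Q := by
  obtain ⟨f, hf⟩ := f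
  obtain ⟨P, Q, hQ, rfl⟩ := exists_rep hf
  exact ⟨P, Q, fun h0 => hQ ((evB_eq_zero_iff I Q).mp h0), phiFun_div I P Q hQ⟩

/-- an algebra endomorphism fixing all `j(dτ)` fixes the image of `Φ` -/
theorem map_Phi_of_fixes (σ : I.M →ₐ[Kbar] I.M) (hσ : ∀ d : Dv N, σ (I.Jd d.1) = I.Jd d.1)
    (f : FN N) : σ (Phi I f) = Phi I f := by
  obtain ⟨P, Q, -, h⟩ := Phi_eq_div I f
  have key : ∀ R : MvPolynomial (Dv N) Kbar, σ (evB I R) = evB I R := by
    intro R
    show σ (MvPolynomial.aeval (fun d : Dv N => I.Jd d.1) R) = _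
    rw [← AlgHom.comp_apply, MvPolynomial.comp_aeval]
    congr 1
    exact congrArg _ (funext hσ)
  rw [h, map_div₀, key, key]

/-- the image of `Φ` lies in any subfield containing the `j(dτ)` -/
theorem Phi_mem (L : IntermediateField Kbar I.M) (hL : ∀ d : Dv N, I.Jd d.1 ∈ L) (f : FN N) :
    Phi I f ∈ L := by
  obtain ⟨P, Q, -, h⟩ := Phi_eq_div I f
  have key : ∀ R : MvPolynomial (Dv N) Kbar, evB I R ∈ L := by
    intro R
    have : (evB I).range ≤ L.toSubalgebra := by
      rw [← Algebra.adjoin_range_eq_range_aeval]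
      apply Algebra.adjoin_le
      rintro _ ⟨d, rfl⟩
      exact hL d
    exact this ⟨R, rfl⟩
  rw [h]
  exact div_mem (key P) (key Q)

end Fermat.Agent.S24.Mod
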