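/-
S24, package MOD, pure algebra: `j` is transcendental over `C`, and every `j(dτ)` (`d ∣ N`)
satisfies a nontrivial polynomial relation with `j` over `Kbar` (descent from `C`).
-/
import Fermat.Agent.S24.Mod.Phi
import Fermat.Agent.S24.Mod.Fixed
import Fermat.Prelude.Thm_ModularCurve_coeff_jqModC_pow_of_lt
import Fermat.Prelude.Thm_ModularCurve_coeff_jqModC_pow_self

set_option autoImplicit false

open AlgebraicCurve IntermediateField Polynomial
open scoped MatrixGroups Polynomial.Bivariate
open ModularCurve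

namespace Fermat.Agent.S24.Mod

/-- the formal `j` is transcendental over any coefficient field -/
theorem transcendental_jqModC (C : Type*) [Field C] : Transcendental C (jqModC C) := by
  rw [transcendental_iff]
  intro p hp
  by_contra hp0
  have h1 := congrArg (fun z => HahnSeries.coeff z (-(p.natDegree : ℤ))) hp
  simp only [HahnSeries.coeff_zero] at h1
  rw [aeval_eq_sum_range, HahnSeries.coeff_sum] at h1
  rw [Finset.sum_eq_single_of_mem p.natDegree (Finset.self_mem_range_succ _)] at h1
  · rw [Algebra.smul_def, coeff_algebraMap_mul, coeff_jqModC_pow_self, mul_one] at h1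
    exact hp0 (leadingCoeff_eq_zero.mp h1)
  · intro i hi hne
    have hlt : i < p.natDegree :=
      lt_of_le_of_ne (Nat.lt_succ_iff.mp (Finset.mem_range.mp hi)) hne
    rw [Algebra.smul_def, coeff_algebraMap_mul, coeff_jqModC_pow_of_lt, mul_zero]
    exact_mod_cast neg_lt_neg (Nat.cast_lt.mpr hlt)

theorem xC_one (C : Type*) [Field C] [Algebra Kbar C] (N : ℕ) [NeZero N] :
    xC C N ⟨1, one_dvd N⟩ = jqModC C := by
  rw [xC, xK, qExpand_one_apply, coeffEmb]
  have h1 : coeffMap (algebraMap ℚ Kbar) jq = jqModC Kbar := by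
    rw [← jqModC_rat]; exact map_jqModC (algebraMap ℚ Kbar)
  rw [h1]
  exact map_jqModC (algebraMap Kbar C)

variable {N : ℕ} [NeZero N] (I : AnalyticInput N)

theorem transcendental_J : Transcendental I.C (I.Jd 1) := by
  rw [transcendental_iff]
  intro p hp
  set P : MvPolynomial (Dv N) I.C := Polynomial.aeval (MvPolynomial.X ⟨1, one_dvd N⟩) p with hP
  have h1 : MvPolynomial.aeval (fun d : Dv N => I.Jd d.1) P = Polynomial.aeval (I.Jd 1) p := by
    rw [hP, ← Polynomial.aeval_algHom_apply, MvPolynomial.aeval_X]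
  have h2 : MvPolynomial.aeval (xC I.C N) P = Polynomial.aeval (xC I.C N ⟨1, one_dvd N⟩) p := by
    rw [hP, ← Polynomial.aeval_algHom_apply, MvPolynomial.aeval_X]
  have h3 := (I.rel P).mp (by rw [h1, hp])
  rw [h2, xC_one] at h3
  exact (transcendental_iff.mp (transcendental_jqModC I.C)) p h3

theorem transcendental_J_Kbar : Transcendental Kbar (I.Jd 1) :=
  (transcendental_J I).restrictScalars (algebraMap Kbar I.C).injective

/-- the set of conjugates is stable under the action -/
theorem conjSet_stable (g : SL(2, ℤ)) {s : I.M} (hs : s ∈ conjSet I.act I.Jd N) :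
    I.act g s ∈ conjSet I.act I.Jd N := by
  obtain ⟨d, hd, h, rfl⟩ := hs
  exact ⟨d, hd, g * h, by rw [map_mul]; rfl⟩

theorem Jd_mem_conjSet {d : ℕ} (hd : d ∣ N) : I.Jd d ∈ conjSet I.act I.Jd N :=
  ⟨d, hd, 1, by simp⟩

/-- the set of conjugates is finite -/
theorem conjSet_finite : (conjSet I.act I.Jd N).Finite := by
  classical
  have hN : N ≠ 0 := NeZero.ne N
  have hsub : conjSet I.act I.Jd N ⊆
      ⋃ d ∈ (N.divisors : Set ℕ), Set.range (fun g : SL(2, ℤ) => I.act g (I.Jd d)) := by
    rintro s ⟨d, hd, g, rfl⟩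
    simp only [Set.mem_iUnion]
    exact ⟨d, by simpa using ⟨hd, hN⟩, g, rfl⟩
  refine Set.Finite.subset (Set.Finite.biUnion (Finset.finite_toSet _) ?_) hsub
  intro d hd
  have hd' : d ∣ N := by
    have : d ∈ N.divisors := by simpa using hd
    exact Nat.dvd_of_mem_divisors this
  -- the orbit map factors through the finite quotient `SL(2,ℤ) ⧸ Γ₀(N)`
  let fbar : SL(2, ℤ) ⧸ CongruenceSubgroup.Gamma0 N → I.M :=
    Quotient.lift (fun g : SL(2, ℤ) => I.act g (I.Jd d)) (by
      intro a b hab
      have hab' : a⁻¹ * b ∈ CongruenceSubgroup.Gamma0 N := QuotientGroup.leftRel_apply.mp hab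
      have h1 := I.act_Jd d hd' _ hab'
      show I.act a (I.Jd d) = I.act b (I.Jd d)
      have hb : b = a * (a⁻¹ * b) := by group
      rw [hb, map_mul, AlgEquiv.mul_apply, h1])
  have hrange : Set.range (fun g : SL(2, ℤ) => I.act g (I.Jd d)) ⊆ Set.range fbar := by
    rintro _ ⟨g, rfl⟩
    exact ⟨QuotientGroup.mk g, rfl⟩
  exact (Set.finite_range fbar).subset hrange

/-- over the big field `C`, `j(dτ)` satisfies a polynomial relation with `j` -/
theorem algRel_C_Jd {d : ℕ} (hd : d ∣ N) : AlgRel I.C (I.Jd 1) (I.Jd d) :=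
  algRel_of_mem_algAdjoin I.act (conjSet I.act I.Jd N) (conjSet_finite I)
    (fun g _ hs => conjSet_stable I g hs) I.inv_mem
    (Algebra.subset_adjoin (Jd_mem_conjSet I hd))

/-- DESCENT: over `Kbar`, `j(dτ)` satisfies a polynomial relation with `j` -/
theorem algRel_Kbar_Jd {d : ℕ} (hd : d ∣ N) : AlgRel Kbar (I.Jd 1) (I.Jd d) := by
  obtain ⟨P, hP0, hP⟩ := (algRel_C_Jd I hd).exists_mvPolynomial
  let e : Fin 2 → Dv N := ![⟨1, one_dvd N⟩, ⟨d, hd⟩]
  have he : (fun i => I.Jd (e i).1) = ![I.Jd 1, I.Jd d] := by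
    funext i; fin_cases i <;> rfl
  -- transfer to the formal side over `C`
  have h1 : MvPolynomial.aeval (fun d : Dv N => I.Jd d.1) (MvPolynomial.rename e P) = 0 := by
    rw [MvPolynomial.aeval_rename]
    show MvPolynomial.aeval (fun i => I.Jd (e i).1) P = 0
    rw [he]; exact hP
  have h2 := (I.rel _).mp h1
  rw [MvPolynomial.aeval_rename] at h2
  -- not algebraically independent over `C`, hence not over `Kbar`
  have h3 : ¬ AlgebraicIndependent I.C (fun i => coeffMap (algebraMap Kbar I.C) (xK N (e i))) := by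
    intro hind
    exact hP0 ((algebraicIndependent_iff.mp hind) P h2)
  have h4 : ¬ AlgebraicIndependent Kbar (fun i => xK N (e i)) := fun hind =>
    h3 (algebraicIndependent_coeffMap _ hind)
  rw [algebraicIndependent_iff] at h4
  push Not at h4
  obtain ⟨P', hP', hP'0⟩ := h4
  -- transfer back to the analytic side over `Kbar`
  have h5 : MvPolynomial.aeval (xK N) (MvPolynomial.rename e P') = 0 := by
    rw [MvPolynomial.aeval_rename]; exact hP'
  have h6 := (rel_K I _).mpr h5
  rw [MvPolynomial.aeval_rename] at h6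
  have h7 : MvPolynomial.aeval ![I.Jd 1, I.Jd d] P' = 0 := by
    rw [← he]; exact h6
  exact algRel_of_mvPolynomial P' hP'0 h7

end Fermat.Agent.S24.Mod
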