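/-
S24, package MOD, pure algebra: from an additive valuation function on a subalgebra
`Algebra.adjoin C S` of a field `M` to a valuation subring of any subfield of its field of
fractions `IntermediateField.adjoin C S`.
-/
import Fermat.Agent.S24.Mod.Interface

set_option autoImplicit false

open IntermediateField

namespace Fermat.Agent.S24.Mod

section ExtVal

variable {C M : Type*} [Field C] [Field M] [Algebra C M]

/-- Extension of `ν` to fractions `b / c`. -/
noncomputable def extVal (S : Set M) (ν : M → ℤ) (y : M) : ℤ :=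
  open Classical in
  if h : ∃ b c : M, b ∈ Algebra.adjoin C S ∧ c ∈ Algebra.adjoin C S ∧ b ≠ 0 ∧ c ≠ 0 ∧ y = b / c
  then ν h.choose - ν h.choose_spec.choose else 0

variable {S : Set M} {ν : M → ℤ} (hν : IsValFunOn (Algebra.adjoin C S) ν)
include hν

theorem ν_sub_eq_of_div_eq {b c b' c' : M} (hb : b ∈ Algebra.adjoin C S)
    (hc : c ∈ Algebra.adjoin C S) (hb0 : b ≠ 0) (hc0 : c ≠ 0) (hb' : b' ∈ Algebra.adjoin C S)
    (hc' : c' ∈ Algebra.adjoin C S) (hb'0 : b' ≠ 0) (hc'0 : c' ≠ 0) (heq : b / c = b' / c') :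
    ν b' - ν c' = ν b - ν c := by
  have hcross : b * c' = b' * c := by
    rw [div_eq_div_iff hc0 hc'0] at heq
    exact heq
  have h1 := hν.map_mul b hb c' hc' hb0 hc'0
  have h2 := hν.map_mul b' hb' c hc hb'0 hc0
  rw [hcross] at h1
  omega

theorem extVal_div {b c : M} (hb : b ∈ Algebra.adjoin C S) (hc : c ∈ Algebra.adjoin C S)
    (hb0 : b ≠ 0) (hc0 : c ≠ 0) : extVal (C := C) S ν (b / c) = ν b - ν c := by
  classical
  have h : ∃ b' c' : M, b' ∈ Algebra.adjoin C S ∧ c' ∈ Algebra.adjoin C S ∧ b' ≠ 0 ∧ c' ≠ 0 ∧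
      b / c = b' / c' := ⟨b, c, hb, hc, hb0, hc0, rfl⟩
  rw [extVal, dif_pos h]
  obtain ⟨hb', hc', hb'0, hc'0, heq⟩ := h.choose_spec.choose_spec
  exact ν_sub_eq_of_div_eq hν hb hc hb0 hc0 hb' hc' hb'0 hc'0 heq

theorem ν_one : ν 1 = 0 := by
  have := hν.map_const 1 one_ne_zero
  rwa [map_one] at this

theorem extVal_of_mem {a : M} (ha : a ∈ Algebra.adjoin C S) (ha0 : a ≠ 0) :
    extVal (C := C) S ν a = ν a := by
  have := extVal_div hν ha (one_mem _) ha0 one_ne_zero
  rw [div_one, ν_one hν, sub_zero] at this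
  exact this

omit hν in
theorem exists_div_of_mem {y : M} (hy : y ∈ IntermediateField.adjoin C S) (hy0 : y ≠ 0) :
    ∃ b c : M, b ∈ Algebra.adjoin C S ∧ c ∈ Algebra.adjoin C S ∧ b ≠ 0 ∧ c ≠ 0 ∧ y = b / c := by
  obtain ⟨b, hb, c, hc, rfl⟩ := IntermediateField.mem_adjoin_iff_div.mp hy
  refine ⟨b, c, hb, hc, ?_, ?_, rfl⟩
  · rintro rfl; simp at hy0
  · rintro rfl; simp at hy0

theorem extVal_mul {y z : M} (hy : y ∈ IntermediateField.adjoin C S)
    (hz : z ∈ IntermediateField.adjoin C S) (hy0 : y ≠ 0) (hz0 : z ≠ 0) :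
    extVal (C := C) S ν (y * z) = extVal (C := C) S ν y + extVal (C := C) S ν z := by
  obtain ⟨b, c, hb, hc, hb0, hc0, rfl⟩ := exists_div_of_mem hy hy0
  obtain ⟨b', c', hb', hc', hb'0, hc'0, rfl⟩ := exists_div_of_mem hz hz0
  rw [div_mul_div_comm, extVal_div hν (mul_mem hb hb') (mul_mem hc hc') (mul_ne_zero hb0 hb'0)
    (mul_ne_zero hc0 hc'0), extVal_div hν hb hc hb0 hc0, extVal_div hν hb' hc' hb'0 hc'0,
    hν.map_mul b hb b' hb' hb0 hb'0, hν.map_mul c hc c' hc' hc0 hc'0]
  ring

theorem extVal_add {y z : M} (hy : y ∈ IntermediateField.adjoin C S)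
    (hz : z ∈ IntermediateField.adjoin C S) (hy0 : y ≠ 0) (hz0 : z ≠ 0) (hyz : y + z ≠ 0) :
    min (extVal (C := C) S ν y) (extVal (C := C) S ν z) ≤ extVal (C := C) S ν (y + z) := by
  obtain ⟨b, c, hb, hc, hb0, hc0, rfl⟩ := exists_div_of_mem hy hy0
  obtain ⟨b', c', hb', hc', hb'0, hc'0, rfl⟩ := exists_div_of_mem hz hz0
  have hsum : b / c + b' / c' = (b * c' + b' * c) / (c * c') := by
    field_simp
  have hnum0 : b * c' + b' * c ≠ 0 := by
    intro h0
    rw [hsum, h0, zero_div] at hyz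
    exact hyz rfl
  rw [hsum, extVal_div hν (add_mem (mul_mem hb hc') (mul_mem hb' hc)) (mul_mem hc hc') hnum0
    (mul_ne_zero hc0 hc'0), extVal_div hν hb hc hb0 hc0, extVal_div hν hb' hc' hb'0 hc'0,
    hν.map_mul c hc c' hc' hc0 hc'0]
  have h1 := hν.map_add (b * c') (mul_mem hb hc') (b' * c) (mul_mem hb' hc)
    (mul_ne_zero hb0 hc'0) (mul_ne_zero hb'0 hc0) hnum0
  rw [hν.map_mul b hb c' hc' hb0 hc'0, hν.map_mul b' hb' c hc hb'0 hc0] at h1
  rcases min_le_iff.mp h1 with h | h
  · exact min_le_iff.mpr (Or.inl (by omega))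
  · exact min_le_iff.mpr (Or.inr (by omega))

theorem extVal_algebraMap {c : C} (hc : c ≠ 0) : extVal (C := C) S ν (algebraMap C M c) = 0 := by
  rw [extVal_of_mem hν (Subalgebra.algebraMap_mem _ c)
    ((map_ne_zero_iff _ (algebraMap C M).injective).mpr hc), hν.map_const c hc]

theorem extVal_one : extVal (C := C) S ν 1 = 0 := by
  rw [extVal_of_mem hν (one_mem _) one_ne_zero, ν_one hν]

theorem extVal_inv {y : M} (hy : y ∈ IntermediateField.adjoin C S) (hy0 : y ≠ 0) :
    extVal (C := C) S ν y⁻¹ = - extVal (C := C) S ν y := by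
  have h := extVal_mul hν hy (inv_mem hy) hy0 (inv_ne_zero hy0)
  rw [mul_inv_cancel₀ hy0, extVal_one hν] at h
  omega

theorem extVal_neg {y : M} (hy : y ∈ IntermediateField.adjoin C S) (hy0 : y ≠ 0) :
    extVal (C := C) S ν (-y) = extVal (C := C) S ν y := by
  have hm1 : extVal (C := C) S ν (-1) = 0 := by
    have h := extVal_mul hν (neg_mem (one_mem (IntermediateField.adjoin C S)))
      (neg_mem (one_mem _)) (neg_ne_zero.mpr one_ne_zero) (neg_ne_zero.mpr one_ne_zero)
    rw [neg_mul_neg, one_mul, extVal_one hν] at h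
    omega
  have h := extVal_mul hν (neg_mem (one_mem (IntermediateField.adjoin C S))) hy
    (neg_ne_zero.mpr one_ne_zero) hy0
  rw [neg_one_mul, hm1, zero_add] at h
  exact h

/-- invariance under an automorphism preserving the subalgebra and `ν`. -/
theorem extVal_map (σ : M ≃ₐ[C] M) (hσS : ∀ a ∈ Algebra.adjoin C S, σ a ∈ Algebra.adjoin C S)
    (hσν : ∀ a ∈ Algebra.adjoin C S, a ≠ 0 → ν (σ a) = ν a) {y : M}
    (hy : y ∈ IntermediateField.adjoin C S) (hy0 : y ≠ 0) :
    extVal (C := C) S ν (σ y) = extVal (C := C) S ν y := by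
  obtain ⟨b, c, hb, hc, hb0, hc0, rfl⟩ := exists_div_of_mem hy hy0
  rw [map_div₀, extVal_div hν (hσS b hb) (hσS c hc)
    ((map_ne_zero_iff _ σ.injective).mpr hb0) ((map_ne_zero_iff _ σ.injective).mpr hc0),
    extVal_div hν hb hc hb0 hc0, hσν b hb hb0, hσν c hc hc0]

end ExtVal

section ValSubring

variable {K C M : Type*} [Field K] [Field C] [Field M] [Algebra C M] [Algebra K M]
variable {S : Set M} {ν : M → ℤ}

/-- The valuation subring of a subfield `L` of `Frac (C[S])` attached to `ν`. -/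
noncomputable def valSubring (hν : IsValFunOn (Algebra.adjoin C S) ν) (L : IntermediateField K M)
    (hL : ∀ y ∈ L, y ∈ IntermediateField.adjoin C S) : ValuationSubring L where
  carrier := {y | y = 0 ∨ 0 ≤ extVal (C := C) S ν (y : M)}
  zero_mem' := Or.inl rfl
  one_mem' := Or.inr (by
    show 0 ≤ extVal (C := C) S ν ((1 : L) : M)
    rw [IntermediateField.coe_one, extVal_one hν])
  mul_mem' := by
    rintro y z (rfl | hy) (rfl | hz)
    · left; simp
    · left; simp
    · left; simp
    · by_cases hy0 : y = 0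
      · left; simp [hy0]
      by_cases hz0 : z = 0
      · left; simp [hz0]
      right
      have hy0' : (y : M) ≠ 0 := fun h => hy0 (Subtype.ext h)
      have hz0' : (z : M) ≠ 0 := fun h => hz0 (Subtype.ext h)
      show 0 ≤ extVal (C := C) S ν ((y * z : L) : M)
      rw [IntermediateField.coe_mul, extVal_mul hν (hL _ y.2) (hL _ z.2) hy0' hz0']
      exact add_nonneg hy hz
  add_mem' := by
    rintro y z (rfl | hy) (rfl | hz)
    · left; simp
    · right; simpa using hz
    · right; simpa using hy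
    · by_cases hy0 : y = 0
      · right; simpa [hy0] using hz
      by_cases hz0 : z = 0
      · right; simpa [hz0] using hy
      by_cases hyz : y + z = 0
      · left; exact hyz
      right
      have hy0' : (y : M) ≠ 0 := fun h => hy0 (Subtype.ext h)
      have hz0' : (z : M) ≠ 0 := fun h => hz0 (Subtype.ext h)
      have hyz' : (y : M) + (z : M) ≠ 0 := fun h => hyz (Subtype.ext h)
      show 0 ≤ extVal (C := C) S ν ((y + z : L) : M)
      rw [IntermediateField.coe_add]
      exact le_trans (le_min hy hz) (extVal_add hν (hL _ y.2) (hL _ z.2) hy0' hz0' hyz')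
  neg_mem' := by
    rintro y (rfl | hy)
    · left; simp
    · by_cases hy0 : y = 0
      · left; simp [hy0]
      right
      have hy0' : (y : M) ≠ 0 := fun h => hy0 (Subtype.ext h)
      show 0 ≤ extVal (C := C) S ν ((-y : L) : M)
      rw [IntermediateField.coe_neg, extVal_neg hν (hL _ y.2) hy0']
      exact hy
  mem_or_inv_mem' := by
    intro y
    by_cases hy0 : y = 0
    · left; left; exact hy0
    have hy0' : (y : M) ≠ 0 := fun h => hy0 (Subtype.ext h)
    rcases le_total 0 (extVal (C := C) S ν (y : M)) with h | h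
    · left; right; exact h
    · right; right
      show 0 ≤ extVal (C := C) S ν ((y⁻¹ : L) : M)
      rw [IntermediateField.coe_inv, extVal_inv hν (hL _ y.2) hy0']
      omega

theorem mem_valSubring_iff (hν : IsValFunOn (Algebra.adjoin C S) ν) (L : IntermediateField K M)
    (hL : ∀ y ∈ L, y ∈ IntermediateField.adjoin C S) {y : L} (hy : y ≠ 0) :
    y ∈ valSubring hν L hL ↔ 0 ≤ extVal (C := C) S ν (y : M) := by
  constructor
  · rintro (h | h)
    · exact absurd h hy
    · exact h
  · intro h; exact Or.inr h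

end ValSubring

end Fermat.Agent.S24.Mod
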