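/-
S24, package MOD: `Nonempty (AnalyticInput N) → Nonempty (ModularTower N)` (pure algebra).
-/
import Fermat.Agent.S24.Mod.Trans
import Fermat.Agent.S24.Mod.ValSub

set_option autoImplicit false

open AlgebraicCurve IntermediateField Polynomial
open scoped MatrixGroups
open ModularCurve

namespace Fermat.Agent.S24.Mod

variable {N : ℕ} [NeZero N] (I : AnalyticInput N)

/-- The Galois closure `L = Kbar(S)`. -/
noncomputable def LL : IntermediateField Kbar I.M :=
  IntermediateField.adjoin Kbar (conjSet I.act I.Jd N)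

theorem LL_le_E {y : I.M} (hy : y ∈ LL I) :
    y ∈ IntermediateField.adjoin I.C (conjSet I.act I.Jd N) := by
  have h : LL I ≤ (IntermediateField.adjoin I.C (conjSet I.act I.Jd N)).restrictScalars Kbar := by
    rw [LL, IntermediateField.adjoin_le_iff]
    intro s hs
    exact IntermediateField.subset_adjoin I.C _ hs
  exact h hy

/-- the action as `Kbar`-algebra homomorphisms -/
noncomputable def actK (g : SL(2, ℤ)) : I.M →ₐ[Kbar] I.M :=
  ((I.act g : I.M ≃ₐ[I.C] I.M) : I.M →ₐ[I.C] I.M).restrictScalars Kbar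

@[simp] theorem actK_apply (g : SL(2, ℤ)) (y : I.M) : actK I g y = I.act g y := rfl

theorem act_mem_LL (g : SL(2, ℤ)) {y : I.M} (hy : y ∈ LL I) : I.act g y ∈ LL I := by
  have h1 : (LL I).map (actK I g) ≤ LL I := by
    rw [LL, IntermediateField.adjoin_map]
    apply IntermediateField.adjoin.mono
    rintro _ ⟨s, hs, rfl⟩
    exact conjSet_stable I g hs
  exact h1 ⟨y, hy, rfl⟩

/-- the action of the modular group on `L` -/
noncomputable def rhoEquiv (g : SL(2, ℤ)) : ↥(LL I) ≃ₐ[Kbar] ↥(LL I) where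
  toFun y := ⟨I.act g y.1, act_mem_LL I g y.2⟩
  invFun y := ⟨I.act g⁻¹ y.1, act_mem_LL I g⁻¹ y.2⟩
  left_inv y := Subtype.ext (by
    show I.act g⁻¹ (I.act g y.1) = y.1
    rw [← AlgEquiv.mul_apply, ← map_mul, inv_mul_cancel, map_one, AlgEquiv.one_apply])
  right_inv y := Subtype.ext (by
    show I.act g (I.act g⁻¹ y.1) = y.1
    rw [← AlgEquiv.mul_apply, ← map_mul, mul_inv_cancel, map_one, AlgEquiv.one_apply])
  map_mul' y z := Subtype.ext (map_mul (I.act g) y.1 z.1)
  map_add' y z := Subtype.ext (map_add (I.act g) y.1 z.1)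
  commutes' c := Subtype.ext ((actK I g).commutes c)

@[simp] theorem coe_rhoEquiv (g : SL(2, ℤ)) (y : ↥(LL I)) :
    ((rhoEquiv I g y : ↥(LL I)) : I.M) = I.act g y.1 := rfl

noncomputable def rho : SL(2, ℤ) →* (↥(LL I) ≃ₐ[Kbar] ↥(LL I)) where
  toFun := rhoEquiv I
  map_one' := by
    ext y
    show I.act 1 y.1 = y.1
    rw [map_one, AlgEquiv.one_apply]
  map_mul' g h := by
    ext y
    show I.act (g * h) y.1 = I.act g (I.act h y.1)
    rw [map_mul, AlgEquiv.mul_apply]

@[simp] theorem coe_rho (g : SL(2, ℤ)) (y : ↥(LL I)) :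
    ((rho I g y : ↥(LL I)) : I.M) = I.act g y.1 := rfl

theorem rho_finite_range : Finite (rho I).range := by
  classical
  have hSfin := conjSet_finite I
  have : Finite (conjSet I.act I.Jd N) := hSfin.to_subtype
  let r : SL(2, ℤ) → (conjSet I.act I.Jd N → conjSet I.act I.Jd N) :=
    fun g s => ⟨I.act g s.1, conjSet_stable I g s.2⟩
  have hfac : Function.FactorsThrough (rho I) r := by
    intro g h hgh
    ext y
    show I.act g y.1 = I.act h y.1
    apply act_eq_of_eqOn_fieldAdjoin I.act (conjSet I.act I.Jd N) _ (LL_le_E I y.2)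
    intro s hs
    exact congrArg Subtype.val (congrFun hgh ⟨s, hs⟩)
  have hrange : Set.range (rho I) ⊆
      (Function.extend r (rho I) (fun _ => 1)) '' Set.range r := by
    rintro _ ⟨g, rfl⟩
    exact ⟨r g, ⟨g, rfl⟩, hfac.extend_apply _ g⟩
  have hfin : (Set.range (rho I)).Finite :=
    ((Set.toFinite (Set.range r)).image _).subset hrange
  exact hfin.to_subtype

/-! ### `F_N` inside `L` -/

theorem Jd_mem_LL (d : Dv N) : I.Jd d.1 ∈ LL I :=
  IntermediateField.subset_adjoin Kbar _ (Jd_mem_conjSet I d.2)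

/-- `Φ` with values in `L` -/
noncomputable def PhiL : FN N →ₐ[Kbar] ↥(LL I) where
  toFun f := ⟨Phi I f, Phi_mem I (LL I) (Jd_mem_LL I) f⟩
  map_one' := Subtype.ext (map_one (Phi I))
  map_mul' f g := Subtype.ext (map_mul (Phi I) f g)
  map_zero' := Subtype.ext (map_zero (Phi I))
  map_add' f g := Subtype.ext (map_add (Phi I) f g)
  commutes' c := Subtype.ext ((Phi I).commutes c)

@[simp] theorem coe_PhiL (f : FN N) : ((PhiL I f : ↥(LL I)) : I.M) = Phi I f := rfl

theorem rho_PhiL_jF (g : SL(2, ℤ)) : rho I g (PhiL I (jF N)) = PhiL I (jF N) := by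
  apply Subtype.ext
  rw [coe_rho, coe_PhiL, Phi_jF, I.act_J]

/-! ### Stabiliser of `F_N` -/

theorem fixes_F_iff (g : SL(2, ℤ)) :
    (∀ f : FN N, rho I g (PhiL I f) = PhiL I f) ↔ g ∈ CongruenceSubgroup.Gamma0 N := by
  constructor
  · intro h
    apply I.stab_JN
    have h1 := congrArg Subtype.val (h ⟨xK N ⟨N, dvd_rfl⟩, xK_mem _⟩)
    rw [coe_rho, coe_PhiL, Phi_xK] at h1
    exact h1
  · intro hg f
    apply Subtype.ext
    rw [coe_rho, coe_PhiL]
    exact map_Phi_of_fixes I (actK I g) (fun d => I.act_Jd d.1 d.2 g hg) f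

/-! ### `T`-powers -/

theorem conj_T_zpow_entry (k : ℤ) :
    ((ModularGroup.S⁻¹ * ModularGroup.T ^ k * ModularGroup.S : SL(2, ℤ)) 1 0 : ℤ) = -k := by
  have h1 : (ModularGroup.S⁻¹ * ModularGroup.T ^ k * ModularGroup.S : SL(2, ℤ)).1 =
      (ModularGroup.S⁻¹ : SL(2, ℤ)).1 * (ModularGroup.T ^ k).1 * ModularGroup.S.1 := by
    simp
  show (ModularGroup.S⁻¹ * ModularGroup.T ^ k * ModularGroup.S : SL(2, ℤ)).1 1 0 = -k
  rw [h1, ModularGroup.S_inv, ModularGroup.coe_T_zpow]
  simp [ModularGroup.coe_S, Matrix.mul_apply, Fin.sum_univ_two]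

theorem T_zpow (k : ℤ) (h : rho I (ModularGroup.T ^ k) = 1) : (N : ℤ) ∣ k := by
  -- `T^k` fixes `S • j(Nτ)`
  have hs : I.act ModularGroup.S (I.Jd N) ∈ LL I :=
    IntermediateField.subset_adjoin Kbar _ ⟨N, dvd_rfl, ModularGroup.S, rfl⟩
  have h1 : I.act (ModularGroup.T ^ k) (I.act ModularGroup.S (I.Jd N)) =
      I.act ModularGroup.S (I.Jd N) := by
    have h0 : (rho I (ModularGroup.T ^ k)) ⟨_, hs⟩ = (⟨_, hs⟩ : ↥(LL I)) := by rw [h]; rfl
    exact congrArg Subtype.val h0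
  have h2 : I.act (ModularGroup.S⁻¹ * ModularGroup.T ^ k * ModularGroup.S) (I.Jd N) = I.Jd N := by
    rw [map_mul, map_mul, AlgEquiv.mul_apply, AlgEquiv.mul_apply, h1, ← AlgEquiv.mul_apply,
      ← map_mul, inv_mul_cancel, map_one, AlgEquiv.one_apply]
  have h3 := I.stab_JN _ h2
  rw [CongruenceSubgroup.Gamma0_mem, conj_T_zpow_entry] at h3
  have h4 : ((-k : ℤ) : ZMod N) = 0 := by exact_mod_cast h3
  rw [ZMod.intCast_zmod_eq_zero_iff_dvd] at h4
  exact (dvd_neg.mp h4)

/-! ### The fixed field -/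

theorem isAlgebraic_of_mem_conjSet {s : I.M} (hs : s ∈ conjSet I.act I.Jd N) :
    IsAlgebraic Kbar⟮I.Jd 1⟯ s := by
  obtain ⟨d, hd, g, rfl⟩ := hs
  have h1 := (algRel_Kbar_Jd I hd).map (actK I g)
  rw [actK_apply, actK_apply, I.act_J] at h1
  exact h1.isAlgebraic (transcendental_J_Kbar I)

theorem isAlgebraic_of_mem_LL {y : I.M} (hy : y ∈ LL I) : IsAlgebraic Kbar⟮I.Jd 1⟯ y := by
  have h : LL I ≤ (algebraicClosure Kbar⟮I.Jd 1⟯ I.M).restrictScalars Kbar := by
    rw [LL, IntermediateField.adjoin_le_iff]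
    intro s hs
    exact mem_algebraicClosure_iff.mpr (isAlgebraic_of_mem_conjSet I hs)
  exact mem_algebraicClosure_iff.mp (h hy)

theorem fixed_mem (y : ↥(LL I)) (hy : ∀ g, rho I g y = y) : (y : I.M) ∈ Kbar⟮I.Jd 1⟯ := by
  have hinv : ∀ g, I.act g y.1 = y.1 := fun g => congrArg Subtype.val (hy g)
  have h1 : (y : I.M) ∈ (I.C)⟮I.Jd 1⟯ :=
    mem_adjoin_simple_of_invariant I.act (conjSet I.act I.Jd N) (conjSet_finite I)
      (fun g _ hs => conjSet_stable I g hs) I.inv_mem (LL_le_E I y.2) hinv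
  exact mem_adjoin_simple_of_algRel (transcendental_J I) h1
    (algRel_of_isAlgebraic (isAlgebraic_of_mem_LL I y.2))

theorem fixed (y : ↥(LL I)) (hy : ∀ g, rho I g y = y) :
    y ∈ IntermediateField.adjoin Kbar {PhiL I (jF N)} := by
  have h1 := fixed_mem I y hy
  have h2 : (IntermediateField.adjoin Kbar {PhiL I (jF N)}).map (LL I).val = Kbar⟮I.Jd 1⟯ := by
    rw [IntermediateField.adjoin_map, Set.image_singleton]
    congr 2
    show ((PhiL I (jF N) : ↥(LL I)) : I.M) = I.Jd 1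
    rw [coe_PhiL, Phi_jF]
  rw [← h2] at h1
  obtain ⟨y', hy', hyy'⟩ := h1
  have : y' = y := Subtype.ext hyy'
  rw [← this]
  exact hy'

/-! ### Valuations -/

theorem J_sub_const_ne_zero (c : Kbar) :
    I.Jd 1 - algebraMap I.C I.M (algebraMap Kbar I.C c) ≠ 0 := by
  intro h
  have h1 : I.Jd 1 = algebraMap I.C I.M (algebraMap Kbar I.C c) := sub_eq_zero.mp h
  have h2 := transcendental_J I
  rw [h1] at h2
  exact h2 (isAlgebraic_algebraMap _)

theorem J_sub_const_mem (c : Kbar) :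
    I.Jd 1 - algebraMap I.C I.M (algebraMap Kbar I.C c) ∈
      Algebra.adjoin I.C (conjSet I.act I.Jd N) :=
  sub_mem (Algebra.subset_adjoin (Jd_mem_conjSet I (one_dvd N))) (Subalgebra.algebraMap_mem _ _)

/-- the valuation data on `L` attached to an additive valuation function -/
theorem exists_valSubring {ν : I.M → ℤ}
    (hν : IsValFunOn (Algebra.adjoin I.C (conjSet I.act I.Jd N)) ν) :
    ∃ (V : ValuationSubring ↥(LL I)) (νL : ↥(LL I) → ℤ),
      (∀ a : Kbar, algebraMap Kbar ↥(LL I) a ∈ V) ∧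
      (∀ y z : ↥(LL I), y ≠ 0 → z ≠ 0 → νL (y * z) = νL y + νL z) ∧
      (∀ y : ↥(LL I), y ≠ 0 → (y ∈ V ↔ 0 ≤ νL y)) ∧
      (∀ y : ↥(LL I), (y : I.M) ∈ Algebra.adjoin I.C (conjSet I.act I.Jd N) → y ≠ 0 →
        νL y = ν (y : I.M)) ∧
      (∀ g : SL(2, ℤ), (∀ a ∈ Algebra.adjoin I.C (conjSet I.act I.Jd N), a ≠ 0 →
        ν (I.act g a) = ν a) → ∀ y ∈ V, rho I g y ∈ V) := by
  refine ⟨valSubring hν (LL I) (fun y hy => LL_le_E I hy),
    fun y => extVal (C := I.C) (conjSet I.act I.Jd N) ν (y : I.M), ?_, ?_, ?_, ?_, ?_⟩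
  · intro a
    by_cases ha : a = 0
    · rw [ha, map_zero]; exact zero_mem _
    · right
      show 0 ≤ extVal (C := I.C) _ ν (algebraMap I.C I.M (algebraMap Kbar I.C a))
      rw [extVal_algebraMap hν ((map_ne_zero_iff _ (algebraMap Kbar I.C).injective).mpr ha)]
  · intro y z hy hz
    have hy' : (y : I.M) ≠ 0 := fun h => hy (Subtype.ext h)
    have hz' : (z : I.M) ≠ 0 := fun h => hz (Subtype.ext h)
    show extVal (C := I.C) _ ν ((y : I.M) * (z : I.M)) = _
    exact extVal_mul hν (LL_le_E I y.2) (LL_le_E I z.2) hy' hz'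
  · intro y hy
    exact mem_valSubring_iff hν (LL I) _ hy
  · intro y hyA hy
    have hy' : (y : I.M) ≠ 0 := fun h => hy (Subtype.ext h)
    exact extVal_of_mem hν hyA hy'
  · intro g hg y hyV
    by_cases hy : y = 0
    · rw [hy, map_zero]; exact zero_mem _
    have hy' : (y : I.M) ≠ 0 := fun h => hy (Subtype.ext h)
    have hgy : rho I g y ≠ 0 := (map_ne_zero_iff _ (rho I g).injective).mpr hy
    rw [mem_valSubring_iff hν (LL I) _ hgy, coe_rho,
      extVal_map hν (I.act g) (fun a ha => act_mem_algAdjoin I.act _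
        (fun g _ hs => conjSet_stable I g hs) g ha) hg (LL_le_E I y.2) hy']
    exact (mem_valSubring_iff hν (LL I) _ hy).mp hyV

/-! ### The tower -/

/-- MAIN THEOREM of the pure-algebra part of package MOD. -/
theorem nonempty_modularTower_of_analyticInput (I : AnalyticInput N) :
    Nonempty (ModularTower N) := by
  let algF : Algebra (FN N) ↥(LL I) := (PhiL I).toRingHom.toAlgebra
  have halgF : ∀ f : FN N, algebraMap (FN N) ↥(LL I) f = PhiL I f := fun _ => rfl
  have tower : IsScalarTower Kbar (FN N) ↥(LL I) :=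
    IsScalarTower.of_algebraMap_eq fun c => ((PhiL I).commutes c).symm
  have hJsub : ∀ c : Kbar, ((algebraMap (FN N) ↥(LL I) (jF N) - algebraMap Kbar ↥(LL I) c :
      ↥(LL I)) : I.M) = I.Jd 1 - algebraMap I.C I.M (algebraMap Kbar I.C c) := by
    intro c
    rw [halgF]
    show Phi I (jF N) - _ = _
    rw [Phi_jF]; rfl
  have hJsub0 : ∀ c : Kbar,
      (algebraMap (FN N) ↥(LL I) (jF N) - algebraMap Kbar ↥(LL I) c : ↥(LL I)) ≠ 0 := by
    intro c h
    have := congrArg Subtype.val h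
    rw [hJsub] at this
    exact J_sub_const_ne_zero I c this
  refine ⟨{
    L := ↥(LL I)
    ρ := rho I
    finite_range := rho_finite_range I
    ρ_neg_one := ?_
    fixes_j := fun g => rho_PhiL_jF I g
    fixed := fun y hy => fixed I y hy
    fixes_F_iff := fun g => fixes_F_iff I g
    T_zpow := fun k hk => T_zpow I k hk
    val_fin := ?_
    val_inf := ?_ }⟩
  · ext y
    show I.act (-1) y.1 = y.1
    rw [I.act_neg_one, AlgEquiv.one_apply]
  · intro c
    obtain ⟨ν, hν, hpos, hle, hS, hST⟩ := I.val_fin c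
    obtain ⟨V, νL, h1, h2, h3, h4, h5⟩ := exists_valSubring I hν
    have hval : νL (algebraMap (FN N) ↥(LL I) (jF N) - algebraMap Kbar ↥(LL I) c) =
        ν (I.Jd 1 - algebraMap I.C I.M (algebraMap Kbar I.C c)) := by
      rw [h4 _ (by rw [hJsub]; exact J_sub_const_mem I c) (hJsub0 c), hJsub]
    refine ⟨V, νL, h1, h2, h3, ?_, ?_, ?_, ?_⟩
    · rw [hval]; exact hpos
    · rw [hval]; exact hle
    · intro hc; exact h5 _ (hS hc)
    · intro hc; exact h5 _ (hST hc)
  · obtain ⟨ν, hν, hneg, hge, hT⟩ := I.val_inf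
    obtain ⟨V, νL, h1, h2, h3, h4, h5⟩ := exists_valSubring I hν
    have hJ0 : (algebraMap (FN N) ↥(LL I) (jF N) : ↥(LL I)) ≠ 0 := by
      have := hJsub0 0
      rwa [map_zero, sub_zero] at this
    have hval : νL (algebraMap (FN N) ↥(LL I) (jF N)) = ν (I.Jd 1) := by
      rw [h4 _ _ hJ0]
      · rw [halgF, coe_PhiL, Phi_jF]
      · rw [halgF, coe_PhiL, Phi_jF]
        exact Algebra.subset_adjoin (Jd_mem_conjSet I (one_dvd N))
    refine ⟨V, νL, h1, h2, h3, ?_, ?_, ?_⟩
    · rw [hval]; exact hneg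
    · rw [hval]; exact hge
    · exact h5 _ hT

end Fermat.Agent.S24.Mod
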