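/-
S24, package MOD (helper16): INDEPENDENT BACKUP of the glue
`AnalyticInput N → ModularTower N`, assembled from landed files only:
* `Br46Rel` (helper46) for the embedding `Φ : F_N → M`,
* `FixedField` (helper89) for `fixed`,
* `Mod/Aux16` (helper16) for `finite_range`, `T_zpow`, `val_fin`, `val_inf`.

(complete proofs only)
-/
import Fermat.Agent.S24.Mod.Interface
import Fermat.Agent.S24.Mod.Aux16
import Fermat.Agent.S24.FixedField
import Fermat.Agent.S24.Br46Rel
import Fermat.Prelude.Def_ModularCurve_X0ModL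
import Fermat.Prelude.Thm_ModularCurve_coeff_jqModC_pow_self
import Fermat.Prelude.Thm_ModularCurve_coeff_jqModC_pow_of_lt

set_option autoImplicit false
set_option synthInstance.maxHeartbeats 200000
set_option maxHeartbeats 1000000

open AlgebraicCurve IntermediateField
open scoped MatrixGroups
open ModularCurve

noncomputable section

namespace Fermat.Agent.S24.Mod.Tower16

variable {N : ℕ} [NeZero N] (I : AnalyticInput N)

/-- The `Kbar`-algebra structure on the ambient field. -/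
@[reducible] def algKM : Algebra Kbar I.M :=
  ((algebraMap I.C I.M).comp (algebraMap Kbar I.C)).toAlgebra

attribute [local instance] algKM

instance towerKCM : IsScalarTower Kbar I.C I.M := IsScalarTower.of_algebraMap_eq (fun _ => rfl)

/-- The set of conjugates. -/
abbrev S : Set I.M := conjSet I.act I.Jd N

/-- The top field of the tower: `Kbar(S) ⊆ M`. -/
abbrev L : IntermediateField Kbar I.M := IntermediateField.adjoin Kbar (S I)

/-- `act g` as a `Kbar`-algebra automorphism of `M`. -/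
def σ (g : SL(2, ℤ)) : I.M ≃ₐ[Kbar] I.M := (I.act g).restrictScalars Kbar

@[simp] lemma σ_apply (g : SL(2, ℤ)) (y : I.M) : σ I g y = I.act g y := rfl

lemma σ_mem (g : SL(2, ℤ)) {y : I.M} (hy : y ∈ L I) : I.act g y ∈ L I := by
  have h1 : (L I).map (σ I g).toAlgHom ≤ L I := by
    rw [IntermediateField.adjoin_map]
    apply IntermediateField.adjoin.mono
    rintro _ ⟨s, hs, rfl⟩
    exact Aux16.act_mem_conjSet I.act I.Jd N g hs
  exact h1 ⟨y, hy, rfl⟩

/-- The restriction of `act g` to `L`, as an algebra endomorphism. -/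
def rhoHom (g : SL(2, ℤ)) : L I →ₐ[Kbar] L I :=
  AlgHom.codRestrict ((σ I g).toAlgHom.comp (L I).val) (L I).toSubalgebra
    (fun y => σ_mem I g y.2)

@[simp] lemma coe_rhoHom (g : SL(2, ℤ)) (y : L I) : ((rhoHom I g y : L I) : I.M) = I.act g y := rfl

lemma rhoHom_mul (g h : SL(2, ℤ)) (y : L I) : rhoHom I (g * h) y = rhoHom I g (rhoHom I h y) := by
  apply Subtype.ext
  simp only [coe_rhoHom, map_mul]
  rfl

lemma rhoHom_one (y : L I) : rhoHom I 1 y = y := by
  apply Subtype.ext
  simp only [coe_rhoHom, map_one]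
  rfl

/-- The action of the modular group on `L`. -/
def rho : SL(2, ℤ) →* (L I ≃ₐ[Kbar] L I) where
  toFun g := AlgEquiv.ofAlgHom (rhoHom I g) (rhoHom I g⁻¹)
    (AlgHom.ext fun y => by
      show rhoHom I g (rhoHom I g⁻¹ y) = y
      rw [← rhoHom_mul, mul_inv_cancel, rhoHom_one])
    (AlgHom.ext fun y => by
      show rhoHom I g⁻¹ (rhoHom I g y) = y
      rw [← rhoHom_mul, inv_mul_cancel, rhoHom_one])
  map_one' := AlgEquiv.ext fun y => rhoHom_one I y
  map_mul' g h := AlgEquiv.ext fun y => rhoHom_mul I g h y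

@[simp] lemma coe_rho (g : SL(2, ℤ)) (y : L I) : ((rho I g y : L I) : I.M) = I.act g y := rfl

/-! ### Transcendence of `j` -/

lemma coeff_algebraMap_mul_laurent {k : Type*} [Field k] (a : k) (t : LaurentSeries k) (m : ℤ) :
    (algebraMap k (LaurentSeries k) a * t).coeff m = a * t.coeff m := by
  rw [HahnSeries.algebraMap_apply']
  simp

/-- A Laurent series with a simple pole whose powers have leading coefficient `1` is transcendental
over the coefficient field. -/
theorem transcendental_of_pole {k : Type*} [Field k] (t : LaurentSeries k)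
    (h1 : ∀ n : ℕ, (t ^ n).coeff (-(n : ℤ)) = 1)
    (h2 : ∀ (n : ℕ) (m : ℤ), m < -(n : ℤ) → (t ^ n).coeff m = 0) : Transcendental k t := by
  rw [transcendental_iff]
  intro p hp
  by_contra hp0
  have hlead : p.coeff p.natDegree ≠ 0 := by
    rwa [Polynomial.coeff_natDegree, Ne, Polynomial.leadingCoeff_eq_zero]
  have h3 := congrArg (fun f : LaurentSeries k => f.coeff (-(p.natDegree : ℤ))) hp
  simp only [HahnSeries.coeff_zero] at h3
  rw [Polynomial.aeval_eq_sum_range, HahnSeries.coeff_sum] at h3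
  rw [Finset.sum_eq_single_of_mem p.natDegree (Finset.self_mem_range_succ _)] at h3
  · rw [Algebra.smul_def, coeff_algebraMap_mul_laurent, h1, mul_one] at h3
    exact hlead h3
  · intro i hi hne
    have hlt : i < p.natDegree :=
      lt_of_le_of_ne (Nat.lt_succ_iff.1 (Finset.mem_range.1 hi)) hne
    rw [Algebra.smul_def, coeff_algebraMap_mul_laurent, h2 i _ (by omega), mul_zero]

/-- The index `1 ∣ N`. -/
abbrev i1 (N : ℕ) : Dv N := ⟨1, one_dvd N⟩

lemma xC_one_eq (C : Type*) [Field C] [Algebra Kbar C] : xC C N (i1 N) = jqModC C := by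
  show coeffMap (algebraMap Kbar C) (coeffEmb Kbar (qExpand ℚ 1 jq)) = jqModC C
  rw [qExpand_one_apply, ← jqModC_rat, coeffEmb, coeffMap_jqModC, coeffMap_jqModC]

lemma transcendental_xC_one (C : Type*) [Field C] [Algebra Kbar C] :
    Transcendental C (xC C N (i1 N)) := by
  rw [xC_one_eq]
  exact transcendental_of_pole _ (fun n => coeff_jqModC_pow_self C n)
    (fun _ _ hm => coeff_jqModC_pow_of_lt C hm)

/-- `j` is transcendental over the big constant field. -/
theorem transcendental_J : Transcendental I.C (I.Jd 1) := by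
  rw [transcendental_iff]
  intro p hp
  have key : ∀ (A : Type) [CommRing A] [Algebra I.C A] (f : Dv N → A),
      MvPolynomial.aeval f (Polynomial.aeval (MvPolynomial.X (i1 N) : MvPolynomial (Dv N) I.C) p)
        = Polynomial.aeval (f (i1 N)) p := by
    intro A _ _ f
    rw [← Polynomial.aeval_algHom_apply, MvPolynomial.aeval_X]
  have h1 := (I.rel (Polynomial.aeval (MvPolynomial.X (i1 N) : MvPolynomial (Dv N) I.C) p)).mp
    (by rw [key]; exact hp)
  rw [key] at h1
  exact (transcendental_iff.mp (transcendental_xC_one (N := N) I.C)) p h1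

/-! ### The embedding of `F_N` -/

lemma exists_psi : ∃ ψ : FN N →ₐ[Kbar] I.M,
    (∀ d : Dv N, ψ ⟨xK N d, Br46.xK_mem N d⟩ = I.Jd d.1) ∧ ψ (jF N) = I.Jd 1 :=
  Br46.exists_algHom_FN_of_relC N (fun d : Dv N => I.Jd d.1) I.rel

/-- The embedding `F_N → M`. -/
def psi : FN N →ₐ[Kbar] I.M := (exists_psi I).choose

lemma psi_xK (d : Dv N) : psi I ⟨xK N d, Br46.xK_mem N d⟩ = I.Jd d.1 :=
  (exists_psi I).choose_spec.1 d

lemma psi_jF : psi I (jF N) = I.Jd 1 := (exists_psi I).choose_spec.2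

lemma psi_mem (f : FN N) : psi I f ∈ L I := by
  have key : ∀ x (hx : x ∈ IntermediateField.adjoin Kbar (Set.range (xK N))),
      psi I ⟨x, (Br46.modularFunctionFieldBar_eq_adjoin N).ge hx⟩ ∈ L I := by
    intro x hx
    induction hx using IntermediateField.adjoin_induction with
    | mem x hx =>
      obtain ⟨d, rfl⟩ := hx
      rw [psi_xK]
      exact IntermediateField.subset_adjoin _ _ (Aux16.Jd_mem_conjSet I.act I.Jd N d.2)
    | algebraMap x =>
      have : (⟨algebraMap Kbar (LaurentSeries Kbar) x, (Br46.modularFunctionFieldBar_eq_adjoin N).ge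
          (IntermediateField.algebraMap_mem _ x)⟩ : FN N) = algebraMap Kbar (FN N) x := rfl
      rw [this, AlgHom.commutes]
      exact IntermediateField.algebraMap_mem _ x
    | add x y hx hy h1 h2 =>
      have : (⟨x + y, (Br46.modularFunctionFieldBar_eq_adjoin N).ge (add_mem hx hy)⟩ : FN N)
          = ⟨x, (Br46.modularFunctionFieldBar_eq_adjoin N).ge hx⟩
            + ⟨y, (Br46.modularFunctionFieldBar_eq_adjoin N).ge hy⟩ := rfl
      rw [this, map_add]
      exact add_mem h1 h2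
    | inv x hx h1 =>
      have : (⟨x⁻¹, (Br46.modularFunctionFieldBar_eq_adjoin N).ge (inv_mem hx)⟩ : FN N)
          = (⟨x, (Br46.modularFunctionFieldBar_eq_adjoin N).ge hx⟩ : FN N)⁻¹ := rfl
      rw [this, map_inv₀ (psi I)]
      exact inv_mem h1
    | mul x y hx hy h1 h2 =>
      have : (⟨x * y, (Br46.modularFunctionFieldBar_eq_adjoin N).ge (mul_mem hx hy)⟩ : FN N)
          = ⟨x, (Br46.modularFunctionFieldBar_eq_adjoin N).ge hx⟩
            * ⟨y, (Br46.modularFunctionFieldBar_eq_adjoin N).ge hy⟩ := rfl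
      rw [this, map_mul]
      exact mul_mem h1 h2
  exact key f.1 ((Br46.modularFunctionFieldBar_eq_adjoin N).le f.2)

/-- The embedding `Φ : F_N → L`. -/
def Phi : FN N →ₐ[Kbar] L I :=
  AlgHom.codRestrict (psi I) (L I).toSubalgebra (psi_mem I)

@[simp] lemma coe_Phi (f : FN N) : ((Phi I f : L I) : I.M) = psi I f := rfl

lemma coe_Phi_jF : ((Phi I (jF N) : L I) : I.M) = I.Jd 1 := psi_jF I

lemma coe_Phi_xK (d : Dv N) : ((Phi I ⟨xK N d, Br46.xK_mem N d⟩ : L I) : I.M) = I.Jd d.1 :=
  psi_xK I d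

/-- The `F_N`-algebra structure on `L`. -/
@[reducible] def algFL : Algebra (FN N) (L I) := (Phi I).toRingHom.toAlgebra

attribute [local instance] algFL

instance towerKFL : IsScalarTower Kbar (FN N) (L I) :=
  IsScalarTower.of_algebraMap_eq (fun x => ((Phi I).commutes x).symm)

lemma algebraMap_FL (f : FN N) : algebraMap (FN N) (L I) f = Phi I f := rfl

/-! ### The fields of `ModularTower` -/

lemma S_subset_L : S I ⊆ (L I : Set I.M) := IntermediateField.subset_adjoin _ _

/-- Two automorphisms of `L` agreeing on the conjugates are equal. -/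
lemma algEquiv_ext_S (φ₁ φ₂ : L I ≃ₐ[Kbar] L I)
    (h : ∀ s (hs : s ∈ S I), φ₁ ⟨s, S_subset_L I hs⟩ = φ₂ ⟨s, S_subset_L I hs⟩) : φ₁ = φ₂ := by
  have h2 : (φ₁ : L I →ₐ[Kbar] L I) = (φ₂ : L I →ₐ[Kbar] L I) :=
    IntermediateField.adjoin_algHom_ext Kbar (fun x hx => h x hx)
  exact AlgEquiv.ext fun y => DFunLike.congr_fun h2 y

theorem finite_range : Finite (rho I).range := by
  classical
  have hSfin : (S I).Finite := Aux16.conjSet_finite I.act I.Jd N I.act_Jd
  have : Finite (S I) := hSfin.to_subtype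
  -- each element of the range permutes `S`
  have hmem : ∀ x : (rho I).range, ∀ s : S I,
      ((x.1 ⟨s.1, S_subset_L I s.2⟩ : L I) : I.M) ∈ S I := by
    rintro ⟨x, g, rfl⟩ s
    exact Aux16.act_mem_conjSet I.act I.Jd N g s.2
  let f : (rho I).range → (S I → S I) := fun x s => ⟨_, hmem x s⟩
  refine Finite.of_injective f ?_
  intro x y hxy
  apply Subtype.ext
  apply algEquiv_ext_S
  intro s hs
  have h1 := congrFun hxy ⟨s, hs⟩
  have h2 : ((x.1 ⟨s, S_subset_L I hs⟩ : L I) : I.M) = ((y.1 ⟨s, S_subset_L I hs⟩ : L I) : I.M) :=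
    congrArg (fun t : S I => (t : I.M)) h1
  exact Subtype.ext h2

theorem rho_neg_one : rho I (-1) = 1 := by
  apply AlgEquiv.ext
  intro y
  apply Subtype.ext
  show I.act (-1) (y : I.M) = y
  rw [I.act_neg_one]
  rfl

theorem fixes_j (g : SL(2, ℤ)) :
    rho I g (algebraMap (FN N) (L I) (jF N)) = algebraMap (FN N) (L I) (jF N) := by
  apply Subtype.ext
  show I.act g ((Phi I (jF N) : L I) : I.M) = ((Phi I (jF N) : L I) : I.M)
  rw [coe_Phi_jF, I.act_J]

theorem T_zpow (k : ℤ) (h : rho I (ModularGroup.T ^ k) = 1) : (N : ℤ) ∣ k := by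
  refine Aux16.dvd_of_act_T_zpow I.act I.Jd N I.stab_JN k ?_
  intro s hs
  have := DFunLike.congr_fun h ⟨s, S_subset_L I hs⟩
  exact congrArg Subtype.val this

theorem fixes_F_iff (g : SL(2, ℤ)) :
    (∀ f : FN N, rho I g (algebraMap (FN N) (L I) f) = algebraMap (FN N) (L I) f) ↔
      g ∈ CongruenceSubgroup.Gamma0 N := by
  constructor
  · intro h
    refine I.stab_JN g ?_
    have := h ⟨xK N ⟨N, dvd_rfl⟩, Br46.xK_mem N ⟨N, dvd_rfl⟩⟩
    have h2 := congrArg Subtype.val this
    have h3 : I.act g ((Phi I ⟨xK N ⟨N, dvd_rfl⟩, Br46.xK_mem N ⟨N, dvd_rfl⟩⟩ : L I) : I.M)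
        = ((Phi I ⟨xK N ⟨N, dvd_rfl⟩, Br46.xK_mem N ⟨N, dvd_rfl⟩⟩ : L I) : I.M) := h2
    rwa [coe_Phi_xK] at h3
  · intro hg
    have h2 : ((rho I g : L I ≃ₐ[Kbar] L I) : L I →ₐ[Kbar] L I).comp (Phi I) = Phi I := by
      refine IntermediateField.algHom_ext_of_eq_adjoin Kbar
        (Br46.modularFunctionFieldBar_eq_adjoin N) ?_
      rintro x ⟨d, rfl⟩
      apply Subtype.ext
      show I.act g ((Phi I ⟨xK N d, _⟩ : L I) : I.M) = ((Phi I ⟨xK N d, _⟩ : L I) : I.M)
      rw [coe_Phi_xK, I.act_Jd d.1 d.2 g hg]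
    intro f
    exact DFunLike.congr_fun h2 f

theorem fixed
    (halg : ∀ d : Dv N, IsAlgebraic (IntermediateField.adjoin Kbar {I.Jd 1}) (I.Jd d.1))
    (y : L I) (hy : ∀ g, rho I g y = y) :
    y ∈ IntermediateField.adjoin Kbar {algebraMap (FN N) (L I) (jF N)} := by
  have h1 : (y : I.M) ∈ IntermediateField.adjoin Kbar {I.Jd 1} := by
    refine FixedField.fixed_mem_adjoin (k := Kbar) (C := I.C) I.act
      (Aux16.conjSet_finite I.act I.Jd N I.act_Jd)
      (fun g s hs => Aux16.act_mem_conjSet I.act I.Jd N g hs) (transcendental_J I)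
      (Algebra.adjoin I.C (S I)) Algebra.subset_adjoin I.inv_mem ?_ y.2
      (fun g => congrArg Subtype.val (hy g))
    rintro s ⟨d, hd, g, rfl⟩
    exact FixedField.isAlgebraic_act I.act (transcendental_J I) g (I.act_J g) (halg ⟨d, hd⟩)
  have h2 : ((algebraMap (FN N) (L I) (jF N) : L I) : I.M) = I.Jd 1 := coe_Phi_jF I
  exact FixedField.mem_adjoin_of_val_mem (by rw [h2]; exact h1)

/-! ### Valuations -/

lemma L_le_adjoinC {y : I.M} (hy : y ∈ L I) : y ∈ IntermediateField.adjoin I.C (S I) := by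
  have h : L I ≤ (IntermediateField.adjoin I.C (S I)).restrictScalars Kbar := by
    rw [IntermediateField.adjoin_le_iff]
    exact IntermediateField.subset_adjoin I.C (S I)
  exact h hy

/-- `act g` as a ring endomorphism of `M`. -/
def τ (g : SL(2, ℤ)) : I.M →+* I.M := (I.act g : I.M ≃ₐ[I.C] I.M).toAlgHom.toRingHom

@[simp] lemma τ_apply (g : SL(2, ℤ)) (y : I.M) : τ I g y = I.act g y := rfl

/-- the embedding `L → M` as a ring homomorphism -/
def ιL : L I →+* I.M := (L I).val.toRingHom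

@[simp] lemma ιL_apply (y : L I) : ιL I y = (y : I.M) := rfl

lemma jL_sub_const (c : Kbar) :
    ιL I (algebraMap (FN N) (L I) (jF N) - algebraMap Kbar (L I) c)
      = I.Jd 1 - algebraMap I.C I.M (algebraMap Kbar I.C c) := by
  rw [map_sub, ιL_apply, ιL_apply]
  show ((Phi I (jF N) : L I) : I.M) - _ = _
  rw [coe_Phi_jF]
  rfl

lemma jL_sub_const_ne_zero (c : Kbar) :
    algebraMap (FN N) (L I) (jF N) - algebraMap Kbar (L I) c ≠ 0 := by
  intro h0
  have h1 := congrArg (ιL I) h0
  rw [jL_sub_const, map_zero, sub_eq_zero] at h1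
  exact transcendental_J I (h1 ▸ isAlgebraic_algebraMap _)

lemma jL_sub_const_mem (c : Kbar) :
    I.Jd 1 - algebraMap I.C I.M (algebraMap Kbar I.C c) ∈ Algebra.adjoin I.C (S I) :=
  sub_mem (Algebra.subset_adjoin (Aux16.Jd_mem_conjSet I.act I.Jd N (one_dvd N)))
    (Subalgebra.algebraMap_mem _ _)

theorem val_fin (c : Kbar) : ∃ (V : ValuationSubring (L I)) (ν : L I → ℤ),
    (∀ a : Kbar, algebraMap Kbar (L I) a ∈ V) ∧
    (∀ y z : L I, y ≠ 0 → z ≠ 0 → ν (y * z) = ν y + ν z) ∧
    (∀ y : L I, y ≠ 0 → (y ∈ V ↔ 0 ≤ ν y)) ∧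
    0 < ν (algebraMap (FN N) (L I) (jF N) - algebraMap Kbar (L I) c) ∧
    ν (algebraMap (FN N) (L I) (jF N) - algebraMap Kbar (L I) c) ≤ ellOrder c ∧
    (c = 1728 → ∀ y ∈ V, rho I ModularGroup.S y ∈ V) ∧
    (c = 0 → ∀ y ∈ V, rho I (ModularGroup.S * ModularGroup.T) y ∈ V) := by
  obtain ⟨ν, hν, hpos, hle, hS, hST⟩ := I.val_fin c
  obtain ⟨V, νL, hmul, hmem, hval, hconst, hinv⟩ :=
    Aux16.exists_val_of_embedding (S I) ν hν (ιL I) (fun y => L_le_adjoinC I y.2)
  have hj : νL (algebraMap (FN N) (L I) (jF N) - algebraMap Kbar (L I) c)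
      = ν (I.Jd 1 - algebraMap I.C I.M (algebraMap Kbar I.C c)) := by
    rw [hval _ (jL_sub_const_ne_zero I c) (by rw [jL_sub_const]; exact jL_sub_const_mem I c),
      jL_sub_const]
  refine ⟨V, νL, fun a => hconst _ (algebraMap Kbar I.C a) rfl, hmul, hmem, ?_, ?_, ?_, ?_⟩
  · rw [hj]; exact hpos
  · rw [hj]; exact hle
  · intro hc
    exact (hinv (rho I ModularGroup.S) (τ I ModularGroup.S) (fun y => rfl)
      (fun a ha => Aux16.act_mem_adjoin I.act I.Jd N _ ha) (fun a ha ha0 => hS hc a ha ha0)).2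
  · intro hc
    exact (hinv (rho I (ModularGroup.S * ModularGroup.T)) (τ I (ModularGroup.S * ModularGroup.T))
      (fun y => rfl) (fun a ha => Aux16.act_mem_adjoin I.act I.Jd N _ ha)
      (fun a ha ha0 => hST hc a ha ha0)).2

theorem val_inf : ∃ (V : ValuationSubring (L I)) (ν : L I → ℤ),
    (∀ a : Kbar, algebraMap Kbar (L I) a ∈ V) ∧
    (∀ y z : L I, y ≠ 0 → z ≠ 0 → ν (y * z) = ν y + ν z) ∧
    (∀ y : L I, y ≠ 0 → (y ∈ V ↔ 0 ≤ ν y)) ∧
    ν (algebraMap (FN N) (L I) (jF N)) < 0 ∧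
    -(N : ℤ) ≤ ν (algebraMap (FN N) (L I) (jF N)) ∧
    (∀ y ∈ V, rho I ModularGroup.T y ∈ V) := by
  obtain ⟨ν, hν, hneg, hge, hT⟩ := I.val_inf
  obtain ⟨V, νL, hmul, hmem, hval, hconst, hinv⟩ :=
    Aux16.exists_val_of_embedding (S I) ν hν (ιL I) (fun y => L_le_adjoinC I y.2)
  have hj0 : algebraMap (FN N) (L I) (jF N) ≠ 0 := by
    have := jL_sub_const_ne_zero I 0
    rwa [map_zero, sub_zero] at this
  have hj : νL (algebraMap (FN N) (L I) (jF N)) = ν (I.Jd 1) := by
    have h1 : ιL I (algebraMap (FN N) (L I) (jF N)) = I.Jd 1 := coe_Phi_jF I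
    have h2 : ιL I (algebraMap (FN N) (L I) (jF N)) ∈ Algebra.adjoin I.C (S I) := by
      rw [h1]
      exact Algebra.subset_adjoin (Aux16.Jd_mem_conjSet I.act I.Jd N (one_dvd N))
    rw [hval _ hj0 h2, h1]
  refine ⟨V, νL, fun a => hconst _ (algebraMap Kbar I.C a) rfl, hmul, hmem, ?_, ?_, ?_⟩
  · rw [hj]; exact hneg
  · rw [hj]; exact hge
  · exact (hinv (rho I ModularGroup.T) (τ I ModularGroup.T) (fun y => rfl)
      (fun a ha => Aux16.act_mem_adjoin I.act I.Jd N _ ha) (fun a ha ha0 => hT a ha ha0)).2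

/-- **The glue.** An analytic input (plus algebraicity of the `j(dτ)` over `Kbar(j)`) gives a
modular tower. -/
theorem nonempty_modularTower
    (halg : ∀ d : Dv N, IsAlgebraic (IntermediateField.adjoin Kbar {I.Jd 1}) (I.Jd d.1)) :
    Nonempty (ModularTower N) :=
  ⟨{ L := L I
     instField := inferInstance
     instAlgK := inferInstance
     instAlgF := algFL I
     instTower := towerKFL I
     ρ := rho I
     finite_range := finite_range I
     ρ_neg_one := rho_neg_one I
     fixes_j := fixes_j I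
     fixed := fixed I halg
     fixes_F_iff := fixes_F_iff I
     T_zpow := T_zpow I
     val_fin := val_fin I
     val_inf := val_inf I }⟩

end Fermat.Agent.S24.Mod.Tower16
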