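/-
S24, package MOD (helper16): the glue `AnalyticInput N → ModularTower N` with NO extra hypothesis,
combining `Mod/Tower16` (helper16) with the descent of algebraicity `Mod/Trans` (helper39).
-/
import Fermat.Agent.S24.Mod.Tower16
import Fermat.Agent.S24.Mod.Trans

set_option autoImplicit false

open AlgebraicCurve IntermediateField
open scoped MatrixGroups
open ModularCurve

namespace Fermat.Agent.S24.Mod.Tower16

/-- **MOD glue, final form**: every analytic input gives a modular tower. -/
theorem nonempty_modularTower_of_analyticInput {N : ℕ} [NeZero N] (I : AnalyticInput N) :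
    Nonempty (ModularTower N) :=
  nonempty_modularTower I fun d =>
    (Mod.algRel_Kbar_Jd I d.2).isAlgebraic (Mod.transcendental_J_Kbar I)

end Fermat.Agent.S24.Mod.Tower16
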